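import Fermat.Agent.S56.RQ.Final
import Fermat.Agent.S55.Inv.WeakInvH904

/-!
# Row S56 — REC-Q-SUB, UNCONDITIONAL (helper554)

`recQSubClosed : H716.RecQSubStatement` and `recQClosed : H716.RecQStatement`:
the RQ route (`RQ/Final.lean`, all elementary leaves on main) plugged into helper904's
unconditional weak invariant package `S55.Inv.H904.weakInv` (invariant maps on `H²(G_v, μ_p)` with
reciprocity and injectivity, from the closed block REC of S55).
-/

set_option autoImplicit false

noncomputable section

namespace Fermat.Agent.S56.RQ

open Fermat.Agent.S56 Fermat.Agent.S56.H716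

/-- The weak invariant package of S55 holds (helper904). -/
theorem weakInvInput : H554.WeakInvInput :=
  fun p _ S hp2 _ => Fermat.Agent.S55.Inv.H904.weakInv p S hp2

/-- **REC-Q-SUB**, unconditionally. -/
theorem recQSubClosed : H716.RecQSubStatement :=
  recQSub_of_weakInv weakInvInput

/-- **REC-Q**, unconditionally. -/
theorem recQClosed : H716.RecQStatement :=
  recQ (H554.weakInvInput₁_of_weakInvInput weakInvInput)

end Fermat.Agent.S56.RQ

end
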