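import Fermat.Agent.S56.RQ.RecipWeak
import Fermat.Agent.S55.Inv.WeakInvH904

/-!
# Row S56 — REC-Q leaf RECIP, CLOSED (helper904)

The weak invariant package `H554.WeakInvInput` (invariant maps on `H²(G_v, μ_p)`, `v ∈ S`, with
reciprocity and injectivity) is PROVED unconditionally by `S55.Inv.H904.weakInv` (from the closed
reciprocity law of S55 block REC).  Hence, with helper554/helper14's bridge `plainRecip_of_weak₁`:

* `weakInvInput : H554.WeakInvInput`, `weakInvInput₁ : H554.WeakInvInput₁`;
* `plainRecip : PlainRecipStatement`   (leaf RECIP of REC-Q, unconditional).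
-/

set_option autoImplicit false

namespace Fermat.Agent.S56.RQ.H904

open Fermat.Agent.S56 Fermat.Agent.S56.RQ

/-- The weak invariant package of S55, unconditionally. -/
theorem weakInvInput : H554.WeakInvInput :=
  fun p _ S hp2 _ => Fermat.Agent.S55.Inv.H904.weakInv p S hp2

/-- The weak invariant package of S55 (injectivity at `v ≡ 1 mod p`), unconditionally. -/
theorem weakInvInput₁ : H554.WeakInvInput₁ :=
  H554.weakInvInput₁_of_weakInvInput weakInvInput

/-- **RECIP**, unconditional: the plain reciprocity package. -/
theorem plainRecip : PlainRecipStatement :=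
  H554.plainRecip_of_weak₁ weakInvInput₁

end Fermat.Agent.S56.RQ.H904
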