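import Fermat.Agent.S56.RQ.Final
import Fermat.Agent.S56.RQ.WeakInvH904

/-!
# Row S56 — REC-Q, CLOSED (helper904)

`RQ/Final.lean` (helper554) proves `recQSub`, `recQ` from the weak invariant package
`H554.WeakInvInput₁`; `RQ/WeakInvH904.lean` proves that package unconditionally.  Hence:

* `recQSub : H716.RecQSubStatement`,
* `recQ : H716.RecQStatement`.
-/

set_option autoImplicit false

namespace Fermat.Agent.S56.RQ.H904

open Fermat.Agent.S56 Fermat.Agent.S56.RQ

/-- **REC-Q-SUB**, unconditional. -/
theorem recQSub : H716.RecQSubStatement := RQ.recQSub weakInvInput₁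

/-- **REC-Q**, unconditional. -/
theorem recQ : H716.RecQStatement := RQ.recQ weakInvInput₁

end Fermat.Agent.S56.RQ.H904
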