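import Fermat.Agent.S56.RQ.Defs

/-!
# Row S56 — REC-Q (reciprocity over the Taylor–Wiles primes): FROZEN leaf statements
(sub-architect helper554)

`REC-Q  ⇐  RECIP + FRAME + LINE + NONDEG + URCUP + LOCTRIV + COBCUP + CONJ + GLOBZ`
(glue: `RQ/Glue.lean`), and `GLOBZ ⇐ INFL`, `URCUP, LOCTRIV ⇐ GEN` (inside the leaves).

`M = ad⁰ρ̄`, `M' = M(1)`; `q` a Taylor–Wiles prime, `P | q`, `D_P ⊇ I_P`, `φ` a Frobenius at `P`.
Everything is plain-function language; ONLY the leaf `RECIP` touches the S55/PT vocabulary.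

## Arithmetic input

* `PlainRecipStatement` (RECIP): the reciprocity package `PlainRecip k p Sg` for every finite
  field `k` of characteristic `p ≠ 2` and every finite set of primes `Sg ∋ p`.
  (From `S55.PT.InvSpec p Sg`: `inv v z := Σ_i e_i · inv_v [ℓ_i ∘ z ∘ (rl v × rl v)]` for an
  `F_p`-basis `e_i` of `k` with dual basis `ℓ_i`, extended linearly to all 2-cochains;
  `range (rl v) = D_{padicPlace v}` (`S55/Bridge/DecompLift`); injectivity at `v ≡ 1 mod p` is
  `TopLocIndSpec` for `W = ⊤`.)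

## Elementary leaves (Mathlib + Prelude + landed bridge lemmas)

* `GenStatement` (GEN): modulo any finite level, `D_P` is generated by `φ` and `I_P`.
* `InflStatement` (INFL): a subgroup of `G_ℚ` containing some `G_L` (`L` finite) and all inertia
  groups outside `Sg` contains `G_F` for a finite `F` unramified outside `Sg`.
* `FrameStatement` (FRAME): a uniform generator of tame inertia: `τ ∈ I_P` such that every
  ad-cocycle vanishing at `τ` vanishes on `I_P`.
* `LineStatement` (LINE): linear algebra of the regular semisimple `ρ̄(φ)`: the line `k·h`.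
* `NondegStatement` (NONDEG): `c ∪ y` a coboundary on `D_P`, `y` unramified ⇒ `tr (c τ · y φ) = 0`.
* `UrCupStatement` (URCUP): unramified ∪ unramified is a coboundary on `D_P`.
* `LocTrivTwStatement` (LOCTRIV): an unramified twisted cocycle with `y φ = φ m φ⁻¹ − m` is the
  coboundary of `m` on `D_P`.
* `CobCupStatement` (COBCUP): (coboundary) ∪ y and c ∪ (coboundary) are coboundaries.
* `ConjStatement` (CONJ): independence of the place: unramified at one `P | q` ⇒ `UnramAt`;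
  coboundary on `D_P` ⇒ coboundary on `D_{P'}`.
* `GlobZStatement` (GLOBZ): `c ∪ y` is a global 2-cocycle, level-constant for a level unramified
  outside `Smin ∪ Q`.

Nothing unproved in this file.  Plan: `coord/S56-RECQ.md` on `origin/main`.
-/

set_option autoImplicit false

open Polynomial IsLocalRing

noncomputable section

namespace Fermat.Agent.S56.RQ

open Fermat.Agent.S56 Fermat.Agent.S56.H716

/-- (RECIP): the plain reciprocity package, for every finite field of characteristic `p ≠ 2` and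
every finite set of primes containing `p`. -/
def PlainRecipStatement : Prop :=
  ∀ (k : Type) [Field k] [Finite k] (p : ℕ) [CharP k p], p.Prime → p ≠ 2 →
    ∀ Sg : Finset ℕ, p ∈ Sg → (∀ v ∈ Sg, v.Prime) → PlainRecip k p Sg

/-- (GEN): modulo any finite level, the decomposition group is generated by a Frobenius element
and the inertia group. -/
def GenStatement : Prop :=
  ∀ (q : ℕ) (P : ValuationSubring Qb) (φ : GQ), q.Prime → P.LiesOverPrime q →
    P.IsFrobeniusAt φ q →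
    ∀ L : IntermediateField ℚ Qb, FiniteDimensional ℚ L →
      ∀ σ ∈ P.decompositionSubgroup ℚ, ∃ n : ℕ, ∃ τ ∈ P.inertiaSubgroupIn ℚ,
        ∀ x ∈ L, σ x = (φ ^ n * τ) x

/-- (INFL): a subgroup containing an open subgroup and all inertia groups outside `Sg` contains
`G_F` for a finite extension `F` unramified outside `Sg`. -/
def InflStatement : Prop :=
  ∀ (Sg : Finset ℕ) (N : Subgroup GQ),
    (∃ L : IntermediateField ℚ Qb, FiniteDimensional ℚ L ∧
      ∀ s : GQ, (∀ x ∈ L, s x = x) → s ∈ N) →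
    (∀ q : ℕ, q.Prime → q ∉ Sg → ∀ P : ValuationSubring Qb, P.LiesOverPrime q →
      P.inertiaSubgroupIn ℚ ≤ N) →
    ∃ F : IntermediateField ℚ Qb, FiniteDimensional ℚ F ∧
      (∀ q : ℕ, q.Prime → q ∉ Sg → ∀ P : ValuationSubring Qb, P.LiesOverPrime q →
        ∀ s ∈ P.inertiaSubgroupIn ℚ, ∀ x ∈ F, s x = x) ∧
      ∀ s : GQ, (∀ x ∈ F, s x = x) → s ∈ N

/-- (FRAME): at a Taylor–Wiles prime there is `τ ∈ I_P` such that every ad-cocycle vanishing at
`τ` vanishes on `I_P`. -/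
def FrameStatement : Prop :=
  ∀ (𝒪 : Type) [CommRing 𝒪] [IsDomain 𝒪] [IsDiscreteValuationRing 𝒪]
    [IsAdicComplete (maximalIdeal 𝒪) 𝒪] [Finite (ResidueField 𝒪)]
    (p : ℕ) (ρbar : ResidualGaloisRep (ResidueField 𝒪)) (S Smin : Finset ℕ),
    Hyp 𝒪 p ρbar S Smin → ∀ q : ℕ, IsTWPrime ρbar p S q →
    ∀ P : ValuationSubring Qb, P.LiesOverPrime q →
      ∃ τ ∈ P.inertiaSubgroupIn ℚ, ∀ c : GQ → Module.End (ResidueField 𝒪) ρbar.V,
        IsAdCocycle ρbar c → c τ = 0 → ∀ σ ∈ P.inertiaSubgroupIn ℚ, c σ = 0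

/-- (LINE): at a Taylor–Wiles prime, with `φ` a Frobenius element: there is a trace-zero `h`
commuting with `ρ̄ φ`, `tr h² ≠ 0`, such that the values of ad-cocycles on `I_P` lie on `k·h` and
the trace-zero `x` with `tr (h x) = 0` are of the form `φ m φ⁻¹ − m`, `tr m = 0`. -/
def LineStatement : Prop :=
  ∀ (𝒪 : Type) [CommRing 𝒪] [IsDomain 𝒪] [IsDiscreteValuationRing 𝒪]
    [IsAdicComplete (maximalIdeal 𝒪) 𝒪] [Finite (ResidueField 𝒪)]
    (p : ℕ) (ρbar : ResidualGaloisRep (ResidueField 𝒪)) (S Smin : Finset ℕ),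
    Hyp 𝒪 p ρbar S Smin → ∀ q : ℕ, IsTWPrime ρbar p S q →
    ∀ P : ValuationSubring Qb, P.LiesOverPrime q → ∀ φ : GQ, P.IsFrobeniusAt φ q →
      ∃ h : Module.End (ResidueField 𝒪) ρbar.V,
        LinearMap.trace (ResidueField 𝒪) ρbar.V h = 0 ∧
        LinearMap.trace (ResidueField 𝒪) ρbar.V (h * h) ≠ 0 ∧
        ρbar.ρ φ * h = h * ρbar.ρ φ ∧
        (∀ c : GQ → Module.End (ResidueField 𝒪) ρbar.V, IsAdCocycle ρbar c →
          ∀ τ ∈ P.inertiaSubgroupIn ℚ, ∃ a : ResidueField 𝒪, c τ = a • h) ∧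
        (∀ x : Module.End (ResidueField 𝒪) ρbar.V,
          LinearMap.trace (ResidueField 𝒪) ρbar.V x = 0 →
          LinearMap.trace (ResidueField 𝒪) ρbar.V (h * x) = 0 →
          ∃ m : Module.End (ResidueField 𝒪) ρbar.V,
            LinearMap.trace (ResidueField 𝒪) ρbar.V m = 0 ∧
              x = ρbar.ρ φ * m * ρbar.ρ φ⁻¹ - m)

/-- (NONDEG): if the cup product of an ad-cocycle `c` and a twisted cocycle `y` unramified at `P`
is a coboundary on `D_P`, then `tr (c τ · y φ) = 0` for `τ ∈ I_P`, `φ` a Frobenius at `P`. -/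
def NondegStatement : Prop :=
  ∀ (𝒪 : Type) [CommRing 𝒪] [IsDomain 𝒪] [IsDiscreteValuationRing 𝒪]
    [IsAdicComplete (maximalIdeal 𝒪) 𝒪] [Finite (ResidueField 𝒪)]
    (p : ℕ) (ρbar : ResidualGaloisRep (ResidueField 𝒪)) (S Smin : Finset ℕ),
    Hyp 𝒪 p ρbar S Smin → ∀ q : ℕ, IsTWPrime ρbar p S q →
    ∀ P : ValuationSubring Qb, P.LiesOverPrime q → ∀ φ : GQ, P.IsFrobeniusAt φ q →
    ∀ τ ∈ P.inertiaSubgroupIn ℚ,
    ∀ c y : GQ → Module.End (ResidueField 𝒪) ρbar.V, IsAdCocycle ρbar c →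
      IsTwCocycle ρbar p y → (∀ σ ∈ P.inertiaSubgroupIn ℚ, y σ = 0) →
      IsCob₂On p (P.decompositionSubgroup ℚ) (cup ρbar c y) →
      LinearMap.trace (ResidueField 𝒪) ρbar.V (c τ * y φ) = 0

/-- (URCUP): at a Taylor–Wiles prime, the cup product of two cocycles unramified at `P` is a
coboundary on `D_P`. -/
def UrCupStatement : Prop :=
  ∀ (𝒪 : Type) [CommRing 𝒪] [IsDomain 𝒪] [IsDiscreteValuationRing 𝒪]
    [IsAdicComplete (maximalIdeal 𝒪) 𝒪] [Finite (ResidueField 𝒪)]
    (p : ℕ) (ρbar : ResidualGaloisRep (ResidueField 𝒪)) (S Smin : Finset ℕ),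
    Hyp 𝒪 p ρbar S Smin → ∀ q : ℕ, IsTWPrime ρbar p S q →
    ∀ P : ValuationSubring Qb, P.LiesOverPrime q →
    ∀ c y : GQ → Module.End (ResidueField 𝒪) ρbar.V, IsAdCocycle ρbar c →
      IsTwCocycle ρbar p y → (∀ σ ∈ P.inertiaSubgroupIn ℚ, c σ = 0) →
      (∀ σ ∈ P.inertiaSubgroupIn ℚ, y σ = 0) →
      IsCob₂On p (P.decompositionSubgroup ℚ) (cup ρbar c y)

/-- (LOCTRIV): at a Taylor–Wiles prime, a twisted cocycle unramified at `P` whose value at a
Frobenius element `φ` is `φ m φ⁻¹ − m` is the coboundary of `m` on `D_P`. -/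
def LocTrivTwStatement : Prop :=
  ∀ (𝒪 : Type) [CommRing 𝒪] [IsDomain 𝒪] [IsDiscreteValuationRing 𝒪]
    [IsAdicComplete (maximalIdeal 𝒪) 𝒪] [Finite (ResidueField 𝒪)]
    (p : ℕ) (ρbar : ResidualGaloisRep (ResidueField 𝒪)) (S Smin : Finset ℕ),
    Hyp 𝒪 p ρbar S Smin → ∀ q : ℕ, IsTWPrime ρbar p S q →
    ∀ P : ValuationSubring Qb, P.LiesOverPrime q → ∀ φ : GQ, P.IsFrobeniusAt φ q →
    ∀ y : GQ → Module.End (ResidueField 𝒪) ρbar.V, IsTwCocycle ρbar p y →
      (∀ σ ∈ P.inertiaSubgroupIn ℚ, y σ = 0) →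
      ∀ m : Module.End (ResidueField 𝒪) ρbar.V,
        LinearMap.trace (ResidueField 𝒪) ρbar.V m = 0 →
        y φ = ρbar.ρ φ * m * ρbar.ρ φ⁻¹ - m →
        IsTwCoboundaryOn ρbar p (P.decompositionSubgroup ℚ) y m

/-- (COBCUP): the cup product with a coboundary (on a subgroup `H`) is a coboundary on `H`. -/
def CobCupStatement : Prop :=
  ∀ (k : Type) [Field k] (p : ℕ) [CharP k p], p.Prime →
    ∀ (ρbar : ResidualGaloisRep k) (H : Subgroup GQ)
      (c y : GQ → Module.End k ρbar.V), IsAdCocycle ρbar c → IsTwCocycle ρbar p y →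
      (IsAdCoboundaryOn ρbar H c → IsCob₂On p H (cup ρbar c y)) ∧
      ((∃ m, IsTwCoboundaryOn ρbar p H y m) → IsCob₂On p H (cup ρbar c y))

/-- (CONJ): independence of the place.  (a) if `ρ̄` is unramified at `q`, an ad-cocycle vanishing
on one inertia group over `q` is unramified at `q`; (b) an ad-cocycle which is a coboundary on one
decomposition group over `v` is a coboundary on every decomposition group over `v`. -/
def ConjStatement : Prop :=
  ∀ (k : Type) [Field k] (ρbar : ResidualGaloisRep k) (v : ℕ), v.Prime →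
    ∀ P P' : ValuationSubring Qb, P.LiesOverPrime v → P'.LiesOverPrime v →
    ∀ c : GQ → Module.End k ρbar.V, IsAdCocycle ρbar c →
      (ρbar.IsUnramifiedAt v → (∀ σ ∈ P.inertiaSubgroupIn ℚ, c σ = 0) →
        ∀ σ ∈ P'.inertiaSubgroupIn ℚ, c σ = 0) ∧
      (IsAdCoboundaryOn ρbar (P.decompositionSubgroup ℚ) c →
        IsAdCoboundaryOn ρbar (P'.decompositionSubgroup ℚ) c)

/-- (GLOBZ): the cup product of a strict Selmer cocycle of `Q` and a twisted cocycle unramified
outside `Smin` is a global 2-cocycle of `k(1)`, level-constant for a finite level unramified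
outside `Smin ∪ Q`. -/
def GlobZStatement : Prop :=
  ∀ (𝒪 : Type) [CommRing 𝒪] [IsDomain 𝒪] [IsDiscreteValuationRing 𝒪]
    [IsAdicComplete (maximalIdeal 𝒪) 𝒪] [Finite (ResidueField 𝒪)]
    (p : ℕ) (ρbar : ResidualGaloisRep (ResidueField 𝒪)) (S Smin : Finset ℕ),
    Hyp 𝒪 p ρbar S Smin → ∀ Q : Finset ℕ, (∀ q ∈ Q, IsTWPrime ρbar p S q) →
    ∀ c y : GQ → Module.End (ResidueField 𝒪) ρbar.V, IsAdCocycle ρbar c →
      (∀ q : ℕ, q.Prime → q ∉ Smin ∪ Q → UnramAt ρbar c q) →
      IsTwCocycle ρbar p y → (∀ q : ℕ, q.Prime → q ∉ Smin → UnramAt ρbar y q) →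
      IsGlobZ p (Smin ∪ Q) (cup ρbar c y)

end Fermat.Agent.S56.RQ

end
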