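import Fermat.Agent.S56.RQ.Spec
import Fermat.Agent.S56.H14.InvRec
import Fermat.Agent.S55.PT.LevelsH723
import Fermat.Agent.S55.Bridge.DualTwist

/-!
# Row S56 — REC-Q leaf RECIP: the plain reciprocity package from S55's `InvSpec` (helper14)

`plainRecip_of : (∀ p S, p ≠ 2 → pPrime p ∈ S → PT.InvSpec p S) → RQ.PlainRecipStatement`.

Construction (`k` a finite field of characteristic `p`, `Sg` a finite set of primes, `p ∈ Sg`,
`S = primesOf Sg`, `inv₀ : PT.InvFamily p S` from `InvSpec`):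

* places: `natPlace v = primeLocalPlace v` (the Prelude's place; `range (rl v) = D_v`);
* `Zloc v` = the `k`-space of plain 2-cochains `z` whose restriction `z ∘ (rl v × rl v)` is a
  level-constant 2-cocycle of `k(1)` on `G_v`;
* `Jloc v : Zloc v → k`, `z ↦ extInv (inv₀ v) [z ∘ (rl v × rl v)]` (`k`-linear);
* `inv v` := any `k`-linear extension of `Jloc v` to all 2-cochains (`LinearMap.exists_extend`).

Nothing unproved in this file.
-/

set_option autoImplicit false

noncomputable section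

namespace Fermat.Agent.S56.RQ.H14

open groupCohomology Fermat.Agent.S55.PT ExtCitation Fermat.Agent.S56.H14

/-! ### Sets of primes and places -/

/-- a finite set of natural numbers, as a finite set of primes -/
def primesOf (Sg : Finset ℕ) : Finset Nat.Primes := Sg.subtype Nat.Prime

lemma mem_primesOf {Sg : Finset ℕ} {q : Nat.Primes} : q ∈ primesOf Sg ↔ (q : ℕ) ∈ Sg :=
  Finset.mem_subtype

/-- the Prelude's place over a prime number (junk otherwise) -/
def natPlace (v : ℕ) : ValuationSubring (AlgebraicClosure ℚ) :=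
  if h : v.Prime then primeLocalPlace ⟨v, h⟩ else ⊤

lemma natPlace_coe (q : Nat.Primes) : natPlace (q : ℕ) = primeLocalPlace q := by
  unfold natPlace
  rw [dif_pos q.2]
  rfl

lemma natPlace_mk {v : ℕ} (hv : v.Prime) : natPlace v = primeLocalPlace ⟨v, hv⟩ :=
  natPlace_coe ⟨v, hv⟩

lemma natPlace_liesOver {v : ℕ} (hv : v.Prime) : (natPlace v).LiesOverPrime v := by
  rw [natPlace_mk hv]
  exact Fermat.Agent.S55.BLocal.primeLocalPlace_liesOver ⟨v, hv⟩

/-! ### Restriction of plain 2-cochains to the local Galois group -/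

section Loc

variable {p : ℕ} [Fact p.Prime] {K : Type} [Field K] [Algebra (ZMod p) K]

/-- restriction of a plain 2-cochain to `G_q` -/
def resLoc (q : Nat.Primes) (z : GQ × GQ → K) : Gl q × Gl q → K :=
  z ∘ Prod.map (rl q) (rl q)

lemma rl_mem (q : Nat.Primes) (s : Gl q) :
    rl q s ∈ (natPlace (q : ℕ)).decompositionSubgroup ℚ := by
  rw [natPlace_coe]
  exact Fermat.Agent.S55.BLocal.primeLocalToGlobal_mem q s

lemma exists_rl_eq (q : Nat.Primes) (σ : GQ)
    (hσ : σ ∈ (natPlace (q : ℕ)).decompositionSubgroup ℚ) : ∃ s : Gl q, rl q s = σ := by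
  rw [natPlace_coe] at hσ
  exact Fermat.Agent.S55.BLocal.exists_primeLocalToGlobal_eq q σ hσ

/-- `K(1)` restricted to `G_q` is uniformly smooth. -/
lemma isUSmooth_K1_loc (q : Nat.Primes) :
    (localLevels q).IsUSmooth (Rep.res (rl q) (K1 p K)) := by
  refine ⟨_, ⟨Fermat.Agent.S55.Bridge.cycloLevel p,
    Fermat.Agent.S55.Bridge.cycloLevel_finiteDimensional p, rfl⟩, fun s hs a => ?_⟩
  have h1 : cycloChar p (rl q s) = 1 :=
    Fermat.Agent.S55.Bridge.cycloChar_eq_one_of_mem_fixingSubgroup p _ hs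
  show (K1 p K).ρ (rl q s) a = a
  rw [twTriv_ρ_apply, h1, Units.val_one, one_smul]

/-- multiplication by `c ∈ K` is an equivariant endomorphism of `K(1)|_{G_q}` -/
lemma mulLeft_equivariant (q : Nat.Primes) (c : K) :
    IsEquivariant (A := Rep.res (rl q) (K1 p K)) (B := Rep.res (rl q) (K1 p K))
      (LinearMap.mulLeft (ZMod p) c) :=
  (twTriv_isEquivariant (cycloChar p) K (LinearMap.mulLeft (ZMod p) c)).res (rl q)

variable (p K) in
/-- The plain 2-cochains whose restriction to `G_q` is a level-constant 2-cocycle of `K(1)`. -/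
def Zloc (q : Nat.Primes) : Submodule K (GQ × GQ → K) where
  carrier := {z | resLoc q z ∈ (localLevels q).Z2 (Rep.res (rl q) (K1 p K))}
  add_mem' := by
    intro a b ha hb
    exact Submodule.add_mem ((localLevels q).Z2 (Rep.res (rl q) (K1 p K))) ha hb
  zero_mem' := Submodule.zero_mem ((localLevels q).Z2 (Rep.res (rl q) (K1 p K)))
  smul_mem' := by
    intro c z hz
    exact push_mem_Z2 (A := Rep.res (rl q) (K1 p K)) (B := Rep.res (rl q) (K1 p K))
      (LinearMap.mulLeft (ZMod p) c) (mulLeft_equivariant q c) (localLevels q) hz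

lemma mem_Zloc {q : Nat.Primes} {z : GQ × GQ → K} :
    z ∈ Zloc p K q ↔ resLoc q z ∈ (localLevels q).Z2 (Rep.res (rl q) (K1 p K)) := Iff.rfl

/-- the class in `H²(G_q, K(1))` of an element of `Zloc q` -/
def clsLoc (q : Nat.Primes) (z : ↥(Zloc p K q)) :
    (localLevels q).H2 (Rep.res (rl q) (K1 p K)) :=
  (localLevels q).H2π _ ⟨resLoc q z.1, z.2⟩

lemma clsLoc_add (q : Nat.Primes) (z z' : ↥(Zloc p K q)) :
    clsLoc q (z + z') = clsLoc q z + clsLoc q z' := by
  unfold clsLoc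
  rw [← map_add]
  rfl

lemma clsLoc_smul (q : Nat.Primes) (c : K) (z : ↥(Zloc p K q)) :
    clsLoc q (c • z) =
      pushH2 (A := Rep.res (rl q) (K1 p K)) (B := Rep.res (rl q) (K1 p K))
        (LinearMap.mulLeft (ZMod p) c) (mulLeft_equivariant q c) (localLevels q)
        (clsLoc q z) := by
  unfold clsLoc
  rw [pushH2_mk]
  congr 1

/-- A cochain which is a cocycle and level-constant on `D_q` lies in `Zloc q`. -/
lemma mem_Zloc_of_isCoc (q : Nat.Primes) {z : GQ × GQ → K}
    (hc : IsCoc₂On p ((natPlace (q : ℕ)).decompositionSubgroup ℚ) z)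
    (hl : IsLC₂On ((natPlace (q : ℕ)).decompositionSubgroup ℚ) z) : z ∈ Zloc p K q := by
  rw [mem_Zloc]
  refine ⟨?_, ?_⟩
  · show resLoc q z ∈ cocycles₂ (Rep.res (rl q) (K1 p K))
    rw [mem_cocycles₂_def]
    intro g h j
    obtain ⟨a, ha⟩ := exists_cycExp_invRec (p := p) (rl q g)
    rw [K1_ρ_rl_apply ha]
    have h1 := hc _ (rl_mem q g) _ (rl_mem q h) _ (rl_mem q j) a ha
    show (a : K) * z (rl q h, rl q j) - z (rl q (g * h), rl q j) + z (rl q g, rl q (h * j))
      - z (rl q g, rl q h) = 0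
    rw [map_mul, map_mul]
    linear_combination h1
  · obtain ⟨L, hL, hlev⟩ := hl
    refine ⟨_, ⟨L, hL, rfl⟩, fun g g' s s' hs hs' => ?_⟩
    show z (rl q (g * s), rl q (g' * s')) = z (rl q g, rl q g')
    rw [map_mul, map_mul]
    exact hlev _ (rl_mem q g) _ (rl_mem q g') _ (rl_mem q s) _ (rl_mem q s')
      ((IntermediateField.mem_fixingSubgroup_iff _ _).1 hs)
      ((IntermediateField.mem_fixingSubgroup_iff _ _).1 hs')

/-- The restriction to `G_q` of a local coboundary is a coboundary of a level-constant cochain. -/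
lemma resLoc_mem_B2_of_isCob (q : Nat.Primes) {z : GQ × GQ → K}
    (h : IsCob₂On p ((natPlace (q : ℕ)).decompositionSubgroup ℚ) z) :
    resLoc q z ∈ (localLevels q).B2 (Rep.res (rl q) (K1 p K)) := by
  obtain ⟨lam, ⟨L, hL, hlev⟩, hcob⟩ := h
  refine ⟨fun s => lam (rl q s), ?_, ?_⟩
  · refine ⟨_, ⟨L, hL, rfl⟩, fun g s hs => ?_⟩
    show lam (rl q (g * s)) = lam (rl q g)
    rw [map_mul]
    exact hlev _ (rl_mem q g) _ (rl_mem q s) ((IntermediateField.mem_fixingSubgroup_iff _ _).1 hs)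
  · funext ⟨g, h⟩
    obtain ⟨a, ha⟩ := exists_cycExp_invRec (p := p) (rl q g)
    have h1 := hcob _ (rl_mem q g) _ (rl_mem q h) a ha
    have hd : (d₁₂ (Rep.res (rl q) (K1 p K))).hom (fun s => lam (rl q s)) (g, h)
        = (Rep.res (rl q) (K1 p K)).ρ g (lam (rl q h)) - lam (rl q (g * h))
          + lam (rl q g) := rfl
    rw [hd, K1_ρ_rl_apply ha, map_mul]
    exact h1.symm

lemma mem_Zloc_of_isCob (q : Nat.Primes) {z : GQ × GQ → K}
    (h : IsCob₂On p ((natPlace (q : ℕ)).decompositionSubgroup ℚ) z) : z ∈ Zloc p K q :=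
  LevelSys.B2_le_Z2 (localLevels q) (H723.pullbackLevels_normalCofinal (rl q))
    (isUSmooth_K1_loc q) (resLoc_mem_B2_of_isCob q h)

lemma clsLoc_eq_zero_of_isCob (q : Nat.Primes) {z : GQ × GQ → K}
    (h : IsCob₂On p ((natPlace (q : ℕ)).decompositionSubgroup ℚ) z) :
    clsLoc q ⟨z, mem_Zloc_of_isCob q h⟩ = 0 := by
  unfold clsLoc
  rw [LevelSys.H2π_eq_zero_iff]
  exact resLoc_mem_B2_of_isCob q h

/-- A cochain of `Zloc q` with trivial class is a coboundary on `D_q`. -/
lemma isCob_of_clsLoc_eq_zero (q : Nat.Primes) (z : ↥(Zloc p K q)) (h : clsLoc q z = 0) :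
    IsCob₂On p ((natPlace (q : ℕ)).decompositionSubgroup ℚ) z.1 := by
  unfold clsLoc at h
  rw [LevelSys.H2π_eq_zero_iff] at h
  obtain ⟨x, ⟨U, ⟨F, hF, rfl⟩, hxU⟩, hdx⟩ := h
  classical
  have hker : ∀ s s' : Gl q, rl q s = rl q s' → x s = x s' := by
    intro s s' hss
    have hmem : s⁻¹ * s' ∈ (F.fixingSubgroup).comap (rl q) := by
      rw [Subgroup.mem_comap, map_mul, map_inv, hss, inv_mul_cancel]
      exact Subgroup.one_mem _
    have := hxU s (s⁻¹ * s') hmem
    rw [mul_inv_cancel_left] at this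
    exact this.symm
  let lam : GQ → K := fun σ => if hσ : ∃ s : Gl q, rl q s = σ then x hσ.choose else 0
  have hlam : ∀ s : Gl q, lam (rl q s) = x s := by
    intro s
    have hσ : ∃ s' : Gl q, rl q s' = rl q s := ⟨s, rfl⟩
    show (if hσ : ∃ s' : Gl q, rl q s' = rl q s then x hσ.choose else 0) = x s
    rw [dif_pos hσ]
    exact hker _ _ hσ.choose_spec
  refine ⟨lam, ⟨F, hF, ?_⟩, ?_⟩
  · intro σ hσ τ hτ hτF
    obtain ⟨s, rfl⟩ := exists_rl_eq q σ hσ
    obtain ⟨t, rfl⟩ := exists_rl_eq q τ hτ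
    rw [← map_mul, hlam, hlam]
    exact hxU s t ((IntermediateField.mem_fixingSubgroup_iff _ _).2 hτF)
  · intro σ hσ τ hτ a ha
    obtain ⟨s, rfl⟩ := exists_rl_eq q σ hσ
    obtain ⟨t, rfl⟩ := exists_rl_eq q τ hτ
    have h1 := congrFun hdx (s, t)
    have hd : (d₁₂ (Rep.res (rl q) (K1 p K))).hom x (s, t)
        = (Rep.res (rl q) (K1 p K)).ρ s (x t) - x (s * t) + x s := rfl
    rw [hd, K1_ρ_rl_apply ha] at h1
    rw [← map_mul, hlam, hlam, hlam]
    exact h1.symm

/-! ### The local invariant on `Zloc` -/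

variable {S : Finset Nat.Primes} [FiniteDimensional (ZMod p) K]

/-- the `K`-linear invariant on `Zloc v` -/
def Jloc (inv : InvFamily p S) (v : ↥S) : ↥(Zloc p K v.1) →ₗ[K] K where
  toFun z := extInvLoc inv v (clsLoc v.1 z)
  map_add' z z' := by rw [clsLoc_add, map_add]
  map_smul' c z := by
    rw [clsLoc_smul, RingHom.id_apply, smul_eq_mul]
    have h := extInv_pushH2_endo (W := K) (localLevels v.1) ((cycloChar p).comp (rl v.1))
      (inv v) (LinearMap.mulLeft (ZMod p) c) (clsLoc v.1 z)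
    rw [LinearMap.mulLeft_apply] at h
    exact h

lemma Jloc_apply (inv : InvFamily p S) (v : ↥S) (z : ↥(Zloc p K v.1)) :
    Jloc inv v z = extInvLoc inv v (clsLoc v.1 z) := rfl

/-- a `K`-linear extension of `Jloc` to all plain 2-cochains -/
def invExt (inv : InvFamily p S) (v : ↥S) : (GQ × GQ → K) →ₗ[K] K :=
  Classical.choose (LinearMap.exists_extend (Jloc (K := K) inv v))

lemma invExt_apply (inv : InvFamily p S) (v : ↥S) {z : GQ × GQ → K}
    (hz : z ∈ Zloc p K v.1) : invExt inv v z = extInvLoc inv v (clsLoc v.1 ⟨z, hz⟩) := by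
  have h := Classical.choose_spec (LinearMap.exists_extend (Jloc (K := K) inv v))
  have h2 := LinearMap.congr_fun h ⟨z, hz⟩
  exact h2

/-- (cob) -/
theorem invExt_eq_zero_of_isCob (inv : InvFamily p S) (v : ↥S) {z : GQ × GQ → K}
    (h : IsCob₂On p ((natPlace ((v.1 : Nat.Primes) : ℕ)).decompositionSubgroup ℚ) z) :
    invExt inv v z = 0 := by
  rw [invExt_apply inv v (mem_Zloc_of_isCob v.1 h), clsLoc_eq_zero_of_isCob v.1 h, map_zero]

/-- (inj) -/
theorem isCob_of_invExt_eq_zero {inv : InvFamily p S} (htop : TopLocIndSpec inv) (v : ↥S)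
    (hvp : ((v.1 : Nat.Primes) : ℕ) ≠ p) (hdvd : p ∣ ((v.1 : Nat.Primes) : ℕ) - 1)
    {z : GQ × GQ → K}
    (hc : IsCoc₂On p ((natPlace ((v.1 : Nat.Primes) : ℕ)).decompositionSubgroup ℚ) z)
    (hl : IsLC₂On ((natPlace ((v.1 : Nat.Primes) : ℕ)).decompositionSubgroup ℚ) z)
    (h0 : invExt inv v z = 0) :
    IsCob₂On p ((natPlace ((v.1 : Nat.Primes) : ℕ)).decompositionSubgroup ℚ) z := by
  have hz : z ∈ Zloc p K v.1 := mem_Zloc_of_isCoc v.1 hc hl
  rw [invExt_apply inv v hz] at h0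
  have hinj : Function.Injective (inv v) := (inv_bijective_of_dvd_sub_one htop v hvp hdvd).1
  have h1 : extInv (W := K) (localLevels v.1) ((cycloChar p).comp (rl v.1)) (inv v)
      (clsLoc v.1 ⟨z, hz⟩) = 0 := h0
  have h2 := (extInv_eq_zero_iff (W := K) (localLevels v.1) ((cycloChar p).comp (rl v.1))
    (inv := inv v) hinj (clsLoc v.1 ⟨z, hz⟩)).1 h1
  exact isCob_of_clsLoc_eq_zero v.1 ⟨z, hz⟩ h2

end Loc

/-! ### Global cocycles and reciprocity -/

section Glob

variable {p : ℕ} [Fact p.Prime] {K : Type} [Field K] [Algebra (ZMod p) K]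

omit [Fact p.Prime] [Algebra (ZMod p) K] in
/-- A global plain 2-cocycle (`IsGlobZ`) is good in the sense of `H14/InvRec.lean`. -/
lemma isGood2_of_isGlobZ {Sg : Finset ℕ} {z : GQ × GQ → K} (hz : IsGlobZ p Sg z) :
    IsGood2 p (primesOf Sg) z := by
  obtain ⟨hc, L, hL, hur, hlev⟩ := hz
  refine ⟨fun σ τ υ a ha => ?_, ⟨L, ⟨hL, fun q hq A hA s hs => ?_⟩, fun g g' s s' hs hs' => ?_⟩⟩
  · have h1 := hc σ (Subgroup.mem_top _) τ (Subgroup.mem_top _) υ (Subgroup.mem_top _) a ha
    linear_combination h1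
  · rw [IntermediateField.mem_fixingSubgroup_iff]
    exact hur q q.2 (fun h => hq (mem_primesOf.2 h)) A hA s hs
  · exact hlev g g' s s' ((IntermediateField.mem_fixingSubgroup_iff _ _).1 hs)
      ((IntermediateField.mem_fixingSubgroup_iff _ _).1 hs')

variable [FiniteDimensional (ZMod p) K]

/-- (recip) in terms of `invExt`. -/
theorem sum_invExt_eq_zero {Sg : Finset ℕ} {inv : InvFamily p (primesOf Sg)}
    (hrec : RecipSpec inv) {z : GQ × GQ → K} (hz : IsGlobZ p Sg z) :
    ∑ v : ↥(primesOf Sg), invExt inv v z = 0 := by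
  have hg := isGood2_of_isGlobZ hz
  rw [← sum_invH_eq_zero hrec (cls2 hg)]
  refine Finset.sum_congr rfl fun v _ => ?_
  have hmem : z ∈ Zloc p K v.1 :=
    res_mem_Z2 (hrl (primesOf Sg) v) (K1 p K) (mem_Z2_of_isGood2 hg)
  rw [invExt_apply inv v hmem]
  rfl

end Glob

/-! ### The statement -/

/-- **RECIP**: the plain reciprocity package, from S55's `InvSpec`. -/
theorem plainRecip_of
    (hS55 : ∀ (p : ℕ) [Fact p.Prime] (S : Finset Nat.Primes), p ≠ 2 → pPrime p ∈ S →
      InvSpec p S) : PlainRecipStatement := by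
  intro K _ _ p _ hp hp2 Sg hpSg hSg
  have : Fact p.Prime := ⟨hp⟩
  let _ : Algebra (ZMod p) K := ZMod.algebra K p
  have : FiniteDimensional (ZMod p) K := Module.Finite.of_finite
  have hpS : pPrime p ∈ primesOf Sg := mem_primesOf.2 hpSg
  obtain ⟨inv, hrec, htop, -⟩ := hS55 p (primesOf Sg) hp2 hpS
  classical
  -- the index of a prime of `Sg` in `primesOf Sg`
  let idx : ∀ v : ℕ, v ∈ Sg → ↥(primesOf Sg) :=
    fun v hv => ⟨⟨v, hSg v hv⟩, mem_primesOf.2 hv⟩
  let invN : ℕ → (GQ × GQ → K) →ₗ[K] K :=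
    fun v => if hv : v ∈ Sg then invExt inv (idx v hv) else 0
  have hinvN : ∀ (v : ℕ) (hv : v ∈ Sg), invN v = invExt inv (idx v hv) := by
    intro v hv
    show (if hv : v ∈ Sg then invExt inv (idx v hv) else 0) = _
    rw [dif_pos hv]
  refine ⟨natPlace, invN, fun v hv => natPlace_liesOver (hSg v hv), ?_, ?_, ?_⟩
  · intro v hv z hz
    rw [hinvN v hv]
    exact invExt_eq_zero_of_isCob inv (idx v hv) hz
  · intro v hv hdvd z hc hl h0
    rw [hinvN v hv] at h0
    have hvp : v ≠ p := by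
      rintro rfl
      have h1 : v ≤ v - 1 := Nat.le_of_dvd (Nat.sub_pos_of_lt hp.one_lt) hdvd
      have h2 := hp.pos
      omega
    exact isCob_of_invExt_eq_zero htop (idx v hv) hvp hdvd hc hl h0
  · intro z hz
    have h1 := sum_invExt_eq_zero hrec hz
    have h2 : ∑ v ∈ Sg, invN v z = ∑ q ∈ primesOf Sg, invN (q : ℕ) z :=
      (Finset.sum_subtype_of_mem (fun v => invN v z) hSg).symm
    rw [h2, ← Finset.sum_coe_sort (primesOf Sg) (fun q => invN (q : ℕ) z), ← h1]
    refine Finset.sum_congr rfl fun w _ => ?_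
    have hw : ((w.1 : Nat.Primes) : ℕ) ∈ Sg := mem_primesOf.1 w.2
    have hidx : idx _ hw = w := Subtype.ext (Subtype.ext rfl)
    rw [hinvN _ hw, hidx]

end Fermat.Agent.S56.RQ.H14

end
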