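import Fermat.Agent.S56.RQ.Spec
import Fermat.Agent.S56.H554.LocTW

/-!
# Row S56 — REC-Q, leaf LINE (helper454)

Linear algebra of the regular semisimple `F = ρ̄(φ)` at a Taylor–Wiles prime:
`h := 2F − (α + β)` is trace-zero, commutes with `F`, `h² = (α − β)²`, the trace-zero centraliser
of `F` is the line `k·h`, and the trace-zero `x` with `tr (h x) = 0` are of the form
`F m F⁻¹ − m`, `m = −(α−β)⁻² · x F h`.

* `line : LineStatement`.
-/

set_option autoImplicit false
set_option linter.style.haveILetI false

open Polynomial IsLocalRing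

noncomputable section

namespace Fermat.Agent.S56.RQ.H454

open Fermat.Agent.S56 Fermat.Agent.S56.H716

section LinAlg

variable {k : Type} [Field k] {V : Type} [AddCommGroup V] [Module k V]

/-- For trace-zero endomorphisms of a plane: `AB + BA = tr(AB)`. -/
theorem anticomm (hV : Module.finrank k V = 2) (A B : Module.End k V)
    (hA : LinearMap.trace k V A = 0) (hB : LinearMap.trace k V B = 0) :
    A * B + B * A = (LinearMap.trace k V (A * B)) • (1 : Module.End k V) := by
  haveI : Module.Finite k V := Module.finite_of_finrank_eq_succ hV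
  set b : Module.Basis (Fin 2) k V := Module.finBasisOfFinrankEq k V hV
  have hA' : (LinearMap.toMatrix b b A).trace = 0 := by
    rw [← LinearMap.trace_eq_matrix_trace k b A]; exact hA
  have hB' : (LinearMap.toMatrix b b B).trace = 0 := by
    rw [← LinearMap.trace_eq_matrix_trace k b B]; exact hB
  apply (LinearMap.toMatrix b b).injective
  rw [map_add, LinearMap.toMatrix_mul, LinearMap.toMatrix_mul, map_smul, LinearMap.toMatrix_one,
    LinearMap.trace_eq_matrix_trace k b (A * B), LinearMap.toMatrix_mul]
  generalize LinearMap.toMatrix b b A = M at hA' ⊢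
  generalize LinearMap.toMatrix b b B = N at hB' ⊢
  rw [Matrix.trace_fin_two] at hA' hB'
  ext i j
  fin_cases i <;> fin_cases j <;>
    simp [Matrix.mul_apply, Fin.sum_univ_two, Matrix.trace_fin_two]
  · linear_combination N 0 0 * hA' - M 1 1 * hB'
  · linear_combination N 0 1 * hA' + M 0 1 * hB'
  · linear_combination N 1 0 * hA' + M 1 0 * hB'
  · linear_combination N 1 1 * hA' - M 0 0 * hB'

/-- the trace from a factorisation of the characteristic polynomial -/
theorem trace_of_charpoly [Module.Finite k V] (hV : Module.finrank k V = 2)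
    (F : Module.End k V) (α β : k)
    (h : LinearMap.charpoly F = (X - C α) * (X - C β)) : LinearMap.trace k V F = α + β := by
  set b : Module.Basis (Fin 2) k V := Module.finBasisOfFinrankEq k V hV
  rw [LinearMap.trace_eq_matrix_trace k b F]
  have h1 : (LinearMap.toMatrix b b F).charpoly = (X - C α) * (X - C β) := by
    rw [LinearMap.charpoly_toMatrix]; exact h
  rw [Matrix.charpoly_fin_two] at h1
  have e : (X - C α) * (X - C β) = X ^ 2 - C (α + β) * X + C (α * β) := by
    simp only [map_add, map_mul]; ring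
  rw [e] at h1
  have c1 := congrArg (fun q : k[X] => q.coeff 1) h1
  simp only [coeff_add, coeff_sub, coeff_X_pow, coeff_C_mul, coeff_X_one,
    mul_one, coeff_C] at c1
  norm_num at c1
  linear_combination -c1

/-- Cayley–Hamilton -/
theorem sq_of_charpoly [Module.Finite k V] (F : Module.End k V) (α β : k)
    (h : LinearMap.charpoly F = (X - C α) * (X - C β)) :
    F * F = (α + β) • F - (α * β) • (1 : Module.End k V) := by
  have h1 := LinearMap.aeval_self_charpoly F
  rw [h] at h1
  simp only [map_mul, map_sub, aeval_X, aeval_C, Algebra.algebraMap_eq_smul_one] at h1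
  have h2 : (F - α • (1 : Module.End k V)) * (F - β • (1 : Module.End k V)) =
      F * F - ((α + β) • F - (α * β) • (1 : Module.End k V)) := by
    simp only [sub_mul, mul_sub, smul_mul_assoc, mul_smul_comm, mul_one, one_mul, smul_sub,
      smul_smul]
    module
  rw [h2] at h1
  exact sub_eq_zero.mp h1


/-- **The line `k·h`** of a regular semisimple endomorphism `F` of a plane (`2 ≠ 0` in `k`). -/
theorem line_core [Module.Finite k V] (hV : Module.finrank k V = 2) (h2 : (2 : k) ≠ 0)
    (F G : Module.End k V) (hFG : F * G = 1) (α β : k) (hαβ : α ≠ β)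
    (hchar : LinearMap.charpoly F = (X - C α) * (X - C β)) :
    ∃ h : Module.End k V, LinearMap.trace k V h = 0 ∧ LinearMap.trace k V (h * h) ≠ 0 ∧
      F * h = h * F ∧
      (∀ Y : Module.End k V, LinearMap.trace k V Y = 0 → F * Y = Y * F → ∃ a : k, Y = a • h) ∧
      (∀ x : Module.End k V, LinearMap.trace k V x = 0 → LinearMap.trace k V (h * x) = 0 →
        ∃ m : Module.End k V, LinearMap.trace k V m = 0 ∧ x = F * m * G - m) := by
  have hCH := sq_of_charpoly F α β hchar
  have htrF := trace_of_charpoly hV F α β hchar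
  have htr1 : LinearMap.trace k V (1 : Module.End k V) = 2 := by
    rw [LinearMap.trace_one, hV]; norm_num
  obtain ⟨h, hdef⟩ : ∃ h : Module.End k V, h = (2 : k) • F - (α + β) • (1 : Module.End k V) :=
    ⟨_, rfl⟩
  obtain ⟨D, hDdef⟩ : ∃ D : k, D = (α - β) ^ 2 := ⟨_, rfl⟩
  have hD : D ≠ 0 := by
    rw [hDdef]; exact pow_ne_zero 2 (sub_ne_zero.mpr hαβ)
  have hhh : h * h = D • (1 : Module.End k V) := by
    rw [hdef, hDdef]
    simp only [sub_mul, mul_sub, smul_mul_assoc, mul_smul_comm, mul_one, one_mul, smul_sub,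
      smul_smul, hCH]
    module
  have hFh : F * h = h * F := by
    rw [hdef]
    simp only [sub_mul, mul_sub, smul_mul_assoc, mul_smul_comm, mul_one, one_mul]
  have htrh : LinearMap.trace k V h = 0 := by
    rw [hdef, map_sub, map_smul, map_smul, htrF, htr1, smul_eq_mul, smul_eq_mul]
    ring
  -- commutators with `h`
  have hcomm : ∀ Y : Module.End k V, h * Y - Y * h = (2 : k) • (F * Y - Y * F) := by
    intro Y
    rw [hdef]
    simp only [sub_mul, mul_sub, smul_mul_assoc, mul_smul_comm, mul_one, one_mul, smul_sub]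
    module
  refine ⟨h, htrh, ?_, hFh, ?_, ?_⟩
  · rw [hhh, map_smul, htr1, smul_eq_mul]
    exact mul_ne_zero hD h2
  · intro Y hY hFY
    have h1 := anticomm hV h Y htrh hY
    have h3 : h * Y = Y * h := by
      have := hcomm Y
      rw [hFY, sub_self, smul_zero] at this
      exact sub_eq_zero.mp this
    rw [← h3] at h1
    -- `2 h Y = tr(hY)`, multiply by `h`
    have h4 : h * (h * Y + h * Y) = h * (LinearMap.trace k V (h * Y) • (1 : Module.End k V)) := by
      rw [h1]
    rw [mul_add, ← mul_assoc, hhh, smul_mul_assoc, one_mul, mul_smul_comm, mul_one] at h4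
    refine ⟨(2 * D)⁻¹ * LinearMap.trace k V (h * Y), ?_⟩
    have h5 : (2 * D) • Y = LinearMap.trace k V (h * Y) • h := by
      rw [← h4]; module
    rw [mul_smul, ← h5, smul_smul, inv_mul_cancel₀ (mul_ne_zero h2 hD), one_smul]
  · intro x hx hhx
    have h1 := anticomm hV h x htrh hx
    rw [hhx, zero_smul] at h1
    have h3 : h * x = -(x * h) := eq_neg_of_add_eq_zero_left h1
    -- `F x − x F = − x h`
    have h4 : F * x - x * F = -(x * h) := by
      have := hcomm x
      rw [h3] at this
      have h5 : (2 : k) • (F * x - x * F) = (2 : k) • (-(x * h)) := by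
        rw [← this]; module
      exact smul_right_injective _ h2 h5
    -- `tr (x F) = 0`
    have htrxF : LinearMap.trace k V (x * F) = 0 := by
      have h5 : (2 : k) • (x * F) = x * h + (α + β) • x := by
        rw [hdef]
        simp only [mul_sub, mul_smul_comm, mul_one]
        module
      have h6 := congrArg (LinearMap.trace k V) h5
      rw [map_smul, map_add, map_smul, hx, smul_zero, add_zero, LinearMap.trace_mul_comm k x h,
        hhx, smul_eq_mul] at h6
      rcases mul_eq_zero.mp h6 with h7 | h7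
      · exact absurd h7 h2
      · exact h7
    have hFhG : F * h * G = h := by
      rw [hFh, mul_assoc, hFG, mul_one]
    have hFh' : F * h = (α + β) • F - (2 * (α * β)) • (1 : Module.End k V) := by
      rw [hdef]
      simp only [mul_sub, mul_smul_comm, mul_one, hCH, smul_sub, smul_smul]
      module
    refine ⟨(-D⁻¹) • (x * F * h), ?_, ?_⟩
    · rw [map_smul, mul_assoc, hFh', mul_sub, mul_smul_comm, mul_smul_comm, mul_one, map_sub,
        map_smul, map_smul, htrxF, hx]
      simp
    · have h5 : F * ((-D⁻¹) • (x * F * h)) * G - (-D⁻¹) • (x * F * h) =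
          (-D⁻¹) • ((F * x - x * F) * h) := by
        have h6 : F * (x * F * h) * G = F * x * h := by
          calc F * (x * F * h) * G = F * x * (F * h * G) := by
                simp only [mul_assoc]
            _ = F * x * h := by rw [hFhG]
        rw [mul_smul_comm, smul_mul_assoc, h6, sub_mul, smul_sub]
      rw [h5, h4, neg_mul, mul_assoc, hhh, mul_smul_comm, mul_one, smul_neg, smul_smul, neg_mul,
        inv_mul_cancel₀ hD]
      simp

end LinAlg

/-- a finite Galois-stable level containing a given finite level -/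
theorem exists_stable_level (L : IntermediateField ℚ Qb) [FiniteDimensional ℚ L] :
    ∃ M : IntermediateField ℚ Qb, FiniteDimensional ℚ M ∧ L ≤ M ∧
      ∀ σ : GQ, ∀ x ∈ M, σ x ∈ M := by
  haveI : Algebra.IsAlgebraic ℚ Qb := AlgebraicClosure.isAlgebraic ℚ
  haveI : IsAlgClosure ℚ Qb := ⟨inferInstance, inferInstance⟩
  haveI : Normal ℚ Qb := IsAlgClosure.normal ℚ Qb
  haveI : Normal ℚ (IntermediateField.normalClosure ℚ L Qb) := normalClosure.normal ℚ L Qb
  refine ⟨IntermediateField.normalClosure ℚ L Qb, normalClosure.is_finiteDimensional ℚ L Qb,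
    IntermediateField.le_normalClosure L, fun σ x hx => ?_⟩
  have h := IntermediateField.normal_iff_forall_map_le'.mp
    (inferInstance : Normal ℚ (IntermediateField.normalClosure ℚ L Qb)) σ
  exact h ⟨x, hx, rfl⟩

/-- **LINE.** -/
theorem line : LineStatement := by
  intro 𝒪 _ _ _ _ _ p ρbar S Smin hyp q hTW P hP φ hφ
  obtain ⟨hq, hqS, hq1, hfrob⟩ := hTW
  obtain ⟨α, β, hαβ, hchar⟩ := hfrob P hP φ hφ
  have hp := hyp.hp
  have hp0 : ((p : ℕ) : ResidueField 𝒪) = 0 := by
    have := (IsLocalRing.residue_eq_zero_iff ((p : ℕ) : 𝒪)).mpr hyp.hp𝒪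
    rwa [map_natCast] at this
  haveI : CharP (ResidueField 𝒪) p := (CharP.charP_iff_prime_eq_zero hp).mpr hp0
  have h2 : (2 : ResidueField 𝒪) ≠ 0 := by
    intro h0
    have h1 : ((2 : ℕ) : ResidueField 𝒪) = 0 := by exact_mod_cast h0
    have h3 := (CharP.cast_eq_zero_iff (ResidueField 𝒪) p 2).mp h1
    exact hyp.hp2 ((Nat.prime_dvd_prime_iff_eq hp Nat.prime_two).mp h3)
  have hpS : p ∈ S := hyp.hSmin hyp.hpSmin
  have hqp : p ≠ q := fun h => hqS (h ▸ hpS)
  have hur : ∀ σ ∈ P.inertiaSubgroupIn ℚ, ρbar.ρ σ = 1 := by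
    have hqSmin : q ∉ Smin := fun h => hqS (hyp.hSmin h)
    have hunr : ρbar.IsUnramifiedAt q := by
      by_contra hne
      exact hqSmin ((hyp.hmin q hq (Ne.symm hqp)).mpr hne)
    exact hunr P hP
  obtain ⟨h, htr, htr2, hFh, hcent, himg⟩ := line_core ρbar.finrank_eq h2 (ρbar.ρ φ)
    (ρbar.ρ φ⁻¹) (H554.rho_mul_inv φ) α β hαβ hchar
  refine ⟨h, htr, htr2, hFh, ?_, himg⟩
  intro c hc τ hτ
  obtain ⟨L, hLfin, hcoc⟩ := H554.isCoc_of_isAdCocycle hc
  haveI := hLfin
  obtain ⟨M, hMfin, hLM, hM⟩ := exists_stable_level L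
  haveI := hMfin
  have hcomm := (hcoc.mono hLM).commute_frobenius hq hP hp hqp hq1 hM hur hφ hτ
  exact hcent (c τ) (hc.trace_eq_zero τ) hcomm

end Fermat.Agent.S56.RQ.H454

end
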