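import Fermat.Agent.S56.RQ.Spec

/-!
# Row S56 — REC-Q, leaf COBCUP (helper475)

`cobCup : RQ.CobCupStatement` (verbatim): the cup product `(σ, τ) ↦ tr (c σ · σ(y τ))` of an
ad-cocycle `c` and a twisted cocycle `y` is a coboundary of `k(1)` on a subgroup `H` as soon as
`c` is an ad-coboundary on `H`, or `y` is a twisted coboundary on `H`.

* (a) `c = dm` on `H`:  `cup c y = dλ`,  `λ τ = tr (m · y τ)`;
* (b) `y = d_tw m` on `H`:  `cup c y = dλ'`,  `λ' σ = − tr (c σ · (y σ + m))`.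

Pure algebra: no hypothesis on `p`, no multiplicativity of cyclotomic exponents is needed
(`y (σ τ) + m = a · σ (y τ + m)` follows from the cocycle relation and `y σ + m = a · σ m`).
-/

set_option autoImplicit false

open Polynomial IsLocalRing

noncomputable section

namespace Fermat.Agent.S56.RQ.H475

open Fermat.Agent.S56 Fermat.Agent.S56.H716 Fermat.Agent.S56.RQ

variable {k : Type} [Field k] (ρbar : ResidualGaloisRep k)

lemma rho_mul_inv (σ : GQ) : ρbar.ρ σ * ρbar.ρ σ⁻¹ = 1 := by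
  rw [← map_mul, mul_inv_cancel, map_one]

lemma rho_inv_mul (σ : GQ) : ρbar.ρ σ⁻¹ * ρbar.ρ σ = 1 := by
  rw [← map_mul, inv_mul_cancel, map_one]

/-- The trace is invariant under conjugation by `ρ̄ σ`. -/
lemma trace_conj (σ : GQ) (x : Module.End k ρbar.V) :
    LinearMap.trace k ρbar.V (ρbar.ρ σ * x * ρbar.ρ σ⁻¹) = LinearMap.trace k ρbar.V x := by
  rw [LinearMap.trace_mul_comm, ← mul_assoc, rho_inv_mul, one_mul]

/-- `tr (σ x σ⁻¹ · σ z σ⁻¹) = tr (x z)`. -/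
lemma trace_conj_mul_conj (σ : GQ) (x z : Module.End k ρbar.V) :
    LinearMap.trace k ρbar.V ((ρbar.ρ σ * x * ρbar.ρ σ⁻¹) * (ρbar.ρ σ * z * ρbar.ρ σ⁻¹)) =
      LinearMap.trace k ρbar.V (x * z) := by
  have h : (ρbar.ρ σ * x * ρbar.ρ σ⁻¹) * (ρbar.ρ σ * z * ρbar.ρ σ⁻¹) =
      ρbar.ρ σ * (x * z) * ρbar.ρ σ⁻¹ := by
    calc (ρbar.ρ σ * x * ρbar.ρ σ⁻¹) * (ρbar.ρ σ * z * ρbar.ρ σ⁻¹)
        = ρbar.ρ σ * x * (ρbar.ρ σ⁻¹ * ρbar.ρ σ) * z * ρbar.ρ σ⁻¹ := by
          simp only [mul_assoc]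
      _ = ρbar.ρ σ * (x * z) * ρbar.ρ σ⁻¹ := by
          rw [rho_inv_mul, mul_one]; simp only [mul_assoc]
  rw [h, trace_conj]

/-- The value of the cup product, in terms of a cyclotomic exponent of `σ`. -/
lemma cup_apply_of_exp {p : ℕ} {y : GQ → Module.End k ρbar.V} (hy : IsTwCocycle ρbar p y)
    (c : GQ → Module.End k ρbar.V) (σ τ : GQ) (a : ℕ) (ha : IsCycExp p σ a) :
    cup ρbar c y (σ, τ) =
      (a : k) * LinearMap.trace k ρbar.V (c σ * (ρbar.ρ σ * y τ * ρbar.ρ σ⁻¹)) := by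
  unfold cup
  simp only
  rw [hy.map_mul σ τ a ha, add_sub_cancel_left, twAd, mul_smul_comm, map_smul, smul_eq_mul]

/-- (a) cup with an ad-coboundary. -/
theorem cup_cob_left {p : ℕ} (H : Subgroup GQ) {c y : GQ → Module.End k ρbar.V}
    (hy : IsTwCocycle ρbar p y) (hc : IsAdCoboundaryOn ρbar H c) :
    IsCob₂On p H (cup ρbar c y) := by
  obtain ⟨m, hm⟩ := hc
  obtain ⟨L, hL, hlev⟩ := hy.level
  refine ⟨fun τ => LinearMap.trace k ρbar.V (m * y τ), ⟨L, hL, ?_⟩, ?_⟩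
  · intro σ _ s _ hs
    simp only
    rw [hlev σ s hs]
  · intro σ hσ τ _ a ha
    simp only
    rw [cup_apply_of_exp ρbar hy c σ τ a ha, hm σ hσ, hy.map_mul σ τ a ha, sub_mul, map_sub,
      trace_conj_mul_conj, mul_add, map_add, twAd, mul_smul_comm, map_smul, smul_eq_mul]
    ring

/-- (b) cup with a twisted coboundary. -/
theorem cup_cob_right {p : ℕ} (H : Subgroup GQ) {c y : GQ → Module.End k ρbar.V}
    (hc : IsAdCocycle ρbar c) (hy : IsTwCocycle ρbar p y)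
    (hm : ∃ m, IsTwCoboundaryOn ρbar p H y m) :
    IsCob₂On p H (cup ρbar c y) := by
  obtain ⟨m, -, hm⟩ := hm
  obtain ⟨L, hL, hlev⟩ := hy.level
  obtain ⟨L', hL', hlev'⟩ := hc.level
  have hfin : FiniteDimensional ℚ (L ⊔ L' : IntermediateField ℚ Qb) :=
    IntermediateField.finiteDimensional_sup L L'
  refine ⟨fun σ => - LinearMap.trace k ρbar.V (c σ * (y σ + m)), ⟨L ⊔ L', hfin, ?_⟩, ?_⟩
  · intro σ _ s _ hs
    simp only
    rw [hlev σ s (fun x hx => hs x ((le_sup_left : L ≤ L ⊔ L') hx)),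
      hlev' σ s (fun x hx => hs x ((le_sup_right : L' ≤ L ⊔ L') hx))]
  · intro σ hσ τ _ a ha
    simp only
    -- `y σ + m = a · σ m σ⁻¹`
    have h1 : y σ + m = (a : k) • (ρbar.ρ σ * m * ρbar.ρ σ⁻¹) := by
      rw [hm σ hσ a ha, twAd, sub_add_cancel]
    -- `y (σ τ) + m = a · σ (y τ + m) σ⁻¹`
    have h2 : y (σ * τ) + m = (a : k) • (ρbar.ρ σ * (y τ + m) * ρbar.ρ σ⁻¹) := by
      rw [hy.map_mul σ τ a ha, twAd, add_right_comm, h1, mul_add, add_mul, smul_add, add_comm]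
    rw [cup_apply_of_exp ρbar hy c σ τ a ha, h2, hc.map_mul σ τ, h1]
    simp only [mul_smul_comm, map_smul, smul_eq_mul, add_mul, map_add, trace_conj_mul_conj,
      mul_add]
    ring

/-- **COBCUP** (verbatim `RQ.CobCupStatement`). -/
theorem cobCup : CobCupStatement := by
  intro k _ p _ _ ρbar H c y hc hy
  exact ⟨fun h => cup_cob_left ρbar H hy h, fun h => cup_cob_right ρbar H hc hy h⟩

end Fermat.Agent.S56.RQ.H475

end
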