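import Fermat.Agent.S56.RQ.Spec
import Fermat.Agent.Lib.Cheb.H476.FrobConj

/-!
# Row S56 — REC-Q leaf CONJ (helper880): independence of the place

`conjStatement : RQ.ConjStatement` (exact frozen Prop of `RQ/Spec.lean`).

(a) `ρ̄` unramified at `v`, `c = 0` on `I_P` ⟹ `c = 0` on `I_{P'}`:
    `c (g σ g⁻¹) = c g + g (c σ + σ c(g⁻¹) σ⁻¹) g⁻¹ = c g + g c(g⁻¹) g⁻¹ = c 1 = 0`.
(b) `c = d m` on `D_P` ⟹ `c = d m'` on `D_{P'}`, `P' = g P`, `m' = ρ̄ g m ρ̄ g⁻¹ − c g`.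
-/

set_option autoImplicit false

open Polynomial IsLocalRing
open scoped Pointwise

noncomputable section

namespace Fermat.Agent.S56.RQ.H880

open Fermat.Agent.S56 Fermat.Agent.S56.H716

variable {k : Type} [Field k] {ρbar : ResidualGaloisRep k}

theorem rho_mul_inv (g : GQ) : ρbar.ρ g * ρbar.ρ g⁻¹ = 1 := by
  rw [← map_mul, mul_inv_cancel, map_one]

theorem rho_inv_mul (g : GQ) : ρbar.ρ g⁻¹ * ρbar.ρ g = 1 := by
  rw [← map_mul, inv_mul_cancel, map_one]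

theorem adCocycle_one {c : GQ → Module.End k ρbar.V} (hc : IsAdCocycle ρbar c) : c 1 = 0 := by
  have h := hc.map_mul 1 1
  rw [mul_one, inv_one, map_one, one_mul, mul_one] at h
  exact left_eq_add.mp h

/-- `c g + ρ g · c(g⁻¹) · ρ g⁻¹ = 0`. -/
theorem adCocycle_add_conj_inv {c : GQ → Module.End k ρbar.V} (hc : IsAdCocycle ρbar c)
    (g : GQ) : c g + ρbar.ρ g * c g⁻¹ * ρbar.ρ g⁻¹ = 0 := by
  have h := hc.map_mul g g⁻¹
  rw [mul_inv_cancel, adCocycle_one hc] at h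
  exact h.symm

/-- The cocycle at a conjugate. -/
theorem adCocycle_conj {c : GQ → Module.End k ρbar.V} (hc : IsAdCocycle ρbar c) (g σ : GQ) :
    c (g * σ * g⁻¹) =
      c g + ρbar.ρ g * c σ * ρbar.ρ g⁻¹ +
        ρbar.ρ g * ρbar.ρ σ * c g⁻¹ * ρbar.ρ σ⁻¹ * ρbar.ρ g⁻¹ := by
  rw [mul_assoc, hc.map_mul g (σ * g⁻¹), hc.map_mul σ g⁻¹]
  noncomm_ring

/-- `conjStatement`, part (a). -/
theorem unram_of_unram {c : GQ → Module.End k ρbar.V} (hc : IsAdCocycle ρbar c) {v : ℕ}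
    (hv : v.Prime) {P P' : ValuationSubring Qb} (hP : P.LiesOverPrime v)
    (hP' : P'.LiesOverPrime v) (hρ : ρbar.IsUnramifiedAt v)
    (h : ∀ σ ∈ P.inertiaSubgroupIn ℚ, c σ = 0) :
    ∀ σ ∈ P'.inertiaSubgroupIn ℚ, c σ = 0 := by
  intro σ' hσ'
  obtain ⟨g, σ, hσ, rfl⟩ :=
    Fermat.Agent.Lib.Cheb.H476.exists_conj_of_mem_inertia hv hP hP' hσ'
  have h1 : ρbar.ρ σ = 1 := hρ P hP σ hσ
  have h2 : ρbar.ρ σ⁻¹ = 1 := by rw [map_inv_eq_one_of_one h1]
  rw [adCocycle_conj hc, h σ hσ, h1, h2, mul_zero, zero_mul, add_zero, mul_one, mul_one]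
  exact adCocycle_add_conj_inv hc g
where
  map_inv_eq_one_of_one {σ : GQ} (h1 : ρbar.ρ σ = 1) : ρbar.ρ σ⁻¹ = 1 := by
    have := rho_inv_mul (ρbar := ρbar) σ
    rwa [h1, mul_one] at this

/-- `conjStatement`, part (b). -/
theorem coboundary_of_coboundary {c : GQ → Module.End k ρbar.V} (hc : IsAdCocycle ρbar c)
    {v : ℕ} (hv : v.Prime) {P P' : ValuationSubring Qb} (hP : P.LiesOverPrime v)
    (hP' : P'.LiesOverPrime v)
    (h : IsAdCoboundaryOn ρbar (P.decompositionSubgroup ℚ) c) :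
    IsAdCoboundaryOn ρbar (P'.decompositionSubgroup ℚ) c := by
  obtain ⟨m, hm⟩ := h
  obtain ⟨g, rfl⟩ := Fermat.Agent.Lib.Cheb.H476.exists_smul_eq hv hP hP'
  refine ⟨ρbar.ρ g * m * ρbar.ρ g⁻¹ - c g, fun σ' hσ' => ?_⟩
  -- `σ := g⁻¹ σ' g ∈ D_P`
  have hσ : g⁻¹ * σ' * g ∈ P.decompositionSubgroup ℚ := by
    have h1 := Fermat.Agent.Lib.Cheb.H476.conj_mem_decomposition g⁻¹ hσ'
    have h2 : g⁻¹ • g • P = P := inv_smul_smul g P
    rw [inv_inv] at h1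
    rw [h2] at h1
    exact h1
  set σ : GQ := g⁻¹ * σ' * g with hσdef
  have hσ' : σ' = g * σ * g⁻¹ := by rw [hσdef]; group
  have e1 : c g⁻¹ = -(ρbar.ρ g⁻¹ * c g * ρbar.ρ g) := by
    have := adCocycle_add_conj_inv hc g⁻¹
    rw [inv_inv] at this
    rw [eq_neg_iff_add_eq_zero]
    exact this
  have e2 : ρbar.ρ σ' = ρbar.ρ g * ρbar.ρ σ * ρbar.ρ g⁻¹ := by
    rw [hσ', map_mul, map_mul]
  have e3 : ρbar.ρ σ'⁻¹ = ρbar.ρ g * ρbar.ρ σ⁻¹ * ρbar.ρ g⁻¹ := by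
    have hinv : (g * σ * g⁻¹)⁻¹ = g * σ⁻¹ * g⁻¹ := by group
    rw [hσ', hinv, map_mul, map_mul]
  rw [e2, e3]
  rw [hσ', adCocycle_conj hc, hm σ hσ, e1]
  have r1 := rho_mul_inv (ρbar := ρbar) g
  have r2 := rho_inv_mul (ρbar := ρbar) g
  have r3 := rho_mul_inv (ρbar := ρbar) σ
  -- normalise both sides
  have key : ∀ (A A' B B' M C : Module.End k ρbar.V), A * A' = 1 → A' * A = 1 → B * B' = 1 →
      C + A * (B * M * B' - M) * A' + A * B * (-(A' * C * A)) * B' * A' =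
        A * B * A' * (A * M * A' - C) * (A * B' * A') - (A * M * A' - C) := by
    intro A A' B B' M C h1 h2 h3
    have t1 : A * B * A' * (A * M * A' - C) * (A * B' * A') =
        A * B * (A' * A) * M * (A' * A) * B' * A' - A * B * A' * C * A * B' * A' := by
      noncomm_ring
    have t2 : A * (B * M * B' - M) * A' = A * B * M * B' * A' - A * M * A' := by
      noncomm_ring
    have t3 : A * B * (-(A' * C * A)) * B' * A' = -(A * B * A' * C * A * B' * A') := by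
      noncomm_ring
    rw [t1, t2, t3, h2]
    noncomm_ring
  exact key _ _ _ _ _ _ r1 r2 r3

/-- **(CONJ)**, exact frozen statement. -/
theorem conjStatement : ConjStatement := by
  intro k _ ρbar v hv P P' hP hP' c hc
  exact ⟨fun hρ h => unram_of_unram hc hv hP hP' hρ h,
    fun h => coboundary_of_coboundary hc hv hP hP' h⟩

end Fermat.Agent.S56.RQ.H880
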