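import Fermat.Agent.S56.H716.GWSpec

/-!
# Row S56 — REC-Q (reciprocity over the Taylor–Wiles primes): FROZEN definitions
(sub-architect helper554)

Plain-function language of layers 0–3 (`c, y : G_ℚ → End_k V`, `V = ρbar.V`).  `k(1)` is `k` with
`σ` acting by the cyclotomic exponent (`IsCycExp p σ a`, `a` well defined mod `p`).

* `cup ρbar c y`      — the cup-product 2-cochain `(σ, τ) ↦ tr (c σ · σ(y τ))` of an ad-cocycle `c`
  and a twisted cocycle `y`, written WITHOUT the cyclotomic exponent: `σ(y τ) = y (σ τ) − y σ`.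
* `IsCoc₂On p H z`    — `z : G_ℚ × G_ℚ → k` satisfies the 2-cocycle identity of `k(1)` on `H`.
* `IsLC₂On H z`       — `z` is level-constant on `H` (for some finite level).
* `IsCob₂On p H z`    — on `H`, `z = dλ` for a 1-cochain `λ : G_ℚ → k` which is level-constant on `H`.
* `IsGlobZ p Sg z`    — `z` is a global 2-cocycle of `k(1)`, level-constant for a finite level
  unramified outside `Sg`.
* `PlainRecip k p Sg` — the reciprocity package in plain language: places `Pv v` over `v ∈ Sg` and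
  `k`-linear "invariants" `inv v` on 2-cochains, killing local coboundaries, injective on local
  classes at `v ≡ 1 mod p`, with `∑_{v ∈ Sg} inv v z = 0` for global `z`.

Nothing unproved in this file.  Plan: `coord/S56-RECQ.md` on `origin/main`.
-/

set_option autoImplicit false

open Polynomial IsLocalRing

noncomputable section

namespace Fermat.Agent.S56.RQ

open Fermat.Agent.S56 Fermat.Agent.S56.H716

section

variable {k : Type} [Field k] (ρbar : ResidualGaloisRep k)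

/-- The cup product `(σ, τ) ↦ tr (c σ · σ(y τ))`, where `σ(y τ) = y (σ τ) − y σ` (cocycle relation
of the twisted cocycle `y`). -/
def cup (c y : GQ → Module.End k ρbar.V) : GQ × GQ → k :=
  fun x => LinearMap.trace k ρbar.V (c x.1 * (y (x.1 * x.2) - y x.1))

end

section

variable {k : Type} [Field k] (p : ℕ)

/-- The 2-cocycle identity of `k(1)` on the subgroup `H`. -/
def IsCoc₂On (H : Subgroup GQ) (z : GQ × GQ → k) : Prop :=
  ∀ σ ∈ H, ∀ τ ∈ H, ∀ υ ∈ H, ∀ a : ℕ, IsCycExp p σ a →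
    (a : k) * z (τ, υ) + z (σ, τ * υ) = z (σ * τ, υ) + z (σ, τ)

/-- `z` is level-constant on the subgroup `H`. -/
def IsLC₂On (H : Subgroup GQ) (z : GQ × GQ → k) : Prop :=
  ∃ L : IntermediateField ℚ Qb, FiniteDimensional ℚ L ∧
    ∀ σ ∈ H, ∀ τ ∈ H, ∀ s ∈ H, ∀ s' ∈ H, (∀ x ∈ L, s x = x) → (∀ x ∈ L, s' x = x) →
      z (σ * s, τ * s') = z (σ, τ)

/-- On the subgroup `H`, `z` is the coboundary of a 1-cochain of `k(1)` which is level-constant
on `H`. -/
def IsCob₂On (H : Subgroup GQ) (z : GQ × GQ → k) : Prop :=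
  ∃ lam : GQ → k,
    (∃ L : IntermediateField ℚ Qb, FiniteDimensional ℚ L ∧
      ∀ σ ∈ H, ∀ s ∈ H, (∀ x ∈ L, s x = x) → lam (σ * s) = lam σ) ∧
    ∀ σ ∈ H, ∀ τ ∈ H, ∀ a : ℕ, IsCycExp p σ a →
      z (σ, τ) = (a : k) * lam τ - lam (σ * τ) + lam σ

/-- `z` is a global 2-cocycle of `k(1)`, level-constant for a finite level which is unramified
outside `Sg`. -/
def IsGlobZ (Sg : Finset ℕ) (z : GQ × GQ → k) : Prop :=
  IsCoc₂On p ⊤ z ∧
    ∃ L : IntermediateField ℚ Qb, FiniteDimensional ℚ L ∧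
      (∀ q : ℕ, q.Prime → q ∉ Sg → ∀ P : ValuationSubring Qb, P.LiesOverPrime q →
        ∀ s ∈ P.inertiaSubgroupIn ℚ, ∀ x ∈ L, s x = x) ∧
      ∀ σ τ s s' : GQ, (∀ x ∈ L, s x = x) → (∀ x ∈ L, s' x = x) → z (σ * s, τ * s') = z (σ, τ)

variable (k) in
/-- The reciprocity package for `k(1)` and the finite set of primes `Sg`, in plain language. -/
def PlainRecip (Sg : Finset ℕ) : Prop :=
  ∃ (Pv : ℕ → ValuationSubring Qb) (inv : ℕ → (GQ × GQ → k) →ₗ[k] k),
    (∀ v ∈ Sg, (Pv v).LiesOverPrime v) ∧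
    (∀ v ∈ Sg, ∀ z : GQ × GQ → k,
      IsCob₂On p ((Pv v).decompositionSubgroup ℚ) z → inv v z = 0) ∧
    (∀ v ∈ Sg, p ∣ v - 1 → ∀ z : GQ × GQ → k,
      IsCoc₂On p ((Pv v).decompositionSubgroup ℚ) z →
      IsLC₂On ((Pv v).decompositionSubgroup ℚ) z → inv v z = 0 →
      IsCob₂On p ((Pv v).decompositionSubgroup ℚ) z) ∧
    (∀ z : GQ × GQ → k, IsGlobZ p Sg z → ∑ v ∈ Sg, inv v z = 0)

end

end Fermat.Agent.S56.RQ

end
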