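import Fermat.Agent.S56.RQ.Spec
import Fermat.Agent.S56.H716.GWSpec4

/-!
# Row S56 — REC-Q-SUB (route C of helper716): statements (sub-architect helper554)

Target of route C: `H716.RecQSubStatement` (= REC-Q with `Smin` replaced by any `S'`,
`Smin ⊆ S' ⊆ S`).  SAME leaves as `RQ/Spec.lean`, except

* `GlobZSubStatement` (GLOBZ-SUB) replaces `GlobZStatement`: the same statement with `S'` instead
  of `Smin` (`c` unramified outside `S' ∪ Q`, `y` unramified outside `S'`); same proof.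
* `PlainRecipGStatement` (RECIP-G) replaces `PlainRecipStatement`: the invariants are only
  needed on GLOBAL 2-cocycles (`IsGlobZ p Sg z`), because the glue applies them to `c ∪ y` with
  `c`, `y` global.  This is exactly helper14's `H14.invRec` (on main), so
  `RECIP-G ⇐ S55.PT.InvSpec` by a short adapter (`RQ/RecipH554.lean`).

`recQSub_of : RECIP-G → FRAME → LINE → NONDEG → URCUP → LOCTRIV → COBCUP → CONJ → GLOBZ-SUB
    → H716.RecQSubStatement`   (`RQ/GlueSub.lean`).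
-/

set_option autoImplicit false

open Polynomial IsLocalRing

noncomputable section

namespace Fermat.Agent.S56.RQ

open Fermat.Agent.S56 Fermat.Agent.S56.H716

/-- The reciprocity package for `k(1)` and the finite set of primes `Sg`, on GLOBAL 2-cocycles
only. -/
def PlainRecipG (k : Type) [Field k] (p : ℕ) (Sg : Finset ℕ) : Prop :=
  ∃ (Pv : ℕ → ValuationSubring Qb) (inv : ℕ → (GQ × GQ → k) → k),
    (∀ v ∈ Sg, (Pv v).LiesOverPrime v) ∧
    (∀ v ∈ Sg, ∀ z z' : GQ × GQ → k, IsGlobZ p Sg z → IsGlobZ p Sg z' →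
      inv v (z + z') = inv v z + inv v z') ∧
    (∀ v ∈ Sg, ∀ (r : k) (z : GQ × GQ → k), IsGlobZ p Sg z → inv v (r • z) = r * inv v z) ∧
    (∀ v ∈ Sg, ∀ z : GQ × GQ → k, IsGlobZ p Sg z →
      IsCob₂On p ((Pv v).decompositionSubgroup ℚ) z → inv v z = 0) ∧
    (∀ v ∈ Sg, v ≠ p → p ∣ v - 1 → ∀ z : GQ × GQ → k, IsGlobZ p Sg z → inv v z = 0 →
      IsCob₂On p ((Pv v).decompositionSubgroup ℚ) z) ∧
    (∀ z : GQ × GQ → k, IsGlobZ p Sg z → ∑ v ∈ Sg, inv v z = 0)

/-- (RECIP-G): the plain reciprocity package on global 2-cocycles, for every finite field of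
characteristic `p ≠ 2` and every finite set of primes containing `p`. -/
def PlainRecipGStatement : Prop :=
  ∀ (k : Type) [Field k] [Finite k] (p : ℕ) [CharP k p], p.Prime → p ≠ 2 →
    ∀ Sg : Finset ℕ, p ∈ Sg → (∀ v ∈ Sg, v.Prime) → PlainRecipG k p Sg

/-- (GLOBZ-SUB): for `Smin ⊆ S' ⊆ S`, the cup product of an ad-cocycle unramified outside
`S' ∪ Q` and a twisted cocycle unramified outside `S'` is a global 2-cocycle of `k(1)`,
level-constant for a finite level unramified outside `S' ∪ Q`. -/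
def GlobZSubStatement : Prop :=
  ∀ (𝒪 : Type) [CommRing 𝒪] [IsDomain 𝒪] [IsDiscreteValuationRing 𝒪]
    [IsAdicComplete (maximalIdeal 𝒪) 𝒪] [Finite (ResidueField 𝒪)]
    (p : ℕ) (ρbar : ResidualGaloisRep (ResidueField 𝒪)) (S Smin : Finset ℕ),
    Hyp 𝒪 p ρbar S Smin → ∀ S' : Finset ℕ, Smin ⊆ S' → S' ⊆ S →
    ∀ Q : Finset ℕ, (∀ q ∈ Q, IsTWPrime ρbar p S q) →
    ∀ c y : GQ → Module.End (ResidueField 𝒪) ρbar.V, IsAdCocycle ρbar c →
      (∀ q : ℕ, q.Prime → q ∉ S' ∪ Q → UnramAt ρbar c q) →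
      IsTwCocycle ρbar p y → (∀ q : ℕ, q.Prime → q ∉ S' → UnramAt ρbar y q) →
      IsGlobZ p (S' ∪ Q) (cup ρbar c y)

/-- GLOBZ is the case `S' = Smin` of GLOBZ-SUB. -/
theorem globZ_of_sub (h : GlobZSubStatement) : GlobZStatement :=
  fun 𝒪 _ _ _ _ _ p ρbar S Smin hyp Q hQ c y hc hcur hy hyur =>
    h 𝒪 p ρbar S Smin hyp Smin (Finset.Subset.refl _) hyp.hSmin Q hQ c y hc hcur hy hyur

end Fermat.Agent.S56.RQ

end
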