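import Fermat.Agent.S56.RQ.GlobZH934
import Fermat.Agent.S56.RQ.SpecSub

/-!
# Row S56 — REC-Q-SUB leaf GLOBZ-SUB (helper554, variant of helper934's `H934.globZ`)

`globZSub : GlobZSubStatement`: for `Smin ⊆ S' ⊆ S`, `c` an ad-cocycle unramified outside `S' ∪ Q`
and `y` a twisted cocycle unramified outside `S'`, the cup product `c ∪ y` is a global 2-cocycle of
`k(1)`, level-constant for a finite level unramified outside `S' ∪ Q`.

Same proof as `H934.globZ` (level of `N = {s : ρ̄ s = 1, s fixes μ_p, c s = 0, y s = 0}`).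
-/

set_option autoImplicit false

open Polynomial IsLocalRing

noncomputable section

namespace Fermat.Agent.S56.RQ.H554

open Fermat.Agent.S56 Fermat.Agent.S56.H716 Fermat.Agent.S56.RQ Fermat.Agent.S56.RQ.H934

/-- **GLOBZ-SUB.** -/
theorem globZSub : GlobZSubStatement := by
  intro 𝒪 _ _ _ _ _ p ρbar S Smin hyp S' hSS' _ Q hQ c y hc hcur hy hyur
  classical
  refine ⟨cup_isCoc₂ hc hy, ?_⟩
  haveI : NeZero p := ⟨hyp.hp.ne_zero⟩
  obtain ⟨Lρ, hLρfin, hLρ⟩ := ρbar.factorsThroughFiniteLevel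
  obtain ⟨Lc, hLcfin, hLc⟩ := hc.level
  obtain ⟨Ly, hLyfin, hLy⟩ := hy.level
  -- the big level
  let F₀ : IntermediateField ℚ Qb := Lρ ⊔ Lc ⊔ Ly ⊔ Fermat.Agent.S55.H414.cycloLevel p
  haveI : FiniteDimensional ℚ Lρ := hLρfin
  haveI : FiniteDimensional ℚ Lc := hLcfin
  haveI : FiniteDimensional ℚ Ly := hLyfin
  haveI h1 : FiniteDimensional ℚ (Lρ ⊔ Lc : IntermediateField ℚ Qb) :=
    IntermediateField.finiteDimensional_sup Lρ Lc
  haveI h2 : FiniteDimensional ℚ (Lρ ⊔ Lc ⊔ Ly : IntermediateField ℚ Qb) :=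
    IntermediateField.finiteDimensional_sup (Lρ ⊔ Lc) Ly
  have hF₀fin : FiniteDimensional ℚ F₀ :=
    IntermediateField.finiteDimensional_sup (Lρ ⊔ Lc ⊔ Ly) (Fermat.Agent.S55.H414.cycloLevel p)
  have hF₀ : F₀.fixingSubgroup ≤ levelSub hc hy := by
    intro s hs
    have hs' : ∀ x ∈ F₀, s x = x := (IntermediateField.mem_fixingSubgroup_iff F₀ s).1 hs
    have hρle : Lρ ≤ F₀ := le_sup_left.trans (le_sup_left.trans le_sup_left)
    have hcle : Lc ≤ F₀ := le_sup_right.trans (le_sup_left.trans le_sup_left)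
    have hyle : Ly ≤ F₀ := le_sup_right.trans le_sup_left
    have hzle : Fermat.Agent.S55.H414.cycloLevel p ≤ F₀ := le_sup_right
    refine ⟨hLρ s (fun x hx => hs' x (hρle hx)), ?_, ?_, ?_⟩
    · intro μ hμ
      rw [pow_one]
      exact hs' μ (hzle (Fermat.Agent.S56.H536.mem_cycloLevel_of_pow_eq_one p hμ))
    · have h := hLc 1 s (fun x hx => hs' x (hcle hx))
      rw [one_mul, ad_one hc] at h
      exact h
    · have h := hLy 1 s (fun x hx => hs' x (hyle hx))
      rw [one_mul, tw_one hy] at h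
      exact h
  have hur : ∀ q : Nat.Primes, q ∉ ((S' ∪ Q).subtype Nat.Prime : Finset Nat.Primes) →
      ∀ A : ValuationSubring (AlgebraicClosure ℚ), A.LiesOverPrime (q : ℕ) →
        A.inertiaSubgroupIn ℚ ≤ levelSub hc hy := by
    intro q hq A hA s hs
    have hq' : (q : ℕ) ∉ S' ∪ Q := fun h => hq (Finset.mem_subtype.2 h)
    have hqS' : (q : ℕ) ∉ S' := fun h => hq' (Finset.mem_union_left _ h)
    have hqSmin : (q : ℕ) ∉ Smin := fun h => hqS' (hSS' h)
    have hqp : (q : ℕ) ≠ p := fun h => hqSmin (h ▸ hyp.hpSmin)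
    have hρur : ρbar.IsUnramifiedAt (q : ℕ) := by
      by_contra hne
      exact hqSmin ((hyp.hmin q q.2 hqp).2 hne)
    exact ⟨hρur A hA s hs,
      Fermat.Agent.S56.H554.fixes_mu_of_mem_inertia q.2 hA hyp.hp (Ne.symm hqp) hs,
      hcur q q.2 hq' A hA s hs, hyur q q.2 hqS' A hA s hs⟩
  obtain ⟨F, ⟨hFfin, hFur⟩, hFfix, -⟩ := Fermat.Agent.S55.Bridge.exists_level_of_subgroup
    ((S' ∪ Q).subtype Nat.Prime : Finset Nat.Primes) (levelSub hc hy) F₀ hF₀fin hF₀ hur
  refine ⟨F, hFfin, ?_, ?_⟩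
  · intro q hq hqS P hP s hs x hx
    have hmem : s ∈ F.fixingSubgroup :=
      hFur ⟨q, hq⟩ (fun h => hqS (Finset.mem_subtype.1 h)) P hP hs
    exact (IntermediateField.mem_fixingSubgroup_iff F s).1 hmem x hx
  · intro σ τ s s' hs hs'
    have hsN : s ∈ levelSub hc hy := by
      rw [← hFfix]
      exact (IntermediateField.mem_fixingSubgroup_iff F s).2 hs
    have hsN' : s' ∈ levelSub hc hy := by
      rw [← hFfix]
      exact (IntermediateField.mem_fixingSubgroup_iff F s').2 hs'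
    exact cup_mul_right hyp.hp hc hy σ τ s s' hsN hsN'

end Fermat.Agent.S56.RQ.H554

end
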