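import Fermat.Agent.S56.RQ.Spec
import Fermat.Agent.S56.H554.LocTWCup
import Fermat.Agent.S56.H606.Gen
import Fermat.Agent.S55.Bridge.Level
import Fermat.Agent.S56.H536.CycExp

/-!
# Row S56 — REC-Q: the leaves GEN, INFL, FRAME, NONDEG (helper554)

* `gen : GenStatement`     — adapter of helper606's `H606.exists_frobenius_pow_mul_inertia`;
* `infl : InflStatement`   — adapter of `S55.Bridge.exists_level_of_subgroup`;
* `frame : FrameStatement` — uniform generator of tame inertia (from `H554.exists_tame_generator`);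
* `nondeg : NondegStatement` — adapter of `H554.trace_mul_eq_zero_of_cup_coboundary`.
-/

set_option autoImplicit false
set_option linter.style.haveILetI false

open Polynomial IsLocalRing

noncomputable section

namespace Fermat.Agent.S56.RQ.H554

open Fermat.Agent.S56 Fermat.Agent.S56.H716 Fermat.Agent.S56.RQ

attribute [local instance] Fermat.Agent.S55.Bridge.isAlgebraic_Qbar
  Fermat.Agent.S55.Bridge.isGalois_Qbar

/-- **(GEN)**. -/
theorem gen : GenStatement := fun q P φ hq hP hφ L hL σ hσ => by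
  haveI := hL
  obtain ⟨n, ι, hι, h⟩ := Fermat.Agent.S56.H606.exists_frobenius_pow_mul_inertia hq hP L hφ hσ
  exact ⟨n, ι, hι, h⟩

/-- **(INFL)**. -/
theorem infl : InflStatement := by
  rintro Sg N ⟨L, hLfin, hL⟩ hur
  obtain ⟨F, hF, hfix, -⟩ := Fermat.Agent.S55.Bridge.exists_level_of_subgroup
    (Sg.subtype Nat.Prime) N L hLfin
    (fun s hs => hL s fun x hx => (IntermediateField.mem_fixingSubgroup_iff _ _).1 hs x hx)
    (fun q hq A hA => hur q.1 q.2 (fun h => hq (Finset.mem_subtype.2 h)) A hA)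
  refine ⟨F, hF.1, fun q hqP hqn P hP s hs x hx => ?_, fun s hs => ?_⟩
  · have h1 := hF.2 ⟨q, hqP⟩ (fun h => hqn (Finset.mem_subtype.1 h)) P hP hs
    exact (IntermediateField.mem_fixingSubgroup_iff _ _).1 h1 x hx
  · rw [← hfix]
    exact (IntermediateField.mem_fixingSubgroup_iff _ _).2 hs

/-- Every finite level is contained in a finite level stable under `G_ℚ`. -/
theorem exists_normal_level (L₀ : IntermediateField ℚ Qb) (hfin : FiniteDimensional ℚ L₀) :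
    ∃ L : IntermediateField ℚ Qb, FiniteDimensional ℚ L ∧ L₀ ≤ L ∧
      ∀ σ : GQ, ∀ x ∈ L, σ x ∈ L := by
  haveI := hfin
  haveI : Normal ℚ (IntermediateField.normalClosure ℚ L₀ Qb) := normalClosure.normal ℚ L₀ Qb
  refine ⟨IntermediateField.normalClosure ℚ L₀ Qb, normalClosure.is_finiteDimensional ℚ L₀ Qb,
    IntermediateField.le_normalClosure L₀, fun σ x hx => ?_⟩
  have h := AlgEquiv.restrictNormal_commutes σ (IntermediateField.normalClosure ℚ L₀ Qb) ⟨x, hx⟩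
  rw [← show algebraMap (IntermediateField.normalClosure ℚ L₀ Qb) Qb ⟨x, hx⟩ = x from rfl, ← h]
  exact SetLike.coe_mem _

section

variable (𝒪 : Type) [CommRing 𝒪] [IsDomain 𝒪] [IsDiscreteValuationRing 𝒪]
  (p : ℕ) (ρbar : ResidualGaloisRep (ResidueField 𝒪)) (S Smin : Finset ℕ)

/-- The local facts at a Taylor–Wiles prime contained in `Hyp` and `IsTWPrime`. -/
theorem tw_basic (hyp : Hyp 𝒪 p ρbar S Smin) {q : ℕ} (hTW : IsTWPrime ρbar p S q) :
    q.Prime ∧ p ≠ q ∧ p ∣ q - 1 ∧ ρbar.IsUnramifiedAt q := by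
  obtain ⟨hqP, hqS, hq1, -⟩ := hTW
  have hqSmin : q ∉ Smin := fun h => hqS (hyp.hSmin h)
  have hqp : q ≠ p := fun h => hqSmin (h ▸ hyp.hpSmin)
  refine ⟨hqP, fun h => hqp h.symm, hq1, ?_⟩
  by_contra h
  exact hqSmin ((hyp.hmin q hqP hqp).mpr h)

end

/-- **(FRAME)**: a uniform generator of tame inertia for all ad-cocycles. -/
theorem frame : FrameStatement := by
  intro 𝒪 _ _ _ _ _ p ρbar S Smin hyp q hTW P hP
  classical
  have hp := hyp.hp
  haveI : CharP (ResidueField 𝒪) p := H536.charP_residueField 𝒪 p hyp.hp hyp.hp𝒪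
  obtain ⟨hq, hpq, -, hurq⟩ := tw_basic 𝒪 p ρbar S Smin hyp hTW
  have hur : ∀ σ ∈ P.inertiaSubgroupIn ℚ, ρbar.ρ σ = 1 := hurq P hP
  by_cases hex : ∃ c₀ : GQ → Module.End (ResidueField 𝒪) ρbar.V, IsAdCocycle ρbar c₀ ∧
      ∃ τ ∈ P.inertiaSubgroupIn ℚ, c₀ τ ≠ 0
  · obtain ⟨c₀, hc₀, τ, hτ, hne⟩ := hex
    refine ⟨τ, hτ, fun c hc hcτ σ hσ => ?_⟩
    obtain ⟨L₀, hL₀fin, hc₀L⟩ := hc₀.level
    obtain ⟨L₁, hL₁fin, hcL⟩ := hc.level
    haveI := hL₀fin
    haveI := hL₁fin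
    obtain ⟨L, hLfin, hle, hL⟩ := exists_normal_level (L₀ ⊔ L₁) inferInstance
    haveI := hLfin
    have hc₀' : Fermat.Agent.S56.H554.IsCoc ρbar L c₀ :=
      ⟨hc₀.map_mul, fun σ τ hτ => hc₀L σ τ fun x hx => hτ x (hle (le_sup_left (a := L₀) hx))⟩
    have hc' : Fermat.Agent.S56.H554.IsCoc ρbar L c :=
      ⟨hc.map_mul, fun σ τ hτ => hcL σ τ fun x hx => hτ x (hle (le_sup_right (b := L₁) hx))⟩
    obtain ⟨τ₀, hτ₀, hgen⟩ := Fermat.Agent.S56.H554.exists_tame_generator hq hP L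
    -- the values of a cocycle of level `L` on inertia
    have key : ∀ (c' : GQ → Module.End (ResidueField 𝒪) ρbar.V),
        Fermat.Agent.S56.H554.IsCoc ρbar L c' → ∀ (n : ℤ) (ω : GQ),
        ω ∈ P.inertiaSubgroupIn ℚ → Fermat.Agent.S56.H554.IsWildOn P ω (L : Set Qb) →
        c' (τ₀ ^ n * ω) = n • c' τ₀ := by
      intro c' hc'' n ω hω hwild
      have h1 : ρbar.ρ (τ₀ ^ n) = 1 := hur _ (zpow_mem hτ₀ n)
      rw [hc''.add_of_rho_eq_one h1, hc''.eq_zero_of_wild hq hP hp hpq hL hur hω hwild, add_zero,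
        hc''.map_zpow_of_mem_inertia hur hτ₀]
    obtain ⟨n, ω, hω, hwild, hτeq⟩ := hgen τ hτ
    obtain ⟨n', ω', hω', hwild', hσeq⟩ := hgen σ hσ
    have h0 : c₀ τ = n • c₀ τ₀ := by rw [hτeq]; exact key c₀ hc₀' n ω hω hwild
    have h1 : c τ = n • c τ₀ := by rw [hτeq]; exact key c hc' n ω hω hwild
    have h2 : c σ = n' • c τ₀ := by rw [hσeq]; exact key c hc' n' ω' hω' hwild'
    have hn : ((n : ℤ) : ResidueField 𝒪) ≠ 0 := by
      intro h
      apply hne
      rw [h0, ← Int.cast_smul_eq_zsmul (ResidueField 𝒪), h, zero_smul]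
    have h3 : c τ₀ = 0 := by
      rw [hcτ, ← Int.cast_smul_eq_zsmul (ResidueField 𝒪)] at h1
      exact (smul_eq_zero.1 h1.symm).resolve_left hn
    rw [h2, h3, smul_zero]
  · refine ⟨1, one_mem _, fun c hc _ σ hσ => ?_⟩
    by_contra hne
    exact hex ⟨c, hc, σ, hσ, hne⟩

/-- **(NONDEG)**: the Heisenberg argument. -/
theorem nondeg : NondegStatement := by
  intro 𝒪 _ _ _ _ _ p ρbar S Smin hyp q hTW P hP φ hφ τ hτ c y hc hy hyI hcob
  have hp := hyp.hp
  haveI : CharP (ResidueField 𝒪) p := H536.charP_residueField 𝒪 p hyp.hp hyp.hp𝒪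
  obtain ⟨hq, hpq, hq1, hurq⟩ := tw_basic 𝒪 p ρbar S Smin hyp hTW
  have hur : ∀ σ ∈ P.inertiaSubgroupIn ℚ, ρbar.ρ σ = 1 := hurq P hP
  obtain ⟨lam, ⟨L₁, hL₁fin, hlamL⟩, hlam⟩ := hcob
  obtain ⟨L₀, hL₀fin, hcL⟩ := hc.level
  haveI := hL₀fin
  haveI := hL₁fin
  obtain ⟨L, hLfin, hle, hL⟩ := exists_normal_level (L₀ ⊔ L₁) inferInstance
  haveI := hLfin
  have hc' : Fermat.Agent.S56.H554.IsCoc ρbar L c :=
    ⟨hc.map_mul, fun σ τ hτ => hcL σ τ fun x hx => hτ x (hle (le_sup_left (a := L₀) hx))⟩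
  refine Fermat.Agent.S56.H554.trace_mul_eq_zero_of_cup_coboundary hq hP hp hpq hq1 hL hur hc'
    hy.map_mul hyI (lam := lam) ?_ ?_ hφ hτ
  · intro τ' hτ' hfix
    have := hlamL 1 (one_mem _) τ'
      (Fermat.Agent.A2.H708.mem_decomposition_of_mem_inertiaIn P hτ')
      fun x hx => hfix x (hle (le_sup_right (b := L₁) hx))
    rwa [one_mul] at this
  · intro σ hσ σ' hσ' a ha
    rw [← hlam σ hσ σ' hσ' a ha]
    show _ = LinearMap.trace (ResidueField 𝒪) ρbar.V (c σ * (y (σ * σ') - y σ))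
    rw [hy.map_mul σ σ' a ha, add_sub_cancel_left]

end Fermat.Agent.S56.RQ.H554

end
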