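import Fermat.Agent.S56.RQ.RecipH14

/-!
# Row S56 — REC-Q leaf RECIP from the WEAK invariant package (helper554, on helper14's bridge)

S56 only needs, from the S55 side, a family of invariant maps `inv v : H²(G_v, μ_p) → F_p` with

* (RECIP) `Σ_v inv_v (loc_v y) = 0` for global classes `y` (`PT.RecipSpec`), and
* (INJ) `inv v` injective for the places `v ≡ 1 mod p` (`v ≠ p`).

`WeakInvInput` asks (INJ) at all places (helper904's `weakInv`, note #7879);
`WeakInvInput₁` only at `v ≠ p`, `p ∣ v − 1`.  `PT.InvSpec` implies `WeakInvInput₁`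
(`weakInvInput₁_of_invSpec`), and

`plainRecip_of_weak₁ : WeakInvInput₁ → PlainRecipStatement`,
`plainRecip_of_weak : WeakInvInput → PlainRecipStatement`.

Same construction as `H14.plainRecip_of` (`RQ/RecipH14.lean`).
-/

set_option autoImplicit false

noncomputable section

namespace Fermat.Agent.S56.RQ.H554

open groupCohomology Fermat.Agent.S55.PT ExtCitation Fermat.Agent.S56.H14
  Fermat.Agent.S56 Fermat.Agent.S56.RQ Fermat.Agent.S56.RQ.H14

/-- The weak invariant package, injectivity only at the places `v ≠ p`, `v ≡ 1 mod p`. -/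
def WeakInvInput₁ : Prop :=
  ∀ (p : ℕ) [Fact p.Prime] (S : Finset Nat.Primes), p ≠ 2 → pPrime p ∈ S →
    ∃ inv : InvFamily p S, RecipSpec inv ∧
      ∀ v : ↥S, ((v.1 : Nat.Primes) : ℕ) ≠ p → p ∣ ((v.1 : Nat.Primes) : ℕ) - 1 →
        Function.Injective (inv v)

/-- The weak invariant package, injectivity at all places of `S`. -/
def WeakInvInput : Prop :=
  ∀ (p : ℕ) [Fact p.Prime] (S : Finset Nat.Primes), p ≠ 2 → pPrime p ∈ S →
    ∃ inv : InvFamily p S, RecipSpec inv ∧ ∀ v : ↥S, Function.Injective (inv v)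

theorem weakInvInput₁_of_weakInvInput (h : WeakInvInput) : WeakInvInput₁ := by
  intro p _ S hp2 hpS
  obtain ⟨inv, hrec, hinj⟩ := h p S hp2 hpS
  exact ⟨inv, hrec, fun v _ _ => hinj v⟩

theorem weakInvInput₁_of_invSpec
    (hS55 : ∀ (p : ℕ) [Fact p.Prime] (S : Finset Nat.Primes), p ≠ 2 → pPrime p ∈ S →
      InvSpec p S) : WeakInvInput₁ := by
  intro p _ S hp2 hpS
  obtain ⟨inv, hrec, htop, -⟩ := hS55 p S hp2 hpS
  exact ⟨inv, hrec, fun v hvp hdvd => (inv_bijective_of_dvd_sub_one htop v hvp hdvd).1⟩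

section

variable {p : ℕ} [Fact p.Prime] {K : Type} [Field K] [Algebra (ZMod p) K]
  {S : Finset Nat.Primes} [FiniteDimensional (ZMod p) K]

/-- (inj), from the injectivity of `inv v`. -/
theorem isCob_of_invExt_eq_zero_of_injective {inv : InvFamily p S} (v : ↥S)
    (hinj : Function.Injective (inv v)) {z : GQ × GQ → K}
    (hc : IsCoc₂On p ((natPlace ((v.1 : Nat.Primes) : ℕ)).decompositionSubgroup ℚ) z)
    (hl : IsLC₂On ((natPlace ((v.1 : Nat.Primes) : ℕ)).decompositionSubgroup ℚ) z)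
    (h0 : invExt inv v z = 0) :
    IsCob₂On p ((natPlace ((v.1 : Nat.Primes) : ℕ)).decompositionSubgroup ℚ) z := by
  have hz : z ∈ Zloc p K v.1 := mem_Zloc_of_isCoc v.1 hc hl
  rw [invExt_apply inv v hz] at h0
  have h1 : extInv (W := K) (localLevels v.1) ((cycloChar p).comp (rl v.1)) (inv v)
      (clsLoc v.1 ⟨z, hz⟩) = 0 := h0
  have h2 := (extInv_eq_zero_iff (W := K) (localLevels v.1) ((cycloChar p).comp (rl v.1))
    (inv := inv v) hinj (clsLoc v.1 ⟨z, hz⟩)).1 h1
  exact isCob_of_clsLoc_eq_zero v.1 ⟨z, hz⟩ h2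

end

/-- **RECIP** from the weak invariant package (injectivity at `v ≡ 1 mod p`, `v ≠ p`). -/
theorem plainRecip_of_weak₁ (hW : WeakInvInput₁) : PlainRecipStatement := by
  intro K _ _ p _ hp hp2 Sg hpSg hSg
  have : Fact p.Prime := ⟨hp⟩
  let _ : Algebra (ZMod p) K := ZMod.algebra K p
  have : FiniteDimensional (ZMod p) K := Module.Finite.of_finite
  have hpS : pPrime p ∈ primesOf Sg := mem_primesOf.2 hpSg
  obtain ⟨inv, hrec, hinj⟩ := hW p (primesOf Sg) hp2 hpS
  classical
  -- the index of a prime of `Sg` in `primesOf Sg`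
  let idx : ∀ v : ℕ, v ∈ Sg → ↥(primesOf Sg) :=
    fun v hv => ⟨⟨v, hSg v hv⟩, mem_primesOf.2 hv⟩
  let invN : ℕ → (GQ × GQ → K) →ₗ[K] K :=
    fun v => if hv : v ∈ Sg then invExt inv (idx v hv) else 0
  have hinvN : ∀ (v : ℕ) (hv : v ∈ Sg), invN v = invExt inv (idx v hv) := by
    intro v hv
    show (if hv : v ∈ Sg then invExt inv (idx v hv) else 0) = _
    rw [dif_pos hv]
  refine ⟨natPlace, invN, fun v hv => natPlace_liesOver (hSg v hv), ?_, ?_, ?_⟩
  · intro v hv z hz
    rw [hinvN v hv]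
    exact invExt_eq_zero_of_isCob inv (idx v hv) hz
  · intro v hv hdvd z hc hl h0
    rw [hinvN v hv] at h0
    have hvp : v ≠ p := by
      rintro rfl
      have h1 : v ≤ v - 1 := Nat.le_of_dvd (Nat.sub_pos_of_lt hp.one_lt) hdvd
      have h2 := hp.pos
      omega
    exact isCob_of_invExt_eq_zero_of_injective (idx v hv) (hinj (idx v hv) hvp hdvd) hc hl h0
  · intro z hz
    have h1 := sum_invExt_eq_zero hrec hz
    have h2 : ∑ v ∈ Sg, invN v z = ∑ q ∈ primesOf Sg, invN (q : ℕ) z :=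
      (Finset.sum_subtype_of_mem (fun v => invN v z) hSg).symm
    rw [h2, ← Finset.sum_coe_sort (primesOf Sg) (fun q => invN (q : ℕ) z), ← h1]
    refine Finset.sum_congr rfl fun w _ => ?_
    have hw : ((w.1 : Nat.Primes) : ℕ) ∈ Sg := mem_primesOf.1 w.2
    have hidx : idx _ hw = w := Subtype.ext (Subtype.ext rfl)
    rw [hinvN _ hw, hidx]

/-- **RECIP** from the weak invariant package (injectivity at all places). -/
theorem plainRecip_of_weak (hW : WeakInvInput) : PlainRecipStatement :=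
  plainRecip_of_weak₁ (weakInvInput₁_of_weakInvInput hW)

end Fermat.Agent.S56.RQ.H554

end
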