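import Fermat.Agent.S56.RQ.CobCupH475
import Fermat.Agent.S56.RQ.H514.LocTriv
import Fermat.Agent.S56.RQ.LeavesH554
import Fermat.Agent.S56.RQ.LineH454
import Fermat.Agent.Lib.Cheb.H643.FrobAt

/-!
# Row S56 — REC-Q, leaf URCUP (helper475)

`urCup : UrCupStatement` (unconditional) and
`urCup_of : GenStatement → LineStatement → CobCupStatement → UrCupStatement`: at a Taylor–Wiles
prime `q`, `P | q`, the cup product of an ad-cocycle `c` and a twisted cocycle `y`, both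
vanishing on the inertia group `I_P`, is a coboundary of `k(1)` on the decomposition group `D_P`.

Proof.  `φ` a Frobenius element at `P`; LINE gives `h` (trace zero, `tr h² ≠ 0`, commuting with
`ρ̄ φ`) and `c φ = α h + (φ m φ⁻¹ − m)`.  Put `d = ∂m` and `c₁ = c − d`: `cup d y` is a coboundary
by COBCUP, and `c₁` is an ad-cocycle vanishing on `I_P` with `c₁ φ = α h`.  By GEN every
`σ ∈ D_P` agrees with some `φ ^ n * τ`, `τ ∈ I_P`, on any given finite level; hence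
`c₁ σ = n α h`, `tr (h · y σ) = n tr (h · y φ)`, `ρ̄ σ` commutes with `h`, and `σ` fixes `μ_p`.
So on `D_P`: `cup c₁ y (σ, τ) = χ σ · ψ τ` with `χ = tr (h c₁) / tr h²`, `ψ = tr (h y)` both
additive and proportional, and `χ σ ψ τ = dλ`, `λ = − χ ψ / 2` (`p` odd).
-/

set_option autoImplicit false
set_option linter.style.haveILetI false

open Polynomial IsLocalRing

noncomputable section

namespace Fermat.Agent.S56.RQ.H475

open Fermat.Agent.S56 Fermat.Agent.S56.H716 Fermat.Agent.S56.RQ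

section Core

variable {k : Type} [Field k] {ρbar : ResidualGaloisRep k} {p : ℕ}

theorem adCocycle_one {c : GQ → Module.End k ρbar.V} (hc : IsAdCocycle ρbar c) : c 1 = 0 := by
  have h := hc.map_mul 1 1
  simp only [mul_one, map_one, inv_one, one_mul] at h
  exact left_eq_add.mp h

/-- An ad-cocycle takes the same value on elements agreeing on its level. -/
theorem adCocycle_eq_of_agree {c : GQ → Module.End k ρbar.V} (hc : IsAdCocycle ρbar c) :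
    ∃ L : IntermediateField ℚ Qb, FiniteDimensional ℚ L ∧
      ∀ σ τ : GQ, (∀ x ∈ L, σ x = τ x) → c σ = c τ := by
  obtain ⟨L, hL, h⟩ := hc.level
  refine ⟨L, hL, fun σ τ hστ => ?_⟩
  have h1 := h τ (τ⁻¹ * σ) (fun x hx => by
    rw [AlgEquiv.mul_apply, hστ x hx]
    exact τ.symm_apply_apply x)
  rwa [mul_inv_cancel_left] at h1

/-- `ρ̄` takes the same value on elements agreeing on its level. -/
theorem rho_eq_of_agree (ρbar : ResidualGaloisRep k) :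
    ∃ L : IntermediateField ℚ Qb, FiniteDimensional ℚ L ∧
      ∀ σ τ : GQ, (∀ x ∈ L, σ x = τ x) → ρbar.ρ σ = ρbar.ρ τ := by
  obtain ⟨L, hL, h⟩ := ρbar.factorsThroughFiniteLevel
  refine ⟨L, hL, fun σ τ hστ => ?_⟩
  have h1 : ρbar.ρ (τ⁻¹ * σ) = 1 := h (τ⁻¹ * σ) (fun x hx => by
    rw [AlgEquiv.mul_apply, hστ x hx]
    exact τ.symm_apply_apply x)
  calc ρbar.ρ σ = ρbar.ρ (τ * (τ⁻¹ * σ)) := by rw [mul_inv_cancel_left]
    _ = ρbar.ρ τ := by rw [map_mul, h1, mul_one]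

/-- If `ρ̄ σ` commutes with `h` then `σ h σ⁻¹ = h`. -/
theorem conj_eq_of_commute {σ : GQ} {h : Module.End k ρbar.V}
    (hσ : ρbar.ρ σ * h = h * ρbar.ρ σ) : ρbar.ρ σ * h * ρbar.ρ σ⁻¹ = h := by
  rw [hσ, mul_assoc, rho_mul_inv, mul_one]

/-- If `ρ̄ σ` commutes with `h` then `tr (h · σ x σ⁻¹) = tr (h · x)`. -/
theorem trace_mul_conj_of_commute {σ : GQ} {h : Module.End k ρbar.V}
    (hσ : ρbar.ρ σ * h = h * ρbar.ρ σ) (x : Module.End k ρbar.V) :
    LinearMap.trace k ρbar.V (h * (ρbar.ρ σ * x * ρbar.ρ σ⁻¹)) =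
      LinearMap.trace k ρbar.V (h * x) := by
  have h1 : h * (ρbar.ρ σ * x * ρbar.ρ σ⁻¹) = ρbar.ρ σ * (h * x) * ρbar.ρ σ⁻¹ := by
    calc h * (ρbar.ρ σ * x * ρbar.ρ σ⁻¹) = (h * ρbar.ρ σ) * x * ρbar.ρ σ⁻¹ := by
          simp only [mul_assoc]
      _ = ρbar.ρ σ * (h * x) * ρbar.ρ σ⁻¹ := by rw [← hσ]; simp only [mul_assoc]
  rw [h1, trace_conj]

theorem rho_pow_commute {φ : GQ} {h : Module.End k ρbar.V}
    (hφ : ρbar.ρ φ * h = h * ρbar.ρ φ) (n : ℕ) :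
    ρbar.ρ (φ ^ n) * h = h * ρbar.ρ (φ ^ n) := by
  rw [map_pow]
  exact ((show Commute (ρbar.ρ φ) h from hφ).pow_left n).eq

theorem isCycExp_one_pow {φ : GQ} (hφ1 : IsCycExp p φ 1) (n : ℕ) : IsCycExp p (φ ^ n) 1 := by
  intro μ hμ
  rw [pow_one]
  have := hφ1 μ hμ
  rw [pow_one] at this
  exact H536.pow_apply_eq_of_apply_eq φ this n

/-- Values of an ad-cocycle on the powers of `φ`, when `c φ` is a multiple of `h` commuting with
`ρ̄ φ`. -/
theorem adCocycle_pow {c : GQ → Module.End k ρbar.V} (hc : IsAdCocycle ρbar c) {φ : GQ}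
    {h : Module.End k ρbar.V} (hφ : ρbar.ρ φ * h = h * ρbar.ρ φ) {α : k} (hcφ : c φ = α • h)
    (n : ℕ) : c (φ ^ n) = ((n : k) * α) • h := by
  induction n with
  | zero => rw [pow_zero, adCocycle_one hc, Nat.cast_zero, zero_mul, zero_smul]
  | succ n ih =>
    rw [pow_succ, hc.map_mul, ih, hcφ, mul_smul_comm, smul_mul_assoc,
      conj_eq_of_commute (rho_pow_commute hφ n), ← add_smul, Nat.cast_succ, add_mul, one_mul]

/-- Values of `tr (h · y)` on the powers of `φ`. -/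
theorem twCocycle_trace_pow {y : GQ → Module.End k ρbar.V} (hy : IsTwCocycle ρbar p y) {φ : GQ}
    (hφ1 : IsCycExp p φ 1) {h : Module.End k ρbar.V} (hφ : ρbar.ρ φ * h = h * ρbar.ρ φ)
    (n : ℕ) : LinearMap.trace k ρbar.V (h * y (φ ^ n)) =
      (n : k) * LinearMap.trace k ρbar.V (h * y φ) := by
  induction n with
  | zero => rw [pow_zero, H536.cocycle_one hy, mul_zero, map_zero, Nat.cast_zero, zero_mul]
  | succ n ih =>
    rw [pow_succ, hy.map_mul (φ ^ n) φ 1 (isCycExp_one_pow hφ1 n), H554.twAd_one, mul_add,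
      map_add, ih, trace_mul_conj_of_commute (rho_pow_commute hφ n), Nat.cast_succ, add_mul,
      one_mul]

/-- **URCUP, core.**  `D` is generated modulo every finite level by `φ` and `I`, which fix `μ_p`;
`ρ̄` is trivial on `I`; `h` commutes with `ρ̄ φ` and `tr h² ≠ 0`; `c`, `y` vanish on `I` and
`c φ = α h`.  Then `cup c y` is a coboundary on `D`. -/
theorem urCup_core [CharP k p] (hp : p.Prime) (hp2 : p ≠ 2) {D I : Subgroup GQ} {φ : GQ}
    (hφ1 : IsCycExp p φ 1) (hI1 : ∀ τ ∈ I, IsCycExp p τ 1)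
    (hur : ∀ τ ∈ I, ρbar.ρ τ = 1)
    (hgen : ∀ L : IntermediateField ℚ Qb, FiniteDimensional ℚ L →
      ∀ σ ∈ D, ∃ n : ℕ, ∃ τ ∈ I, ∀ x ∈ L, σ x = (φ ^ n * τ) x)
    {h : Module.End k ρbar.V} (hcomm : ρbar.ρ φ * h = h * ρbar.ρ φ)
    (ht : LinearMap.trace k ρbar.V (h * h) ≠ 0)
    {c y : GQ → Module.End k ρbar.V} (hc : IsAdCocycle ρbar c) (hy : IsTwCocycle ρbar p y)
    (hcI : ∀ τ ∈ I, c τ = 0) (hyI : ∀ τ ∈ I, y τ = 0) {α : k} (hcφ : c φ = α • h) :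
    IsCob₂On p D (cup ρbar c y) := by
  haveI : NeZero p := ⟨hp.ne_zero⟩
  set t : k := LinearMap.trace k ρbar.V (h * h) with ht_def
  set ψφ : k := LinearMap.trace k ρbar.V (h * y φ) with hψφ_def
  obtain ⟨Lc, hLc, hcL⟩ := adCocycle_eq_of_agree hc
  obtain ⟨Ly, hLy, hyL⟩ := H536.cocycle_eq_of_agree hy
  obtain ⟨Lρ, hLρ, hρL⟩ := rho_eq_of_agree ρbar
  obtain ⟨Lc', hLc', hcL'⟩ := hc.level
  obtain ⟨Ly', hLy', hyL'⟩ := hy.level
  haveI := hLc
  haveI := hLy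
  haveI := hLρ
  haveI := hLc'
  haveI := hLy'
  haveI : FiniteDimensional ℚ ↥(Lc ⊔ Ly) := IntermediateField.finiteDimensional_sup Lc Ly
  haveI : FiniteDimensional ℚ ↥(Lc ⊔ Ly ⊔ Lρ) :=
    IntermediateField.finiteDimensional_sup (Lc ⊔ Ly) Lρ
  have hLfin : FiniteDimensional ℚ ↥(Lc ⊔ Ly ⊔ Lρ ⊔ Fermat.Agent.S55.H414.cycloLevel p) :=
    IntermediateField.finiteDimensional_sup (Lc ⊔ Ly ⊔ Lρ) (Fermat.Agent.S55.H414.cycloLevel p)
  have hLc_le : Lc ≤ Lc ⊔ Ly ⊔ Lρ ⊔ Fermat.Agent.S55.H414.cycloLevel p :=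
    le_sup_left.trans (le_sup_left.trans le_sup_left)
  have hLy_le : Ly ≤ Lc ⊔ Ly ⊔ Lρ ⊔ Fermat.Agent.S55.H414.cycloLevel p :=
    le_sup_right.trans (le_sup_left.trans le_sup_left)
  have hLρ_le : Lρ ≤ Lc ⊔ Ly ⊔ Lρ ⊔ Fermat.Agent.S55.H414.cycloLevel p :=
    le_sup_right.trans le_sup_left
  have hLμ_le : Fermat.Agent.S55.H414.cycloLevel p ≤
      Lc ⊔ Ly ⊔ Lρ ⊔ Fermat.Agent.S55.H414.cycloLevel p := le_sup_right
  -- the key facts on `D`
  have key : ∀ σ ∈ D, ∃ n : ℕ, c σ = ((n : k) * α) • h ∧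
      LinearMap.trace k ρbar.V (h * y σ) = (n : k) * ψφ ∧
      ρbar.ρ σ * h = h * ρbar.ρ σ ∧ IsCycExp p σ 1 := by
    intro σ hσ
    obtain ⟨n, τ, hτ, hστ⟩ := hgen _ hLfin σ hσ
    have hφn1 : IsCycExp p (φ ^ n) 1 := isCycExp_one_pow hφ1 n
    refine ⟨n, ?_, ?_, ?_, ?_⟩
    · rw [hcL σ (φ ^ n * τ) (fun x hx => hστ x (hLc_le hx)), hc.map_mul, hcI τ hτ, mul_zero,
        zero_mul, add_zero, adCocycle_pow hc hcomm hcφ n]
    · rw [hyL σ (φ ^ n * τ) (fun x hx => hστ x (hLy_le hx)), hy.map_mul (φ ^ n) τ 1 hφn1,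
        hyI τ hτ]
      simp only [twAd, mul_zero, zero_mul, smul_zero, add_zero]
      exact twCocycle_trace_pow hy hφ1 hcomm n
    · rw [hρL σ (φ ^ n * τ) (fun x hx => hστ x (hLρ_le hx)), map_mul, hur τ hτ, mul_one]
      exact rho_pow_commute hcomm n
    · intro μ hμ
      rw [pow_one, hστ μ (hLμ_le (H536.mem_cycloLevel_of_pow_eq_one p hμ))]
      show (φ ^ n) (τ μ) = μ
      have h1 := hI1 τ hτ μ hμ
      rw [pow_one] at h1
      rw [h1]
      have h2 := hφn1 μ hμ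
      rwa [pow_one] at h2
  have h2ne : (2 : k) ≠ 0 := by
    intro h2
    have h3 : ((2 : ℕ) : k) = 0 := by exact_mod_cast h2
    rw [CharP.cast_eq_zero_iff k p] at h3
    exact hp2 ((Nat.prime_dvd_prime_iff_eq hp Nat.prime_two).1 h3)
  haveI : FiniteDimensional ℚ ↥(Lc' ⊔ Ly') := IntermediateField.finiteDimensional_sup Lc' Ly'
  refine ⟨fun σ => -((2 : k)⁻¹ * (LinearMap.trace k ρbar.V (h * c σ) / t *
      LinearMap.trace k ρbar.V (h * y σ))), ⟨Lc' ⊔ Ly', inferInstance, ?_⟩, ?_⟩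
  · intro σ _ s _ hs
    simp only
    rw [hcL' σ s (fun x hx => hs x ((le_sup_left : Lc' ≤ Lc' ⊔ Ly') hx)),
      hyL' σ s (fun x hx => hs x ((le_sup_right : Ly' ≤ Lc' ⊔ Ly') hx))]
  · intro σ hσ τ hτ a ha
    obtain ⟨n, hcσ, hyσ, hσh, hσ1⟩ := key σ hσ
    obtain ⟨n', hcτ, hyτ, -, -⟩ := key τ hτ
    have ha1 : (a : k) = 1 := H514.natCast_eq_one_of_isCycExp hp ha hσ1
    -- the values at `σ * τ`
    have hcστ : c (σ * τ) = (((n : k) + n') * α) • h := by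
      rw [hc.map_mul, hcσ, hcτ, mul_smul_comm, smul_mul_assoc, conj_eq_of_commute hσh,
        ← add_smul, add_mul]
    have hyστ : LinearMap.trace k ρbar.V (h * y (σ * τ)) = ((n : k) + n') * ψφ := by
      rw [hy.map_mul σ τ 1 hσ1, H554.twAd_one, mul_add, map_add, hyσ,
        trace_mul_conj_of_commute hσh, hyτ, add_mul]
    have hcup : cup ρbar c y (σ, τ) = (n : k) * α * ((n' : k) * ψφ) := by
      rw [cup_apply_of_exp ρbar hy c σ τ 1 hσ1, Nat.cast_one, one_mul, hcσ, smul_mul_assoc,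
        map_smul, smul_eq_mul, trace_mul_conj_of_commute hσh, hyτ]
    simp only
    rw [hcup, ha1, hcσ, hcτ, hcστ, hyσ, hyτ, hyστ]
    simp only [mul_smul_comm, map_smul, smul_eq_mul]
    rw [← ht_def]
    field_simp
    ring


/-- The ad-coboundary `∂m : σ ↦ σ m σ⁻¹ − m` is an ad-cocycle. -/
theorem isAdCocycle_cob (ρbar : ResidualGaloisRep k) (m : Module.End k ρbar.V) :
    IsAdCocycle ρbar (fun σ => ρbar.ρ σ * m * ρbar.ρ σ⁻¹ - m) := by
  refine ⟨fun σ => ?_, fun σ τ => ?_, ?_⟩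
  · rw [map_sub, trace_conj, sub_self]
  · rw [mul_inv_rev, map_mul, map_mul]
    simp only [mul_sub, sub_mul, mul_assoc]
    abel
  · obtain ⟨L, hL, hρL⟩ := rho_eq_of_agree ρbar
    refine ⟨L, hL, fun σ τ hτ => ?_⟩
    have h1 : ρbar.ρ (σ * τ) = ρbar.ρ σ := hρL (σ * τ) σ (fun x hx => by
      rw [AlgEquiv.mul_apply, hτ x hx])
    rw [H514.rho_inv_eq_of_rho_eq h1, h1]

/-- The difference of two ad-cocycles is an ad-cocycle. -/
theorem isAdCocycle_sub {c d : GQ → Module.End k ρbar.V} (hc : IsAdCocycle ρbar c)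
    (hd : IsAdCocycle ρbar d) : IsAdCocycle ρbar (c - d) := by
  refine ⟨fun σ => ?_, fun σ τ => ?_, ?_⟩
  · rw [Pi.sub_apply, map_sub, hc.trace_eq_zero, hd.trace_eq_zero, sub_zero]
  · simp only [Pi.sub_apply]
    rw [hc.map_mul, hd.map_mul, mul_sub, sub_mul]
    abel
  · obtain ⟨L, hL, hcL⟩ := hc.level
    obtain ⟨L', hL', hdL⟩ := hd.level
    haveI := hL
    haveI := hL'
    refine ⟨L ⊔ L', IntermediateField.finiteDimensional_sup L L', fun σ τ hτ => ?_⟩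
    simp only [Pi.sub_apply]
    rw [hcL σ τ (fun x hx => hτ x ((le_sup_left : L ≤ L ⊔ L') hx)),
      hdL σ τ (fun x hx => hτ x ((le_sup_right : L' ≤ L ⊔ L') hx))]

/-- A sum of two coboundaries of `k(1)` on `H` is a coboundary on `H`. -/
theorem isCob₂On_add {H : Subgroup GQ} {z₁ z₂ z : GQ × GQ → k} (h₁ : IsCob₂On p H z₁)
    (h₂ : IsCob₂On p H z₂) (hz : ∀ σ ∈ H, ∀ τ ∈ H, z (σ, τ) = z₁ (σ, τ) + z₂ (σ, τ)) :
    IsCob₂On p H z := by
  obtain ⟨l₁, ⟨L₁, hL₁, hl₁⟩, hd₁⟩ := h₁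
  obtain ⟨l₂, ⟨L₂, hL₂, hl₂⟩, hd₂⟩ := h₂
  haveI := hL₁
  haveI := hL₂
  refine ⟨fun σ => l₁ σ + l₂ σ,
    ⟨L₁ ⊔ L₂, IntermediateField.finiteDimensional_sup L₁ L₂, fun σ hσ s hs hfix => ?_⟩,
    fun σ hσ τ hτ a ha => ?_⟩
  · simp only
    rw [hl₁ σ hσ s hs (fun x hx => hfix x ((le_sup_left : L₁ ≤ L₁ ⊔ L₂) hx)),
      hl₂ σ hσ s hs (fun x hx => hfix x ((le_sup_right : L₂ ≤ L₁ ⊔ L₂) hx))]
  · simp only
    rw [hz σ hσ τ hτ, hd₁ σ hσ τ hτ a ha, hd₂ σ hσ τ hτ a ha]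
    ring

/-- The cup product is additive in the first variable. -/
theorem cup_sub_add (ρbar : ResidualGaloisRep k) (c d y : GQ → Module.End k ρbar.V)
    (x : GQ × GQ) : cup ρbar c y x = cup ρbar (c - d) y x + cup ρbar d y x := by
  unfold cup
  simp only [Pi.sub_apply]
  rw [sub_mul, map_sub, sub_add_cancel]

end Core

/-- **URCUP** from GEN, LINE and COBCUP. -/
theorem urCup_of (hGen : GenStatement) (hLine : LineStatement) (hCob : CobCupStatement) :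
    UrCupStatement := by
  intro 𝒪 _ _ _ _ _ p ρbar S Smin hyp q hTW P hP c y hc hy hcI hyI
  have hp := hyp.hp
  haveI : CharP (ResidueField 𝒪) p := H536.charP_residueField 𝒪 p hp hyp.hp𝒪
  have hq : q.Prime := hTW.1
  have hqSmin : q ∉ Smin := fun h => hTW.2.1 (hyp.hSmin h)
  have hqp : q ≠ p := fun h => hqSmin (h ▸ hyp.hpSmin)
  have hpq : p ≠ q := fun h => hqp h.symm
  have hq1 : p ∣ q - 1 := hTW.2.2.1
  have hurq : ρbar.IsUnramifiedAt q := by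
    by_contra h
    exact hqSmin ((hyp.hmin q hq hqp).mpr h)
  have hur : ∀ σ ∈ P.inertiaSubgroupIn ℚ, ρbar.ρ σ = 1 := hurq P hP
  obtain ⟨φ, hφ⟩ := Fermat.Agent.Lib.Cheb.H643.exists_isFrobeniusAt q hq P hP
  obtain ⟨h, hh0, hht, hcomm, -, hdec⟩ := hLine 𝒪 p ρbar S Smin hyp q hTW P hP φ hφ
  -- the decomposition `c φ = α h + (φ m φ⁻¹ − m)`
  have hx0 : LinearMap.trace (ResidueField 𝒪) ρbar.V
      (c φ - (LinearMap.trace (ResidueField 𝒪) ρbar.V (h * c φ) /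
        LinearMap.trace (ResidueField 𝒪) ρbar.V (h * h)) • h) = 0 := by
    rw [map_sub, hc.trace_eq_zero, map_smul, hh0, smul_zero, sub_zero]
  have hx1 : LinearMap.trace (ResidueField 𝒪) ρbar.V
      (h * (c φ - (LinearMap.trace (ResidueField 𝒪) ρbar.V (h * c φ) /
        LinearMap.trace (ResidueField 𝒪) ρbar.V (h * h)) • h)) = 0 := by
    rw [mul_sub, map_sub, mul_smul_comm, map_smul, smul_eq_mul, div_mul_cancel₀ _ hht, sub_self]
  obtain ⟨m, -, hm⟩ := hdec _ hx0 hx1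
  have hd : IsAdCocycle ρbar (fun σ => ρbar.ρ σ * m * ρbar.ρ σ⁻¹ - m) := isAdCocycle_cob ρbar m
  have hc1 := isAdCocycle_sub hc hd
  have hc1I : ∀ τ ∈ P.inertiaSubgroupIn ℚ,
      (c - fun σ => ρbar.ρ σ * m * ρbar.ρ σ⁻¹ - m) τ = 0 := by
    intro τ hτ
    rw [Pi.sub_apply, hcI τ hτ, hur τ hτ, hur τ⁻¹ (inv_mem hτ), one_mul, mul_one, sub_self,
      sub_zero]
  have hc1φ : (c - fun σ => ρbar.ρ σ * m * ρbar.ρ σ⁻¹ - m) φ =
      (LinearMap.trace (ResidueField 𝒪) ρbar.V (h * c φ) /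
        LinearMap.trace (ResidueField 𝒪) ρbar.V (h * h)) • h := by
    rw [Pi.sub_apply, ← hm, sub_sub_cancel]
  have h1 : IsCob₂On p (P.decompositionSubgroup ℚ)
      (cup ρbar (c - fun σ => ρbar.ρ σ * m * ρbar.ρ σ⁻¹ - m) y) :=
    urCup_core hp hyp.hp2 (H554.fixes_mu_of_isFrobeniusAt hq hP hp hpq hq1 hφ)
      (fun τ hτ => H554.fixes_mu_of_mem_inertia hq hP hp hpq hτ) hur
      (fun L hL σ hσ => hGen q P φ hq hP hφ L hL σ hσ) hcomm hht hc1 hy hc1I hyI hc1φ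
  have h2 : IsCob₂On p (P.decompositionSubgroup ℚ)
      (cup ρbar (fun σ => ρbar.ρ σ * m * ρbar.ρ σ⁻¹ - m) y) :=
    (hCob (ResidueField 𝒪) p hp ρbar (P.decompositionSubgroup ℚ) _ y hd hy).1
      ⟨m, fun σ _ => rfl⟩
  exact isCob₂On_add h1 h2 (fun σ _ τ _ => cup_sub_add ρbar c _ y (σ, τ))

/-- **URCUP** from GEN and LINE (COBCUP is `cobCup`). -/
theorem urCup_of_gen_line (hGen : GenStatement) (hLine : LineStatement) : UrCupStatement :=
  urCup_of hGen hLine cobCup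

/-- **URCUP**, unconditional (GEN = `H554.gen`, LINE = `H454.line`, COBCUP = `cobCup`). -/
theorem urCup : UrCupStatement :=
  urCup_of Fermat.Agent.S56.RQ.H554.gen Fermat.Agent.S56.RQ.H454.line cobCup

end Fermat.Agent.S56.RQ.H475

end
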