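import Fermat.Agent.S56.RQ.SubTop
import Fermat.Agent.S56.RQ.GlobZSub
import Fermat.Agent.S56.RQ.RecipWeak
import Fermat.Agent.S56.RQ.LeavesH554
import Fermat.Agent.S56.RQ.LineH454
import Fermat.Agent.S56.RQ.CobCupH475
import Fermat.Agent.S56.RQ.ConjH880
import Fermat.Agent.S56.RQ.H514.LocTriv
import Fermat.Agent.S56.RQ.UrCupH475

/-!
# Row S56 — REC-Q-SUB: assembly of the RQ route (helper554)

All leaves of `RQ/Spec.lean` + `RQ/SpecSub.lean` which are on main are plugged into
`recQSub_of'`:

| leaf | proof |
|---|---|
| RECIP | `H554.plainRecip_of_weak₁` (helper14's bridge), from `WeakInvInput₁` (S55) |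
| FRAME, NONDEG, GEN | `H554.frame`, `H554.nondeg`, `H554.gen` |
| LINE | `H454.line` (also `H275.line`) |
| LOCTRIV | `H514.locTrivTw_of` |
| COBCUP | `H475.cobCup` |
| CONJ | `H880.conjStatement` |
| GLOBZ-SUB | `H554.globZSub` (variant of `H934.globZ`) |
| URCUP | `H475.urCup` |

Result: `recQSub : WeakInvInput₁ → H716.RecQSubStatement` — REC-Q-SUB is CLOSED modulo the weak
invariant package of S55 (`∃ inv : PT.InvFamily p S, PT.RecipSpec inv ∧ inv v injective for
`v ≡ 1 mod p`, `v ≠ p`); `recQSub_of_invSpec` from `PT.InvSpec`, `recQSub_of_weakInv` from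
helper904's shape (injectivity at all places).
-/

set_option autoImplicit false

noncomputable section

namespace Fermat.Agent.S56.RQ

open Fermat.Agent.S56 Fermat.Agent.S56.H716

/-- **REC-Q-SUB**, from the weak invariant package of S55 and URCUP. -/
theorem recQSub_of_urCup (hW : H554.WeakInvInput₁) (hU : UrCupStatement) :
    H716.RecQSubStatement :=
  recQSub_of' (H554.plainRecip_of_weak₁ hW) H554.frame H454.line H554.nondeg hU
    (H514.locTrivTw_of H554.gen) H475.cobCup H880.conjStatement H554.globZSub

/-- **REC-Q** (the case `S' = Smin`), from the weak invariant package of S55 and URCUP. -/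
theorem recQ_of_urCup (hW : H554.WeakInvInput₁) (hU : UrCupStatement) :
    H716.RecQStatement :=
  recQ_of (H554.plainRecip_of_weak₁ hW) H554.frame H454.line H554.nondeg hU
    (H514.locTrivTw_of H554.gen) H475.cobCup H880.conjStatement (globZ_of_sub H554.globZSub)

/-- **REC-Q-SUB**, from the weak invariant package of S55 (all elementary leaves plugged in). -/
theorem recQSub (hW : H554.WeakInvInput₁) : H716.RecQSubStatement :=
  recQSub_of_urCup hW H475.urCup

/-- **REC-Q**, from the weak invariant package of S55. -/
theorem recQ (hW : H554.WeakInvInput₁) : H716.RecQStatement :=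
  recQ_of_urCup hW H475.urCup

/-- **REC-Q-SUB**, from the weak invariant package with injectivity at all places. -/
theorem recQSub_of_weakInv (hW : H554.WeakInvInput) : H716.RecQSubStatement :=
  recQSub (H554.weakInvInput₁_of_weakInvInput hW)

/-- **REC-Q-SUB**, from S55's `InvSpec`. -/
theorem recQSub_of_invSpec
    (hS55 : ∀ (p : ℕ) [Fact p.Prime] (S : Finset Nat.Primes), p ≠ 2 →
      ExtCitation.pPrime p ∈ S → Fermat.Agent.S55.PT.InvSpec p S) : H716.RecQSubStatement :=
  recQSub (H554.weakInvInput₁_of_invSpec hS55)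

end Fermat.Agent.S56.RQ

end
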