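import Fermat.Agent.S56.RQ.Spec
import Fermat.Agent.S56.H536.CycExp
import Fermat.Agent.S56.H554.LocTWCup
import Fermat.Agent.S55.Bridge.Level

/-!
# Row S56 — REC-Q, leaf GLOBZ (helper934)

`globZ : GlobZStatement`: the cup product `c ∪ y` of an ad-cocycle `c` unramified outside
`Smin ∪ Q` and a twisted cocycle `y` unramified outside `Smin` is a global 2-cocycle of `k(1)`,
level-constant for a finite level unramified outside `Smin ∪ Q`.

* `cup_isCoc₂` : the 2-cocycle identity (pure algebra).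
* `levelSub`   : the subgroup `N = {s : ρ̄ s = 1, s fixes μ_p, c s = 0, y s = 0}`.
* `cup_mul_right` : `c ∪ y` is invariant under right translation by `N × N`.
-/

set_option autoImplicit false
set_option linter.style.haveILetI false

open Polynomial IsLocalRing

noncomputable section

namespace Fermat.Agent.S56.RQ.H934

open Fermat.Agent.S56 Fermat.Agent.S56.H716 Fermat.Agent.S56.RQ

section

variable {k : Type} [Field k] (ρbar : ResidualGaloisRep k) (p : ℕ)

theorem rho_inv_mul (σ : GQ) : ρbar.ρ σ⁻¹ * ρbar.ρ σ = 1 := by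
  rw [← map_mul, inv_mul_cancel, map_one]

theorem trace_conj_mul (σ : GQ) (x y : Module.End k ρbar.V) :
    LinearMap.trace k ρbar.V
        ((ρbar.ρ σ * x * ρbar.ρ σ⁻¹) * (ρbar.ρ σ * y * ρbar.ρ σ⁻¹)) =
      LinearMap.trace k ρbar.V (x * y) := by
  have h : (ρbar.ρ σ * x * ρbar.ρ σ⁻¹) * (ρbar.ρ σ * y * ρbar.ρ σ⁻¹) =
      ρbar.ρ σ * (x * y * ρbar.ρ σ⁻¹) := by
    calc (ρbar.ρ σ * x * ρbar.ρ σ⁻¹) * (ρbar.ρ σ * y * ρbar.ρ σ⁻¹)
        = ρbar.ρ σ * x * (ρbar.ρ σ⁻¹ * ρbar.ρ σ) * y * ρbar.ρ σ⁻¹ := by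
          simp only [mul_assoc]
      _ = ρbar.ρ σ * (x * y * ρbar.ρ σ⁻¹) := by
          rw [rho_inv_mul, mul_one]
          simp only [mul_assoc]
  rw [h, LinearMap.trace_mul_comm]
  have h' : x * y * ρbar.ρ σ⁻¹ * ρbar.ρ σ = x * y := by
    rw [mul_assoc (x * y), rho_inv_mul, mul_one]
  rw [h']

theorem rho_inv_eq_one {s : GQ} (h : ρbar.ρ s = 1) : ρbar.ρ s⁻¹ = 1 := by
  have h1 := rho_inv_mul ρbar s
  rw [h, mul_one] at h1
  exact h1

variable {ρbar p}

theorem ad_one {c : GQ → Module.End k ρbar.V} (hc : IsAdCocycle ρbar c) : c 1 = 0 := by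
  have h := hc.map_mul 1 1
  rw [mul_one, map_one, inv_one, map_one, one_mul, mul_one] at h
  exact left_eq_add.mp h

theorem tw_one {y : GQ → Module.End k ρbar.V} (hy : IsTwCocycle ρbar p y) : y 1 = 0 := by
  have h := hy.map_mul 1 1 1 (Fermat.Agent.S56.H536.isCycExp_one_one p)
  unfold twAd at h
  rw [mul_one, map_one, inv_one, map_one, one_mul, mul_one, Nat.cast_one, one_smul] at h
  exact left_eq_add.mp h

theorem twAd_zero (σ : GQ) (a : ℕ) : twAd ρbar σ a 0 = 0 := by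
  unfold twAd
  rw [mul_zero, zero_mul, smul_zero]

/-- The 2-cocycle identity for the cup product. -/
theorem cup_isCoc₂ {c y : GQ → Module.End k ρbar.V} (hc : IsAdCocycle ρbar c)
    (hy : IsTwCocycle ρbar p y) : IsCoc₂On p ⊤ (cup ρbar c y) := by
  intro σ _ τ _ υ _ a ha
  have h1 : y (σ * τ * υ) - y (σ * τ) = twAd ρbar σ a (y (τ * υ) - y τ) := by
    rw [mul_assoc, hy.map_mul σ (τ * υ) a ha, hy.map_mul σ τ a ha]
    unfold twAd
    rw [mul_sub, sub_mul, smul_sub]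
    abel
  have h2 : LinearMap.trace k ρbar.V
      (ρbar.ρ σ * c τ * ρbar.ρ σ⁻¹ * twAd ρbar σ a (y (τ * υ) - y τ)) =
      (a : k) * LinearMap.trace k ρbar.V (c τ * (y (τ * υ) - y τ)) := by
    unfold twAd
    rw [mul_smul_comm, map_smul, smul_eq_mul, trace_conj_mul]
  have h3 : y (σ * (τ * υ)) - y σ = (y (σ * τ * υ) - y (σ * τ)) + (y (σ * τ) - y σ) := by
    rw [mul_assoc]
    abel
  show (a : k) * LinearMap.trace k ρbar.V (c τ * (y (τ * υ) - y τ)) +
      LinearMap.trace k ρbar.V (c σ * (y (σ * (τ * υ)) - y σ)) =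
    LinearMap.trace k ρbar.V (c (σ * τ) * (y (σ * τ * υ) - y (σ * τ))) +
      LinearMap.trace k ρbar.V (c σ * (y (σ * τ) - y σ))
  rw [hc.map_mul σ τ, h3, add_mul, mul_add, map_add, map_add, ← h2, ← h1]
  abel

/-- The subgroup `N = {s : ρ̄ s = 1, s fixes μ_p, c s = 0, y s = 0}`. -/
def levelSub {c y : GQ → Module.End k ρbar.V} (hc : IsAdCocycle ρbar c)
    (hy : IsTwCocycle ρbar p y) : Subgroup GQ where
  carrier := {s | ρbar.ρ s = 1 ∧ IsCycExp p s 1 ∧ c s = 0 ∧ y s = 0}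
  one_mem' := ⟨map_one _, Fermat.Agent.S56.H536.isCycExp_one_one p, ad_one hc, tw_one hy⟩
  mul_mem' := by
    rintro s t ⟨hs1, hs2, hs3, hs4⟩ ⟨ht1, ht2, ht3, ht4⟩
    refine ⟨by rw [map_mul, hs1, ht1, one_mul], ?_, ?_, ?_⟩
    · intro μ hμ
      have h1 := ht2 μ hμ
      rw [pow_one] at h1 ⊢
      have h2 := hs2 μ hμ
      rw [pow_one] at h2
      show s (t μ) = μ
      rw [h1, h2]
    · rw [hc.map_mul, hs3, ht3, mul_zero, zero_mul, add_zero]
    · rw [hy.map_mul s t 1 hs2, hs4, ht4, twAd_zero, add_zero]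
  inv_mem' := by
    rintro s ⟨hs1, hs2, hs3, hs4⟩
    have hinv : IsCycExp p s⁻¹ 1 := by
      intro μ hμ
      have h2 := hs2 μ hμ
      rw [pow_one] at h2 ⊢
      have h3 : s⁻¹ (s μ) = μ := s.symm_apply_apply μ
      rw [h2] at h3
      exact h3
    refine ⟨rho_inv_eq_one ρbar hs1, hinv, ?_, ?_⟩
    · have h := hc.map_mul s⁻¹ s
      rw [inv_mul_cancel, ad_one hc, hs3, mul_zero, zero_mul, add_zero] at h
      exact h.symm
    · have h := hy.map_mul s⁻¹ s 1 hinv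
      rw [inv_mul_cancel, tw_one hy, hs4, twAd_zero, add_zero] at h
      exact h.symm

theorem mem_levelSub {c y : GQ → Module.End k ρbar.V} (hc : IsAdCocycle ρbar c)
    (hy : IsTwCocycle ρbar p y) (s : GQ) :
    s ∈ levelSub hc hy ↔ ρbar.ρ s = 1 ∧ IsCycExp p s 1 ∧ c s = 0 ∧ y s = 0 :=
  Iff.rfl

/-- Right-invariance of the cup product under `N × N`. -/
theorem cup_mul_right (hp : p.Prime) {c y : GQ → Module.End k ρbar.V}
    (hc : IsAdCocycle ρbar c) (hy : IsTwCocycle ρbar p y) (σ τ s s' : GQ)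
    (hs : s ∈ levelSub hc hy) (hs' : s' ∈ levelSub hc hy) :
    cup ρbar c y (σ * s, τ * s') = cup ρbar c y (σ, τ) := by
  obtain ⟨hs1, hs2, hs3, hs4⟩ := hs
  obtain ⟨hs1', hs2', hs3', hs4'⟩ := hs'
  -- right invariance of `y`
  have hyr : ∀ g t : GQ, y t = 0 → y (g * t) = y g := by
    intro g t ht
    obtain ⟨a, ha⟩ := Fermat.Agent.S56.H536.exists_isCycExp p hp g
    rw [hy.map_mul g t a ha, ht, twAd_zero, add_zero]
  have hcr : c (σ * s) = c σ := by
    rw [hc.map_mul, hs3, mul_zero, zero_mul, add_zero]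
  have hyl : y (s * τ) = y τ := by
    rw [hy.map_mul s τ 1 hs2, hs4, zero_add]
    unfold twAd
    rw [hs1, Nat.cast_one, one_smul, one_mul, rho_inv_eq_one ρbar hs1, mul_one]
  have hy2 : y (σ * s * (τ * s')) = y (σ * τ) := by
    obtain ⟨a, ha⟩ := Fermat.Agent.S56.H536.exists_isCycExp p hp σ
    have e : σ * s * (τ * s') = σ * (s * τ) * s' := by simp only [mul_assoc]
    rw [e, hyr _ _ hs4', hy.map_mul σ (s * τ) a ha, hyl, ← hy.map_mul σ τ a ha]
  show LinearMap.trace k ρbar.V (c (σ * s) * (y (σ * s * (τ * s')) - y (σ * s))) =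
    LinearMap.trace k ρbar.V (c σ * (y (σ * τ) - y σ))
  rw [hcr, hy2, hyr σ s hs4]

end

/-- **GLOBZ.** -/
theorem globZ : GlobZStatement := by
  intro 𝒪 _ _ _ _ _ p ρbar S Smin hyp Q hQ c y hc hcur hy hyur
  classical
  refine ⟨cup_isCoc₂ hc hy, ?_⟩
  haveI : NeZero p := ⟨hyp.hp.ne_zero⟩
  obtain ⟨Lρ, hLρfin, hLρ⟩ := ρbar.factorsThroughFiniteLevel
  obtain ⟨Lc, hLcfin, hLc⟩ := hc.level
  obtain ⟨Ly, hLyfin, hLy⟩ := hy.level
  -- the big level
  let F₀ : IntermediateField ℚ Qb := Lρ ⊔ Lc ⊔ Ly ⊔ Fermat.Agent.S55.H414.cycloLevel p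
  haveI : FiniteDimensional ℚ Lρ := hLρfin
  haveI : FiniteDimensional ℚ Lc := hLcfin
  haveI : FiniteDimensional ℚ Ly := hLyfin
  haveI h1 : FiniteDimensional ℚ (Lρ ⊔ Lc : IntermediateField ℚ Qb) :=
    IntermediateField.finiteDimensional_sup Lρ Lc
  haveI h2 : FiniteDimensional ℚ (Lρ ⊔ Lc ⊔ Ly : IntermediateField ℚ Qb) :=
    IntermediateField.finiteDimensional_sup (Lρ ⊔ Lc) Ly
  have hF₀fin : FiniteDimensional ℚ F₀ :=
    IntermediateField.finiteDimensional_sup (Lρ ⊔ Lc ⊔ Ly) (Fermat.Agent.S55.H414.cycloLevel p)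
  have hF₀ : F₀.fixingSubgroup ≤ levelSub hc hy := by
    intro s hs
    have hs' : ∀ x ∈ F₀, s x = x := (IntermediateField.mem_fixingSubgroup_iff F₀ s).1 hs
    have hρle : Lρ ≤ F₀ := le_sup_left.trans (le_sup_left.trans le_sup_left)
    have hcle : Lc ≤ F₀ := le_sup_right.trans (le_sup_left.trans le_sup_left)
    have hyle : Ly ≤ F₀ := le_sup_right.trans le_sup_left
    have hzle : Fermat.Agent.S55.H414.cycloLevel p ≤ F₀ := le_sup_right
    refine ⟨hLρ s (fun x hx => hs' x (hρle hx)), ?_, ?_, ?_⟩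
    · intro μ hμ
      rw [pow_one]
      exact hs' μ (hzle (Fermat.Agent.S56.H536.mem_cycloLevel_of_pow_eq_one p hμ))
    · have h := hLc 1 s (fun x hx => hs' x (hcle hx))
      rw [one_mul, ad_one hc] at h
      exact h
    · have h := hLy 1 s (fun x hx => hs' x (hyle hx))
      rw [one_mul, tw_one hy] at h
      exact h
  have hur : ∀ q : Nat.Primes, q ∉ ((Smin ∪ Q).subtype Nat.Prime : Finset Nat.Primes) →
      ∀ A : ValuationSubring (AlgebraicClosure ℚ), A.LiesOverPrime (q : ℕ) →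
        A.inertiaSubgroupIn ℚ ≤ levelSub hc hy := by
    intro q hq A hA s hs
    have hq' : (q : ℕ) ∉ Smin ∪ Q := fun h => hq (Finset.mem_subtype.2 h)
    have hqSmin : (q : ℕ) ∉ Smin := fun h => hq' (Finset.mem_union_left _ h)
    have hqp : (q : ℕ) ≠ p := fun h => hqSmin (h ▸ hyp.hpSmin)
    have hρur : ρbar.IsUnramifiedAt (q : ℕ) := by
      by_contra hne
      exact hqSmin ((hyp.hmin q q.2 hqp).2 hne)
    exact ⟨hρur A hA s hs,
      Fermat.Agent.S56.H554.fixes_mu_of_mem_inertia q.2 hA hyp.hp (Ne.symm hqp) hs,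
      hcur q q.2 hq' A hA s hs, hyur q q.2 hqSmin A hA s hs⟩
  obtain ⟨F, ⟨hFfin, hFur⟩, hFfix, -⟩ := Fermat.Agent.S55.Bridge.exists_level_of_subgroup
    ((Smin ∪ Q).subtype Nat.Prime : Finset Nat.Primes) (levelSub hc hy) F₀ hF₀fin hF₀ hur
  refine ⟨F, hFfin, ?_, ?_⟩
  · intro q hq hqS P hP s hs x hx
    have hmem : s ∈ F.fixingSubgroup :=
      hFur ⟨q, hq⟩ (fun h => hqS (Finset.mem_subtype.1 h)) P hP hs
    exact (IntermediateField.mem_fixingSubgroup_iff F s).1 hmem x hx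
  · intro σ τ s s' hs hs'
    have hsN : s ∈ levelSub hc hy := by
      rw [← hFfix]
      exact (IntermediateField.mem_fixingSubgroup_iff F s).2 hs
    have hsN' : s' ∈ levelSub hc hy := by
      rw [← hFfix]
      exact (IntermediateField.mem_fixingSubgroup_iff F s').2 hs'
    exact cup_mul_right hyp.hp hc hy σ τ s s' hsN hsN'

end Fermat.Agent.S56.RQ.H934

end
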