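import Fermat.Agent.S56.RQ.Spec
import Fermat.Agent.S56.H716.GWGlue
import Fermat.Agent.S56.H831.GWAbstract
import Fermat.Agent.S56.H536.CycExp
import Fermat.Agent.Lib.Cheb.H476.FrobConj
import Fermat.Agent.S54.FrobExists

/-!
# Row S56 — REC-Q: glue `REC-Q ⇐ leaves` (sub-architect helper554)

`recQ_of : RECIP → FRAME → LINE → NONDEG → URCUP → LOCTRIV → COBCUP → CONJ → GLOBZ → RecQStatement`.

Proof.  `X` = strict Selmer cocycles of `Q`, `D` the dual frame.  For `q ∈ Q` put `P = Pv q` (the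
place of the reciprocity package), `φ` a Frobenius at `P`, `τ` the generator of FRAME, `h` the
element of LINE, `a_q c := tr (h · c τ) / tr h²`, `b_q y := tr (h · y φ)`,
`J_q (c, y) := inv q (c ∪ y)`.

* `J_q (c, y) = w_q · a_q c · b_q y` with `w_q ≠ 0` (`pairing_rank_one`: `a_q c = 0 ⇒ c`
  unramified `⇒ J_q = 0` (URCUP), `b_q y = 0 ⇒ y` locally trivial `⇒ J_q = 0` (LINE, LOCTRIV,
  COBCUP), `J_q = 0 ⇒ a_q c · b_q y = 0` (injectivity of `inv q`, NONDEG)).
* reciprocity: `∑_{v ∈ Smin ∪ Q} inv v (c ∪ y) = 0`, the terms at `v ∈ Smin` vanish (CONJ, COBCUP).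
* `y ↦ (w_q b_q y)_q` is injective on `D` (`Q` kills `D`), so the image of `c ↦ (a_q c)_q` has
  dimension `≤ #Q − dim D`; `U` := lifts of a basis of the image; `a (c − u) = 0 ⇒ c − u` is
  unramified at `Q` (FRAME, CONJ).
-/

set_option autoImplicit false

open Polynomial IsLocalRing

noncomputable section

namespace Fermat.Agent.S56.RQ

open Fermat.Agent.S56 Fermat.Agent.S56.H716

/-- A bilinear form which factors through two linear forms and is non-zero wherever their product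
is non-zero is a non-zero multiple of the product. -/
theorem pairing_rank_one {k V W : Type*} [Field k] [AddCommGroup V] [Module k V]
    [AddCommGroup W] [Module k W] (J : V →ₗ[k] W →ₗ[k] k) (a : V →ₗ[k] k) (b : W →ₗ[k] k)
    (h1 : ∀ v w, a v = 0 → J v w = 0) (h2 : ∀ v w, b w = 0 → J v w = 0)
    (h3 : ∀ v w, J v w = 0 → a v * b w = 0) :
    ∃ w₀ : k, w₀ ≠ 0 ∧ ∀ v w, J v w = w₀ * (a v * b w) := by
  by_cases ha : ∃ v₀, a v₀ ≠ 0
  · by_cases hb : ∃ w₁, b w₁ ≠ 0
    · obtain ⟨v₀, hv₀⟩ := ha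
      obtain ⟨w₁, hw₁⟩ := hb
      refine ⟨J v₀ w₁ * (a v₀)⁻¹ * (b w₁)⁻¹, ?_, fun v w => ?_⟩
      · have hJ : J v₀ w₁ ≠ 0 := fun h => by
          rcases mul_eq_zero.1 (h3 v₀ w₁ h) with h' | h'
          · exact hv₀ h'
          · exact hw₁ h'
        exact mul_ne_zero (mul_ne_zero hJ (inv_ne_zero hv₀)) (inv_ne_zero hw₁)
      · have e1 : J (v - (a v * (a v₀)⁻¹) • v₀) w = 0 := h1 _ _ (by
          rw [map_sub, map_smul, smul_eq_mul, mul_assoc, inv_mul_cancel₀ hv₀, mul_one, sub_self])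
        have e2 : J v₀ (w - (b w * (b w₁)⁻¹) • w₁) = 0 := h2 _ _ (by
          rw [map_sub, map_smul, smul_eq_mul, mul_assoc, inv_mul_cancel₀ hw₁, mul_one, sub_self])
        rw [map_sub, LinearMap.sub_apply, map_smul, LinearMap.smul_apply, sub_eq_zero,
          smul_eq_mul] at e1
        rw [map_sub, map_smul, sub_eq_zero, smul_eq_mul] at e2
        rw [e1, e2]
        ring
    · refine ⟨1, one_ne_zero, fun v w => ?_⟩
      have hbw : b w = 0 := by
        by_contra h
        exact hb ⟨w, h⟩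
      rw [h2 v w hbw, hbw, mul_zero, mul_zero]
  · refine ⟨1, one_ne_zero, fun v w => ?_⟩
    have hav : a v = 0 := by
      by_contra h
      exact ha ⟨v, h⟩
    rw [h1 v w hav, hav, zero_mul, mul_zero]

section Cup

variable {k : Type} [Field k] (ρbar : ResidualGaloisRep k)

lemma cup_add_left (c c' y : GQ → Module.End k ρbar.V) :
    cup ρbar (c + c') y = cup ρbar c y + cup ρbar c' y := by
  funext x
  simp only [cup, Pi.add_apply, add_mul, map_add]

lemma cup_smul_left (r : k) (c y : GQ → Module.End k ρbar.V) :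
    cup ρbar (r • c) y = r • cup ρbar c y := by
  funext x
  simp only [cup, Pi.smul_apply, smul_mul_assoc, map_smul]

lemma cup_add_right (c y y' : GQ → Module.End k ρbar.V) :
    cup ρbar c (y + y') = cup ρbar c y + cup ρbar c y' := by
  funext x
  simp only [cup, Pi.add_apply]
  rw [← map_add, ← mul_add]
  congr 2
  abel

lemma cup_smul_right (r : k) (c y : GQ → Module.End k ρbar.V) :
    cup ρbar c (r • y) = r • cup ρbar c y := by
  funext x
  simp only [cup, Pi.smul_apply, ← smul_sub, mul_smul_comm, map_smul]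

/-- The strict Selmer cocycles of `Q`, as a submodule. -/
def selSub (Pl : ℕ → ValuationSubring Qb) (Smin Q : Finset ℕ) :
    Submodule k (GQ → Module.End k ρbar.V) where
  carrier := {c | IsSelCocycle ρbar Pl (fun _ => ⊥) Smin Q c}
  add_mem' := fun h h' => IsSelCocycle.add ρbar h h'
  zero_mem' := IsSelCocycle.zero ρbar Pl _ Smin Q
  smul_mem' := fun a _ h => IsSelCocycle.smul ρbar a h

lemma mem_selSub {Pl : ℕ → ValuationSubring Qb} {Smin Q : Finset ℕ}
    {c : GQ → Module.End k ρbar.V} :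
    c ∈ selSub ρbar Pl Smin Q ↔ IsSelCocycle ρbar Pl (fun _ => ⊥) Smin Q c := Iff.rfl

/-- The pairing `(c, y) ↦ inv (c ∪ y)` as a bilinear map on submodules. -/
def cupPairing (X D : Submodule k (GQ → Module.End k ρbar.V))
    (inv : (GQ × GQ → k) →ₗ[k] k) : ↥X →ₗ[k] ↥D →ₗ[k] k :=
  LinearMap.mk₂ k (fun c y => inv (cup ρbar (c : GQ → Module.End k ρbar.V) y))
    (fun c c' y => by
      simp only [Submodule.coe_add, cup_add_left, map_add])
    (fun r c y => by
      simp only [Submodule.coe_smul, cup_smul_left, map_smul])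
    (fun c y y' => by
      simp only [Submodule.coe_add, cup_add_right, map_add])
    (fun r c y => by
      simp only [Submodule.coe_smul, cup_smul_right, map_smul])

@[simp] lemma cupPairing_apply (X D : Submodule k (GQ → Module.End k ρbar.V))
    (inv : (GQ × GQ → k) →ₗ[k] k) (c : ↥X) (y : ↥D) :
    cupPairing ρbar X D inv c y = inv (cup ρbar (c : GQ → Module.End k ρbar.V) y) := rfl

/-- evaluation at `σ` followed by `tr (h · _)`, as a linear form on a submodule of functions -/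
def trEval (X : Submodule k (GQ → Module.End k ρbar.V)) (h : Module.End k ρbar.V) (σ : GQ) :
    ↥X →ₗ[k] k where
  toFun c := LinearMap.trace k ρbar.V (h * (c : GQ → Module.End k ρbar.V) σ)
  map_add' c c' := by
    simp only [Submodule.coe_add, Pi.add_apply, mul_add, map_add]
  map_smul' r c := by
    simp only [Submodule.coe_smul, Pi.smul_apply, mul_smul_comm, map_smul, RingHom.id_apply]

@[simp] lemma trEval_apply (X : Submodule k (GQ → Module.End k ρbar.V))
    (h : Module.End k ρbar.V) (σ : GQ) (c : ↥X) :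
    trEval ρbar X h σ c = LinearMap.trace k ρbar.V (h * (c : GQ → Module.End k ρbar.V) σ) := rfl

end Cup


section Local

variable (𝒪 : Type) [CommRing 𝒪] [IsDomain 𝒪] [IsDiscreteValuationRing 𝒪]
  [IsAdicComplete (maximalIdeal 𝒪) 𝒪] [Finite (ResidueField 𝒪)]
  (p : ℕ) (ρbar : ResidualGaloisRep (ResidueField 𝒪)) (S Smin : Finset ℕ)

/-- **Local structure of the pairing at a Taylor–Wiles prime.**  For an "invariant" `inv` at the
place `P | q` (killing coboundaries, injective on classes), the pairing `(c, y) ↦ inv (c ∪ y)` on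
(strict Selmer cocycles of `Q`) × `D` is a product `a c · b y` of two linear forms such that
`a c = 0 ⇒ c` unramified at `q` and `b y = 0 ⇒ y` locally trivial at `q`. -/
theorem exists_local_forms (hF : FrameStatement) (hL : LineStatement) (hN : NondegStatement)
    (hU : UrCupStatement) (hT : LocTrivTwStatement) (hC : CobCupStatement) (hJ : ConjStatement)
    (hG : GlobZStatement) (hyp : Hyp 𝒪 p ρbar S Smin)
    (Pl : ℕ → ValuationSubring Qb)
    (D : Submodule (ResidueField 𝒪) (GQ → Module.End (ResidueField 𝒪) ρbar.V))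
    (hD : IsDualFrame ρbar p D)
    (hDur : ∀ y ∈ D, ∀ q : ℕ, q.Prime → q ∉ Smin → UnramAt ρbar y q)
    (Q : Finset ℕ) (hQ : ∀ q ∈ Q, IsTWPrime ρbar p S q) (q : ℕ) (hq : q ∈ Q)
    (P : ValuationSubring Qb) (hP : P.LiesOverPrime q)
    (inv : (GQ × GQ → ResidueField 𝒪) →ₗ[ResidueField 𝒪] ResidueField 𝒪)
    (hcob : ∀ z : GQ × GQ → ResidueField 𝒪,
      IsCob₂On p (P.decompositionSubgroup ℚ) z → inv z = 0)
    (hinj : ∀ z : GQ × GQ → ResidueField 𝒪, IsCoc₂On p (P.decompositionSubgroup ℚ) z →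
      IsLC₂On (P.decompositionSubgroup ℚ) z → inv z = 0 →
      IsCob₂On p (P.decompositionSubgroup ℚ) z) :
    ∃ (a : ↥(selSub ρbar Pl Smin Q) →ₗ[ResidueField 𝒪] ResidueField 𝒪)
      (b : ↥D →ₗ[ResidueField 𝒪] ResidueField 𝒪),
      (∀ c : ↥(selSub ρbar Pl Smin Q), a c = 0 →
        UnramAt ρbar (c : GQ → Module.End (ResidueField 𝒪) ρbar.V) q) ∧
      (∀ y : ↥D, b y = 0 →
        LocTrivAt ρbar p q (y : GQ → Module.End (ResidueField 𝒪) ρbar.V)) ∧
      ∀ (c : ↥(selSub ρbar Pl Smin Q)) (y : ↥D),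
        inv (cup ρbar (c : GQ → Module.End (ResidueField 𝒪) ρbar.V) y) = a c * b y := by
  classical
  have hp := hyp.hp
  have : CharP (ResidueField 𝒪) p := H536.charP_residueField 𝒪 p hyp.hp hyp.hp𝒪
  have hTW := hQ q hq
  obtain ⟨hqP, hqS, -, -⟩ := hQ q hq
  have hqSmin : q ∉ Smin := fun h => hqS (hyp.hSmin h)
  have hqp : q ≠ p := fun h => hqSmin (h ▸ hyp.hpSmin)
  have hur : ρbar.IsUnramifiedAt q := by
    by_contra h
    exact hqSmin ((hyp.hmin q hqP hqp).mpr h)
  -- a Frobenius element at `P`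
  obtain ⟨A, φ₀, hA, hφ₀⟩ := Fermat.Agent.S54.exists_frobenius q hqP
  obtain ⟨g, hg⟩ := Fermat.Agent.Lib.Cheb.H476.exists_smul_eq hqP hA hP
  have hφ : P.IsFrobeniusAt (g * φ₀ * g⁻¹) q := by
    have := Fermat.Agent.Lib.Cheb.H476.isFrobeniusAt_conj g hφ₀
    rwa [hg] at this
  generalize g * φ₀ * g⁻¹ = φ at hφ
  obtain ⟨τ, hτ, hgen⟩ := hF 𝒪 p ρbar S Smin hyp q hTW P hP
  obtain ⟨h, -, hh2, -, hline, hdec⟩ := hL 𝒪 p ρbar S Smin hyp q hTW P hP φ hφ
  set X := selSub ρbar Pl Smin Q with hX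
  set t : ResidueField 𝒪 := LinearMap.trace (ResidueField 𝒪) ρbar.V (h * h) with ht
  let a₀ : ↥X →ₗ[ResidueField 𝒪] ResidueField 𝒪 := t⁻¹ • trEval ρbar X h τ
  let b₀ : ↥D →ₗ[ResidueField 𝒪] ResidueField 𝒪 := trEval ρbar D h φ
  have ha₀ : ∀ c : ↥X, a₀ c = t⁻¹ * LinearMap.trace (ResidueField 𝒪) ρbar.V
      (h * (c : GQ → Module.End (ResidueField 𝒪) ρbar.V) τ) := fun c => rfl
  have hb₀ : ∀ y : ↥D, b₀ y = LinearMap.trace (ResidueField 𝒪) ρbar.V
      (h * (y : GQ → Module.End (ResidueField 𝒪) ρbar.V) φ) := fun y => rfl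
  have hcX : ∀ c : ↥X, IsSelCocycle ρbar Pl (fun _ => ⊥) Smin Q
      (c : GQ → Module.End (ResidueField 𝒪) ρbar.V) := fun c => c.2
  -- `c τ = a₀ c • h`
  have hcτ : ∀ c : ↥X, (c : GQ → Module.End (ResidueField 𝒪) ρbar.V) τ = a₀ c • h := by
    intro c
    obtain ⟨r, hr⟩ := hline c (hcX c).cocycle τ hτ
    rw [ha₀, hr, mul_smul_comm, map_smul, smul_eq_mul, ← ht, mul_comm r t, ← mul_assoc,
      inv_mul_cancel₀ hh2, one_mul]
  have htr : ∀ (c : ↥X) (y : ↥D), LinearMap.trace (ResidueField 𝒪) ρbar.V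
      ((c : GQ → Module.End (ResidueField 𝒪) ρbar.V) τ *
        (y : GQ → Module.End (ResidueField 𝒪) ρbar.V) φ) = a₀ c * b₀ y := by
    intro c y
    rw [hcτ c, smul_mul_assoc, map_smul, smul_eq_mul, hb₀]
  have hyI : ∀ y : ↥D, ∀ σ ∈ P.inertiaSubgroupIn ℚ,
      (y : GQ → Module.End (ResidueField 𝒪) ρbar.V) σ = 0 :=
    fun y σ hσ => hDur y y.2 q hqP hqSmin P hP σ hσ
  have hyc : ∀ y : ↥D, IsTwCocycle ρbar p (y : GQ → Module.End (ResidueField 𝒪) ρbar.V) :=
    fun y => hD.isTwCocycle y y.2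
  -- `a₀ c = 0 ⇒ c` vanishes on `I_P`
  have hunr : ∀ c : ↥X, a₀ c = 0 → ∀ σ ∈ P.inertiaSubgroupIn ℚ,
      (c : GQ → Module.End (ResidueField 𝒪) ρbar.V) σ = 0 := by
    intro c hc
    refine hgen c (hcX c).cocycle ?_
    rw [hcτ c, hc, zero_smul]
  -- `b₀ y = 0 ⇒ y` is a coboundary on `D_P`
  have hloc : ∀ y : ↥D, b₀ y = 0 → ∃ m, IsTwCoboundaryOn ρbar p (P.decompositionSubgroup ℚ)
      (y : GQ → Module.End (ResidueField 𝒪) ρbar.V) m := by
    intro y hy
    obtain ⟨m, hm0, hm⟩ := hdec ((y : GQ → Module.End (ResidueField 𝒪) ρbar.V) φ)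
      ((hyc y).trace_eq_zero φ) (by rw [← hb₀]; exact hy)
    exact ⟨m, hT 𝒪 p ρbar S Smin hyp q hTW P hP φ hφ y (hyc y) (hyI y) m hm0 hm⟩
  let J := cupPairing ρbar X D inv
  have h1 : ∀ (c : ↥X) (y : ↥D), a₀ c = 0 → J c y = 0 := by
    intro c y hc
    rw [cupPairing_apply]
    exact hcob _ (hU 𝒪 p ρbar S Smin hyp q hTW P hP c y (hcX c).cocycle (hyc y)
      (hunr c hc) (hyI y))
  have h2 : ∀ (c : ↥X) (y : ↥D), b₀ y = 0 → J c y = 0 := by
    intro c y hy
    rw [cupPairing_apply]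
    exact hcob _ ((hC (ResidueField 𝒪) p hp ρbar (P.decompositionSubgroup ℚ) c y
      (hcX c).cocycle (hyc y)).2 (hloc y hy))
  have h3 : ∀ (c : ↥X) (y : ↥D), J c y = 0 → a₀ c * b₀ y = 0 := by
    intro c y hJ0
    rw [cupPairing_apply] at hJ0
    obtain ⟨hz, L, hLfin, -, hlev⟩ := hG 𝒪 p ρbar S Smin hyp Q hQ c y (hcX c).cocycle
      (hcX c).unram (hyc y) (hDur y y.2)
    have hcob' := hinj _ (fun σ _ τ' _ υ _ a' ha' => hz σ trivial τ' trivial υ trivial a' ha')
      ⟨L, hLfin, fun σ _ τ' _ s _ s' _ hs hs' => hlev σ τ' s s' hs hs'⟩ hJ0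
    rw [← htr]
    exact hN 𝒪 p ρbar S Smin hyp q hTW P hP φ hφ τ hτ c y (hcX c).cocycle (hyc y) (hyI y) hcob'
  obtain ⟨w, hw, hJw⟩ := pairing_rank_one J a₀ b₀ h1 h2 h3
  refine ⟨a₀, w • b₀, fun c hc P' hP' σ hσ => ?_, fun y hy => ?_, fun c y => ?_⟩
  · exact (hJ (ResidueField 𝒪) ρbar q hqP P P' hP hP' c (hcX c).cocycle).1 hur (hunr c hc) σ hσ
  · rw [LinearMap.smul_apply, smul_eq_mul] at hy
    have hy' : b₀ y = 0 := (mul_eq_zero.1 hy).resolve_left hw
    obtain ⟨m, hm⟩ := hloc y hy'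
    exact ⟨P, hP, m, hm⟩
  · have := hJw c y
    rw [cupPairing_apply] at this
    rw [this]
    show w * (a₀ c * b₀ y) = a₀ c * (w * b₀ y)
    ring

end Local


section Global

variable (𝒪 : Type) [CommRing 𝒪] [IsDomain 𝒪] [IsDiscreteValuationRing 𝒪]
  [IsAdicComplete (maximalIdeal 𝒪) 𝒪] [Finite (ResidueField 𝒪)]
  (p : ℕ) (ρbar : ResidualGaloisRep (ResidueField 𝒪)) (S Smin : Finset ℕ)

/-- **Glue** `REC-Q ⇐ leaves`, for one residual representation. -/
theorem recQ_of_leaves (hR : PlainRecipStatement) (hF : FrameStatement) (hL : LineStatement)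
    (hN : NondegStatement) (hU : UrCupStatement) (hT : LocTrivTwStatement)
    (hC : CobCupStatement) (hJ : ConjStatement) (hG : GlobZStatement)
    (hyp : Hyp 𝒪 p ρbar S Smin) : RecQ 𝒪 p ρbar S Smin := by
  classical
  intro Pl hPl D hD hDur Q hQ hK
  have hp := hyp.hp
  have hchar : CharP (ResidueField 𝒪) p := H536.charP_residueField 𝒪 p hyp.hp hyp.hp𝒪
  have hpSg : p ∈ Smin ∪ Q := Finset.mem_union_left _ hyp.hpSmin
  have hSgprime : ∀ v ∈ Smin ∪ Q, v.Prime := by
    intro v hv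
    rcases Finset.mem_union.1 hv with h | h
    · exact hyp.hS v (hyp.hSmin h)
    · exact (hQ v h).1
  have hdisj : Disjoint Smin Q := by
    rw [Finset.disjoint_left]
    intro v hv hvQ
    exact (hQ v hvQ).2.1 (hyp.hSmin hv)
  obtain ⟨Pv, inv, hPv, hcob, hinj, hrec⟩ :=
    hR (ResidueField 𝒪) p hp hyp.hp2 (Smin ∪ Q) hpSg hSgprime
  set X := selSub ρbar Pl Smin Q with hX
  have hcX : ∀ c : ↥X, IsSelCocycle ρbar Pl (fun _ => ⊥) Smin Q
      (c : GQ → Module.End (ResidueField 𝒪) ρbar.V) := fun c => c.2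
  have hyc : ∀ y : ↥D, IsTwCocycle ρbar p (y : GQ → Module.End (ResidueField 𝒪) ρbar.V) :=
    fun y => hD.isTwCocycle y y.2
  -- the local forms
  have hloc : ∀ q ∈ Q, ∃ (a : ↥X →ₗ[ResidueField 𝒪] ResidueField 𝒪)
      (b : ↥D →ₗ[ResidueField 𝒪] ResidueField 𝒪),
      (∀ c : ↥X, a c = 0 →
        UnramAt ρbar (c : GQ → Module.End (ResidueField 𝒪) ρbar.V) q) ∧
      (∀ y : ↥D, b y = 0 →
        LocTrivAt ρbar p q (y : GQ → Module.End (ResidueField 𝒪) ρbar.V)) ∧
      ∀ (c : ↥X) (y : ↥D),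
        inv q (cup ρbar (c : GQ → Module.End (ResidueField 𝒪) ρbar.V) y) = a c * b y :=
    fun q hq => exists_local_forms 𝒪 p ρbar S Smin hF hL hN hU hT hC hJ hG hyp Pl D hD hDur Q hQ
      q hq (Pv q) (hPv q (Finset.mem_union_right _ hq)) (inv q)
      (hcob q (Finset.mem_union_right _ hq))
      (hinj q (Finset.mem_union_right _ hq) (hQ q hq).2.2.1)
  choose! a b ha hb hab using hloc
  -- reciprocity
  have hsum : ∀ (c : ↥X) (y : ↥D), ∑ q ∈ Q, a q c * b q y = 0 := by
    intro c y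
    have h1 := hrec _ (hG 𝒪 p ρbar S Smin hyp Q hQ c y (hcX c).cocycle (hcX c).unram (hyc y)
      (hDur y y.2))
    rw [Finset.sum_union hdisj] at h1
    have h2 : ∑ v ∈ Smin, inv v (cup ρbar (c : GQ → Module.End (ResidueField 𝒪) ρbar.V) y)
        = 0 := by
      refine Finset.sum_eq_zero fun v hv => ?_
      obtain ⟨t, ht, hct⟩ := (hcX c).loc v hv
      rw [(Submodule.mem_bot _).1 ht, sub_zero] at hct
      have h3 := (hJ (ResidueField 𝒪) ρbar v (hyp.hS v (hyp.hSmin hv)) (Pl v) (Pv v) (hPl v hv)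
        (hPv v (Finset.mem_union_left _ hv)) c (hcX c).cocycle).2 hct
      exact hcob v (Finset.mem_union_left _ hv) _
        ((hC (ResidueField 𝒪) p hp ρbar _ c y (hcX c).cocycle (hyc y)).1 h3)
    rw [h2, zero_add] at h1
    rw [← h1]
    exact Finset.sum_congr rfl fun q hq => (hab q hq c y).symm
  -- linear algebra
  let A : ↥X →ₗ[ResidueField 𝒪] (↥Q → ResidueField 𝒪) := LinearMap.pi fun q => a q.1
  let lam : ↥D →ₗ[ResidueField 𝒪] Module.Dual (ResidueField 𝒪) (↥Q → ResidueField 𝒪) :=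
    ∑ q : ↥Q, (b q.1).smulRight
      (LinearMap.proj q : (↥Q → ResidueField 𝒪) →ₗ[ResidueField 𝒪] ResidueField 𝒪)
  have hlam_apply : ∀ (y : ↥D) (t : ↥Q → ResidueField 𝒪), lam y t = ∑ q : ↥Q, b q.1 y * t q := by
    intro y t
    simp only [lam, LinearMap.sum_apply, LinearMap.smulRight_apply, LinearMap.smul_apply,
      LinearMap.proj_apply, smul_eq_mul]
  have hlam : Function.Injective lam := by
    refine (injective_iff_map_eq_zero lam).2 fun y hy => ?_
    have hb0 : ∀ q ∈ Q, b q y = 0 := by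
      intro q hq
      have h1 := hlam_apply y (Pi.single (⟨q, hq⟩ : ↥Q) 1)
      rw [hy, LinearMap.zero_apply, Finset.sum_eq_single (⟨q, hq⟩ : ↥Q)] at h1
      · rw [Pi.single_eq_same, mul_one] at h1
        exact h1.symm
      · intro q' _ hne
        rw [Pi.single_eq_of_ne hne, mul_zero]
      · intro h
        exact absurd (Finset.mem_univ _) h
    have h0 := hK y y.2 fun q hq => hb q hq y (hb0 q hq)
    exact Subtype.ext h0
  have hrecA : ∀ (y : ↥D) (r : ↥(LinearMap.range A)),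
      lam y ((LinearMap.range A).subtype r) = 0 := by
    rintro y ⟨_, c, rfl⟩
    rw [Submodule.subtype_apply, hlam_apply]
    have h1 := hsum c y
    rw [← Finset.sum_coe_sort] at h1
    rw [← h1]
    exact Finset.sum_congr rfl fun q _ => mul_comm _ _
  have : FiniteDimensional (ResidueField 𝒪)
      ↥(LinearMap.ker (LinearMap.range A).subtype) := by
    rw [Submodule.ker_subtype]
    infer_instance
  have hdim := H831.comparison_abstract (LinearMap.range A).subtype lam hlam hrecA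
  have hker : Module.finrank (ResidueField 𝒪)
      ↥(LinearMap.ker (LinearMap.range A).subtype) = 0 := by
    rw [Submodule.ker_subtype]
    exact finrank_bot _ _
  have hcard : Module.finrank (ResidueField 𝒪) (↥Q → ResidueField 𝒪) = Q.card := by
    rw [Module.finrank_fintype_fun_eq_card, Fintype.card_coe]
  rw [hker, hcard, zero_add] at hdim
  -- a linear section of `A`
  obtain ⟨s, hs⟩ := A.rangeRestrict.exists_rightInverse_of_surjective
    (LinearMap.range_rangeRestrict A)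
  have hAs : ∀ r : ↥(LinearMap.range A), A (s r) = r := by
    intro r
    have := congrArg (fun f => (f r : ↥Q → ResidueField 𝒪)) hs
    simpa using this
  refine ⟨LinearMap.range (X.subtype ∘ₗ s), inferInstance, ?_, fun c hc => ?_⟩
  · have h1 : Module.finrank (ResidueField 𝒪) ↥(LinearMap.range (X.subtype ∘ₗ s)) ≤
        Module.finrank (ResidueField 𝒪) ↥(LinearMap.range A) :=
      LinearMap.finrank_range_le _
    omega
  · let c₀ : ↥X := ⟨c, hc⟩
    let u₀ : ↥X := s (A.rangeRestrict c₀)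
    have hA0 : A (c₀ - u₀) = 0 := by
      rw [map_sub, hAs]
      exact sub_self _
    have ha0 : ∀ q ∈ Q, a q (c₀ - u₀) = 0 := fun q hq =>
      congrFun hA0 (⟨q, hq⟩ : ↥Q)
    have hsel := hcX (c₀ - u₀)
    refine ⟨(u₀ : GQ → Module.End (ResidueField 𝒪) ρbar.V), ⟨A.rangeRestrict c₀, rfl⟩,
      ((c₀ - u₀ : ↥X) : GQ → Module.End (ResidueField 𝒪) ρbar.V),
      ⟨hsel.cocycle, fun q hqP hqn => ?_, hsel.loc⟩, ⟨0, fun σ => ?_⟩⟩
    · by_cases hqQ : q ∈ Q
      · exact ha q hqQ _ (ha0 q hqQ)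
      · refine hsel.unram q hqP fun h => ?_
        rcases Finset.mem_union.1 h with h' | h'
        · exact hqn (Finset.mem_union_left _ h')
        · exact hqQ h'
    · simp [c₀]

end Global

/-- **(REC-Q) from the leaves.** -/
theorem recQ_of (hR : PlainRecipStatement) (hF : FrameStatement) (hL : LineStatement)
    (hN : NondegStatement) (hU : UrCupStatement) (hT : LocTrivTwStatement)
    (hC : CobCupStatement) (hJ : ConjStatement) (hG : GlobZStatement) : RecQStatement :=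
  fun 𝒪 _ _ _ _ _ p ρbar S Smin hyp =>
    recQ_of_leaves 𝒪 p ρbar S Smin hR hF hL hN hU hT hC hJ hG hyp

end Fermat.Agent.S56.RQ

end
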