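import Fermat.Agent.S56.RQ.Spec
import Fermat.Agent.S56.H794.LocMinA

/-!
# Row S56 — REC-Q leaf LINE (helper275): `LineStatement`

At a Taylor–Wiles prime `q` (`q ∉ S`, `q ≡ 1 mod p`, `ρ̄(φ)` regular semisimple with eigenvalues
`α ≠ β` in `k`) put

    h := (α − β)⁻¹ • (2 • ρ̄(φ) − (α + β) • 1).

Then `h² = 1`, `tr h = 0`, `h` commutes with `ρ̄(φ)`, and `ρ̄(φ) = s + d h` with `2 d = α − β`.

* values of ad-cocycles on `I_P`: `ρ̄` is unramified at `q`, so by the tame relation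
  (`H794.inertia_frobenius_relation` for the lift `σ ↦ (1 + ε c σ) ρ̄ σ`) and `q ≡ 1 mod p`,
  `c (φ τ φ⁻¹) = c τ`; the cocycle relation gives `c (φ τ φ⁻¹) = ρ̄φ (c τ) ρ̄φ⁻¹`, so `c τ`
  commutes with `ρ̄ φ`, hence with `h`; the 2×2 identity `x y + y x = tr (x y)` for trace-zero
  `x, y` gives `c τ = (tr (c τ · h) / 2) • h`.
* trace-zero `x` with `tr (h x) = 0` anticommute with `h`, and
  `m := −(α − β)⁻¹ • (s • x h + d • x)` satisfies `ρ̄φ m ρ̄φ⁻¹ − m = x`, `tr m = 0`.

Nothing unproved in this file; only Mathlib and landed S56 files are used.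
-/

set_option autoImplicit false

open Polynomial IsLocalRing

noncomputable section

namespace Fermat.Agent.S56.RQ.H275

open Fermat.Agent.S56 Fermat.Agent.S56.H716

/-! ## 1. 2×2 linear algebra -/

section LinAlg

variable {k : Type*} [Field k] {V : Type*} [AddCommGroup V] [Module k V]

/-- For trace-zero 2×2 matrices, `X Y + Y X = tr (X Y)`. -/
theorem mat_mul_add_mul_h275 (X Y : Matrix (Fin 2) (Fin 2) k) (hX : X.trace = 0)
    (hY : Y.trace = 0) :
    X * Y + Y * X = (X * Y).trace • (1 : Matrix (Fin 2) (Fin 2) k) := by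
  rw [Matrix.trace_fin_two] at hX hY
  have hX' : X 1 1 = - X 0 0 := by linear_combination hX
  have hY' : Y 1 1 = - Y 0 0 := by linear_combination hY
  ext i j
  fin_cases i <;> fin_cases j <;>
    simp [Matrix.mul_apply, Fin.sum_univ_two, Matrix.trace_fin_two, hX', hY'] <;> ring

/-- For trace-zero endomorphisms of a 2-dimensional space, `x y + y x = tr (x y)`. -/
theorem end_mul_add_mul_h275 (h2 : Module.finrank k V = 2) (x y : Module.End k V)
    (hx : LinearMap.trace k V x = 0) (hy : LinearMap.trace k V y = 0) :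
    x * y + y * x = LinearMap.trace k V (x * y) • (1 : Module.End k V) := by
  classical
  have : Module.Finite k V := Module.finite_of_finrank_eq_succ h2
  let b : Module.Basis (Fin 2) k V := Module.finBasisOfFinrankEq k V h2
  have htr : ∀ f : Module.End k V,
      LinearMap.trace k V f = (LinearMap.toMatrixAlgEquiv b f).trace := fun f =>
    LinearMap.trace_eq_matrix_trace k b f
  apply (LinearMap.toMatrixAlgEquiv b).injective
  rw [map_add, map_mul, map_mul, map_smul, map_one, htr (x * y), map_mul]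
  exact mat_mul_add_mul_h275 _ _ (by rw [← htr, hx]) (by rw [← htr, hy])

/-- The trace of a 2×2 endomorphism from a factorisation of its characteristic polynomial. -/
theorem trace_of_charpoly_h275 [Module.Finite k V] (h2 : Module.finrank k V = 2)
    (g : Module.End k V) (α β : k)
    (hg : LinearMap.charpoly g = (X - C α) * (X - C β)) :
    LinearMap.trace k V g = α + β := by
  classical
  let b : Module.Basis (Fin 2) k V := Module.finBasisOfFinrankEq k V h2
  have h1 : (LinearMap.toMatrix b b g).charpoly = (X - C α) * (X - C β) := by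
    rw [LinearMap.charpoly_toMatrix]; exact hg
  rw [LinearMap.trace_eq_matrix_trace k b g]
  rw [Matrix.charpoly_fin_two] at h1
  have e : (X - C α) * (X - C β) = X ^ 2 - C (α + β) * X + C (α * β) := by
    simp only [map_add, map_mul]; ring
  rw [e] at h1
  have c1 := congrArg (fun q : k[X] => q.coeff 1) h1
  simp only [coeff_add, coeff_sub, coeff_X_pow, coeff_C_mul, coeff_X_one,
    mul_one, coeff_C] at c1
  norm_num at c1
  linear_combination -c1

/-- Cayley–Hamilton for a split characteristic polynomial. -/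
theorem cayley_h275 [Module.Finite k V] (g : Module.End k V) (α β : k)
    (hg : LinearMap.charpoly g = (X - C α) * (X - C β)) :
    (g - α • (1 : Module.End k V)) * (g - β • (1 : Module.End k V)) = 0 := by
  have h := LinearMap.aeval_self_charpoly g
  rw [hg, map_mul, map_sub, map_sub, aeval_X, aeval_C, aeval_C,
    Algebra.algebraMap_eq_smul_one, Algebra.algebraMap_eq_smul_one] at h
  exact h

end LinAlg

/-! ## 2. The element `h` in a `k`-algebra -/

section Alg

variable {k : Type*} [Field k] {A : Type*} [Ring A] [Algebra k A]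

/-- `h = (α − β)⁻¹ (2 g − (α + β))`. -/
def hOf (α β : k) (g : A) : A := (α - β)⁻¹ • ((2 : k) • g - (α + β) • (1 : A))

theorem hOf_comm (α β : k) (g : A) : g * hOf α β g = hOf α β g * g := by
  simp only [hOf, mul_smul_comm, smul_mul_assoc, mul_sub, sub_mul, mul_one, one_mul]

theorem hOf_comm_of_comm (α β : k) {g x : A} (h : g * x = x * g) :
    x * hOf α β g = hOf α β g * x := by
  simp only [hOf, mul_smul_comm, smul_mul_assoc, mul_sub, sub_mul, mul_one, one_mul, h]

/-- `g = s + d h`, `s = (α + β)/2`, `d = (α − β)/2`. -/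
theorem eq_add_smul_hOf (h2 : (2 : k) ≠ 0) {α β : k} (hαβ : α ≠ β) (g : A) :
    g = ((α + β) / 2) • (1 : A) + ((α - β) / 2) • hOf α β g := by
  have hd : α - β ≠ 0 := sub_ne_zero.mpr hαβ
  have e1 : ((α - β) / 2) * (α - β)⁻¹ * 2 = 1 := by field_simp
  have e2 : ((α - β) / 2) * (α - β)⁻¹ * (α + β) = (α + β) / 2 := by field_simp
  rw [hOf, smul_smul, smul_sub, smul_smul, smul_smul, e1, e2, one_smul]
  abel

theorem hOf_mul_self {α β : k} (hαβ : α ≠ β) {g : A}
    (hg : (g - α • (1 : A)) * (g - β • (1 : A)) = 0) :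
    hOf α β g * hOf α β g = 1 := by
  have hd : α - β ≠ 0 := sub_ne_zero.mpr hαβ
  -- expand `(g - α)(g - β) = 0`
  have hgg : g * g = (α + β) • g - (α * β) • (1 : A) := by
    have h := hg
    simp only [mul_sub, sub_mul, mul_smul_comm, smul_mul_assoc, mul_one, one_mul] at h
    linear_combination (norm := module) h
  have e : hOf α β g * hOf α β g
      = ((α - β)⁻¹ * (α - β)⁻¹) • ((4 : k) • (g * g) - (4 * (α + β)) • g
          + ((α + β) * (α + β)) • (1 : A)) := by
    simp only [hOf, mul_smul_comm, smul_mul_assoc, mul_sub, sub_mul, mul_one, one_mul,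
      smul_smul, smul_sub, smul_add]
    module
  rw [e, hgg]
  have e3 : (α - β)⁻¹ * (α - β)⁻¹ * ((α + β) * (α + β) - 4 * (α * β)) = 1 := by
    field_simp
    ring
  calc ((α - β)⁻¹ * (α - β)⁻¹) • ((4 : k) • ((α + β) • g - (α * β) • (1 : A))
          - (4 * (α + β)) • g + ((α + β) * (α + β)) • (1 : A))
      = ((α - β)⁻¹ * (α - β)⁻¹ * ((α + β) * (α + β) - 4 * (α * β))) • (1 : A) := by module
    _ = 1 := by rw [e3, one_smul]

/-- If `x` commutes with an involution `h` and `x h + h x = t`, then `x = (t/2) h`. -/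
theorem eq_smul_of_comm_h275 (h2 : (2 : k) ≠ 0) {h x : A} (t : k) (hhh : h * h = 1)
    (hxh : x * h = h * x) (hanti : x * h + h * x = t • (1 : A)) :
    x = (t / 2) • h := by
  rw [← hxh] at hanti
  have e1 : x * h = (t / 2) • (1 : A) := by
    have e : (2 : k) • (x * h) = t • (1 : A) := by rw [two_smul]; exact hanti
    calc x * h = ((2 : k)⁻¹ * 2) • (x * h) := by rw [inv_mul_cancel₀ h2, one_smul]
      _ = (2 : k)⁻¹ • ((2 : k) • (x * h)) := by rw [smul_smul]
      _ = (2 : k)⁻¹ • (t • (1 : A)) := by rw [e]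
      _ = (t / 2) • (1 : A) := by rw [smul_smul, div_eq_inv_mul]
  calc x = x * (h * h) := by rw [hhh, mul_one]
    _ = (x * h) * h := by rw [mul_assoc]
    _ = ((t / 2) • (1 : A)) * h := by rw [e1]
    _ = (t / 2) • h := by rw [smul_mul_assoc, one_mul]

/-- Solving `g m g⁻¹ − m = x` for `x` anticommuting with the involution `h`, `g = s + d h`. -/
theorem solve_h275 (s d : k) (hd : 2 * d ≠ 0) {g g' h x : A}
    (hg : g = s • (1 : A) + d • h) (hgg' : g * g' = 1) (hhh : h * h = 1)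
    (hhx : h * x = -(x * h)) :
    g * ((2 * d)⁻¹ • -(s • (x * h) + d • x)) * g' - (2 * d)⁻¹ • -(s • (x * h) + d • x) = x := by
  have hhxh : h * (x * h) = -x := by
    rw [← mul_assoc, hhx, neg_mul, mul_assoc, hhh, mul_one]
  have hxhh : x * h * h = x := by rw [mul_assoc, hhh, mul_one]
  have key : g * (-(s • (x * h) + d • x)) - (-(s • (x * h) + d • x)) * g
      = (2 * d) • (x * g) := by
    rw [hg]
    simp only [mul_add, add_mul, mul_neg, neg_mul, smul_mul_assoc, mul_smul_comm, mul_one,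
      one_mul, hhxh, hhx, hxhh, smul_neg, smul_add, smul_smul]
    module
  have key2 : g * (-(s • (x * h) + d • x)) * g' - (-(s • (x * h) + d • x)) = (2 * d) • x := by
    have e : g * (-(s • (x * h) + d • x))
        = (-(s • (x * h) + d • x)) * g + (2 * d) • (x * g) := by
      rw [← key]; abel
    rw [e, add_mul, mul_assoc, hgg', mul_one, smul_mul_assoc, mul_assoc, hgg', mul_one]
    abel
  calc g * ((2 * d)⁻¹ • -(s • (x * h) + d • x)) * g' - (2 * d)⁻¹ • -(s • (x * h) + d • x)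
      = (2 * d)⁻¹ • (g * (-(s • (x * h) + d • x)) * g' - (-(s • (x * h) + d • x))) := by
        rw [mul_smul_comm, smul_mul_assoc, smul_sub]
    _ = (2 * d)⁻¹ • ((2 * d) • x) := by rw [key2]
    _ = x := by rw [smul_smul, inv_mul_cancel₀ hd, one_smul]

end Alg

/-! ## 3. Cocycles on inertia at a Taylor–Wiles prime -/

section Galois

variable {k : Type} [Field k] {ρbar : ResidualGaloisRep k}

/-- The cocycle relation for a conjugate: `c (φ τ φ⁻¹) = ρ̄φ (c τ) ρ̄φ⁻¹` if `ρ̄ τ = 1`. -/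
theorem coc_conj_h275 {c : GQ → Module.End k ρbar.V} (hc : IsAdCocycle ρbar c) {τ : GQ}
    (hτ : ρbar.ρ τ = 1) (φ : GQ) :
    c (φ * τ * φ⁻¹) = ρbar.ρ φ * c τ * ρbar.ρ φ⁻¹ := by
  have h1 := H794.IsAdCocycle_map_one hc
  have hτ' : ρbar.ρ τ⁻¹ = 1 := by
    have := H794.rho_mul_rho_inv ρbar τ
    rwa [hτ, one_mul] at this
  have e1 : c (φ * φ⁻¹) = c φ + ρbar.ρ φ * c φ⁻¹ * ρbar.ρ φ⁻¹ := hc.map_mul φ φ⁻¹
  rw [mul_inv_cancel, h1] at e1
  rw [mul_assoc, hc.map_mul φ (τ * φ⁻¹), hc.map_mul τ φ⁻¹, hτ, hτ', one_mul, mul_one,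
    mul_add, add_mul, ← add_assoc, add_comm (c φ), add_assoc, ← e1, add_zero]

/-- At a prime `q ≡ 1 mod p`, `q ≠ p`, where `ρ̄` is unramified, the values of ad-cocycles on
inertia commute with `ρ̄(φ)`, `φ` a Frobenius element. -/
theorem coc_comm_frob_h275 {p : ℕ} (hp : p.Prime) (hpk : (p : k) = 0) {q : ℕ} (hq : q.Prime)
    (hpq : p ≠ q) (hpq1 : p ∣ q - 1) {P : ValuationSubring Qb} (hP : P.LiesOverPrime q)
    (hur : ∀ σ ∈ P.inertiaSubgroupIn ℚ, ρbar.ρ σ = 1)
    {φ : GQ} (hφ : P.IsFrobeniusAt φ q)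
    {c : GQ → Module.End k ρbar.V} (hc : IsAdCocycle ρbar c)
    {τ : GQ} (hτ : τ ∈ P.inertiaSubgroupIn ℚ) :
    ρbar.ρ φ * c τ = c τ * ρbar.ρ φ := by
  have hexp : ∀ σ ∈ P.inertiaSubgroupIn ℚ, H794.liftUnits hc σ ^ p = 1 := by
    intro σ hσ
    apply Units.ext
    rw [Units.val_pow_eq_pow_val, H794.coe_liftUnits, Units.val_one]
    have e : liftEnd ρbar c σ = 1 + H794.dualEnd 0 (c σ) := by
      rw [H794.liftEnd_eq_dualEnd, hur σ hσ, mul_one, ← H794.dualEnd_one_zero,
        H794.dualEnd_add, add_zero, zero_add]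
    have hN : H794.dualEnd (0 : Module.End k ρbar.V) (c σ) * H794.dualEnd 0 (c σ) = 0 := by
      rw [H794.dualEnd_mul, zero_mul, zero_mul, mul_zero, add_zero, H794.dualEnd_zero_zero]
    have key := H794.one_add_pow_of_sq_zero
      (H794.dualEnd (0 : Module.End k ρbar.V) (c σ)) hN p
    rw [e, key]
    have h2 : (p : DualNumber k) = 0 := by
      rw [← map_natCast (algebraMap k (DualNumber k)) p, hpk, map_zero]
    have hpX : p • H794.dualEnd (0 : Module.End k ρbar.V) (c σ) = 0 := by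
      apply LinearMap.ext
      intro w
      rw [LinearMap.smul_apply, LinearMap.zero_apply, ← Nat.cast_smul_eq_nsmul (DualNumber k),
        h2, zero_smul]
    rw [hpX, add_zero]
  have hrel := H794.inertia_frobenius_relation (H794.finiteLevel_liftUnits hc) hq hP hp hpq
    hexp hφ hτ
  have hq' : H794.liftUnits hc τ ^ q = H794.liftUnits hc τ := by
    obtain ⟨j, hj⟩ := hpq1
    have hq1 : q = p * j + 1 := by
      have := hq.one_le
      omega
    rw [hq1, pow_succ, pow_mul, hexp τ hτ, one_pow, one_mul]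
  rw [hq'] at hrel
  have hval := congrArg Units.val hrel
  rw [H794.coe_liftUnits, H794.coe_liftUnits, H794.liftEnd_eq_dualEnd,
    H794.liftEnd_eq_dualEnd] at hval
  obtain ⟨h1, h2⟩ := H794.dualEnd_injective hval
  rw [h1, hur τ hτ, mul_one, mul_one, coc_conj_h275 hc (hur τ hτ) φ] at h2
  -- h2 : ρ̄φ * c τ * ρ̄φ⁻¹ = c τ
  calc ρbar.ρ φ * c τ = ρbar.ρ φ * c τ * (ρbar.ρ φ⁻¹ * ρbar.ρ φ) := by
        rw [H794.rho_inv_mul_rho, mul_one]
    _ = (ρbar.ρ φ * c τ * ρbar.ρ φ⁻¹) * ρbar.ρ φ := by simp only [mul_assoc]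
    _ = c τ * ρbar.ρ φ := by rw [h2]

end Galois

/-! ## 4. The leaf -/

/-- **LINE** (leaf of REC-Q, `RQ/Spec.lean`). -/
theorem line : LineStatement := by
  intro 𝒪 _ _ _ _ _ p ρbar S Smin H q hq P hP φ hφ
  obtain ⟨hqp, hqS, hpq1, hfrob⟩ := hq
  obtain ⟨α, β, hαβ, hchar⟩ := hfrob P hP φ hφ
  have hpk : (p : ResidueField 𝒪) = 0 := by
    rw [← map_natCast (IsLocalRing.residue 𝒪)]
    exact (IsLocalRing.residue_eq_zero_iff _).mpr H.hp𝒪
  have h2 : (2 : ResidueField 𝒪) ≠ 0 := H794.two_ne_zero_of_odd_char H.hp H.hp2 hpk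
  have hq_ne_p : q ≠ p := fun h => hqS (h ▸ H.hSmin H.hpSmin)
  have hur : ρbar.IsUnramifiedAt q := by
    by_contra hnot
    exact hqS (H.hSmin ((H.hmin q hqp hq_ne_p).mpr hnot))
  have hurP : ∀ σ ∈ P.inertiaSubgroupIn ℚ, ρbar.ρ σ = 1 := hur P hP
  have hd : α - β ≠ 0 := sub_ne_zero.mpr hαβ
  have h2d : 2 * ((α - β) / 2) ≠ 0 := by
    rw [mul_div_cancel₀ _ h2]; exact hd
  have hgg' : ρbar.ρ φ * ρbar.ρ φ⁻¹ = 1 := H794.rho_mul_rho_inv ρbar φ
  have hCH := cayley_h275 (ρbar.ρ φ) α β hchar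
  have htrg := trace_of_charpoly_h275 ρbar.finrank_eq (ρbar.ρ φ) α β hchar
  have hhh : hOf α β (ρbar.ρ φ) * hOf α β (ρbar.ρ φ) = 1 := hOf_mul_self hαβ hCH
  have htr1 : LinearMap.trace (ResidueField 𝒪) ρbar.V 1 = 2 := by
    rw [LinearMap.trace_one, ρbar.finrank_eq]; norm_num
  have htrh : LinearMap.trace (ResidueField 𝒪) ρbar.V (hOf α β (ρbar.ρ φ)) = 0 := by
    rw [hOf, map_smul, map_sub, map_smul, map_smul, htrg, htr1]
    simp only [smul_eq_mul]
    ring
  refine ⟨hOf α β (ρbar.ρ φ), htrh, ?_, hOf_comm α β (ρbar.ρ φ), ?_, ?_⟩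
  · rw [hhh, htr1]; exact h2
  · intro c hc τ hτ
    have hcc : ρbar.ρ φ * c τ = c τ * ρbar.ρ φ :=
      coc_comm_frob_h275 H.hp hpk hqp (Ne.symm hq_ne_p) hpq1 hP hurP hφ hc hτ
    exact ⟨_, eq_smul_of_comm_h275 h2 _ hhh (hOf_comm_of_comm α β hcc)
      (end_mul_add_mul_h275 ρbar.finrank_eq (c τ) _ (hc.trace_eq_zero τ) htrh)⟩
  · intro x hx hhx
    have hxh0 : LinearMap.trace (ResidueField 𝒪) ρbar.V (x * hOf α β (ρbar.ρ φ)) = 0 := by
      rw [LinearMap.trace_mul_comm]; exact hhx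
    have hanti := end_mul_add_mul_h275 ρbar.finrank_eq x _ hx htrh
    rw [hxh0, zero_smul] at hanti
    have hhx' : hOf α β (ρbar.ρ φ) * x = -(x * hOf α β (ρbar.ρ φ)) :=
      eq_neg_of_add_eq_zero_right hanti
    refine ⟨(2 * ((α - β) / 2))⁻¹ •
      -(((α + β) / 2) • (x * hOf α β (ρbar.ρ φ)) + ((α - β) / 2) • x), ?_, ?_⟩
    · rw [map_smul, map_neg, map_add, map_smul, map_smul, hxh0, hx]
      simp
    · exact (solve_h275 ((α + β) / 2) ((α - β) / 2) h2d
        (eq_add_smul_hOf h2 hαβ (ρbar.ρ φ)) hgg' hhh hhx').symm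


end Fermat.Agent.S56.RQ.H275

end
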