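import Fermat.Agent.S56.RQ.Glue
import Fermat.Agent.S56.RQ.GlobZH934
import Fermat.Agent.S56.H716.GWSpec4

/-!
# Row S56 — REC-Q-SUB (route C): glue `REC-Q-SUB ⇐ leaves of REC-Q` (helper14)

Route C of `coord/S56-TB.md` (§3d) needs reciprocity over the Taylor–Wiles primes relative to ANY
set `S'` with `Smin ⊆ S' ⊆ S` (`H716.RecQSubStatement`).  This file proves it from the FROZEN
leaves of `RQ/Spec.lean`, used verbatim; the only leaf which mentions `Smin` in its conclusion,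
GLOBZ, is re-proved here in the relative form (`globZSub`, same proof as `H934.globZ`).

* `GlobZSubStatement`, `globZSub : GlobZSubStatement` (unconditional).
* `recQSub_of : RECIP → FRAME → LINE → NONDEG → URCUP → LOCTRIV → COBCUP → CONJ →
  H716.RecQSubStatement`.

The proof is the proof of `RQ.recQ_of` (sub-architect helper554) with `Smin` replaced by `S'` in
the Selmer conditions: it uses only that `ρ̄` is unramified outside `Smin ⊆ S'`, `p ∈ S'` and
`Q ∩ S' = ∅`.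
-/

set_option autoImplicit false
set_option linter.style.haveILetI false

open Polynomial IsLocalRing

noncomputable section

namespace Fermat.Agent.S56.RQ.H14

open Fermat.Agent.S56 Fermat.Agent.S56.H716 Fermat.Agent.S56.RQ

/-- (GLOBZ-SUB): GLOBZ relative to a set `S'` with `Smin ⊆ S' ⊆ S`. -/
def GlobZSubStatement : Prop :=
  ∀ (𝒪 : Type) [CommRing 𝒪] [IsDomain 𝒪] [IsDiscreteValuationRing 𝒪]
    [IsAdicComplete (maximalIdeal 𝒪) 𝒪] [Finite (ResidueField 𝒪)]
    (p : ℕ) (ρbar : ResidualGaloisRep (ResidueField 𝒪)) (S Smin : Finset ℕ),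
    Hyp 𝒪 p ρbar S Smin → ∀ S' : Finset ℕ, Smin ⊆ S' → S' ⊆ S →
    ∀ Q : Finset ℕ, (∀ q ∈ Q, IsTWPrime ρbar p S q) →
    ∀ c y : GQ → Module.End (ResidueField 𝒪) ρbar.V, IsAdCocycle ρbar c →
      (∀ q : ℕ, q.Prime → q ∉ S' ∪ Q → UnramAt ρbar c q) →
      IsTwCocycle ρbar p y → (∀ q : ℕ, q.Prime → q ∉ S' → UnramAt ρbar y q) →
      IsGlobZ p (S' ∪ Q) (cup ρbar c y)

/-- **GLOBZ-SUB.**  (Proof of `H934.globZ`, with `Smin` replaced by `S'`.) -/
theorem globZSub : GlobZSubStatement := by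
  intro 𝒪 _ _ _ _ _ p ρbar S Smin hyp S' hS' _ Q _ c y hc hcur hy hyur
  classical
  refine ⟨H934.cup_isCoc₂ hc hy, ?_⟩
  haveI : NeZero p := ⟨hyp.hp.ne_zero⟩
  obtain ⟨Lρ, hLρfin, hLρ⟩ := ρbar.factorsThroughFiniteLevel
  obtain ⟨Lc, hLcfin, hLc⟩ := hc.level
  obtain ⟨Ly, hLyfin, hLy⟩ := hy.level
  let F₀ : IntermediateField ℚ Qb := Lρ ⊔ Lc ⊔ Ly ⊔ Fermat.Agent.S55.H414.cycloLevel p
  haveI : FiniteDimensional ℚ Lρ := hLρfin
  haveI : FiniteDimensional ℚ Lc := hLcfin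
  haveI : FiniteDimensional ℚ Ly := hLyfin
  haveI h1 : FiniteDimensional ℚ (Lρ ⊔ Lc : IntermediateField ℚ Qb) :=
    IntermediateField.finiteDimensional_sup Lρ Lc
  haveI h2 : FiniteDimensional ℚ (Lρ ⊔ Lc ⊔ Ly : IntermediateField ℚ Qb) :=
    IntermediateField.finiteDimensional_sup (Lρ ⊔ Lc) Ly
  have hF₀fin : FiniteDimensional ℚ F₀ :=
    IntermediateField.finiteDimensional_sup (Lρ ⊔ Lc ⊔ Ly) (Fermat.Agent.S55.H414.cycloLevel p)
  have hF₀ : F₀.fixingSubgroup ≤ H934.levelSub hc hy := by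
    intro s hs
    have hs' : ∀ x ∈ F₀, s x = x := (IntermediateField.mem_fixingSubgroup_iff F₀ s).1 hs
    have hρle : Lρ ≤ F₀ := le_sup_left.trans (le_sup_left.trans le_sup_left)
    have hcle : Lc ≤ F₀ := le_sup_right.trans (le_sup_left.trans le_sup_left)
    have hyle : Ly ≤ F₀ := le_sup_right.trans le_sup_left
    have hzle : Fermat.Agent.S55.H414.cycloLevel p ≤ F₀ := le_sup_right
    refine ⟨hLρ s (fun x hx => hs' x (hρle hx)), ?_, ?_, ?_⟩
    · intro μ hμ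
      rw [pow_one]
      exact hs' μ (hzle (Fermat.Agent.S56.H536.mem_cycloLevel_of_pow_eq_one p hμ))
    · have h := hLc 1 s (fun x hx => hs' x (hcle hx))
      rw [one_mul, H934.ad_one hc] at h
      exact h
    · have h := hLy 1 s (fun x hx => hs' x (hyle hx))
      rw [one_mul, H934.tw_one hy] at h
      exact h
  have hur : ∀ q : Nat.Primes, q ∉ ((S' ∪ Q).subtype Nat.Prime : Finset Nat.Primes) →
      ∀ A : ValuationSubring (AlgebraicClosure ℚ), A.LiesOverPrime (q : ℕ) →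
        A.inertiaSubgroupIn ℚ ≤ H934.levelSub hc hy := by
    intro q hq A hA s hs
    have hq' : (q : ℕ) ∉ S' ∪ Q := fun h => hq (Finset.mem_subtype.2 h)
    have hqS' : (q : ℕ) ∉ S' := fun h => hq' (Finset.mem_union_left _ h)
    have hqSmin : (q : ℕ) ∉ Smin := fun h => hqS' (hS' h)
    have hqp : (q : ℕ) ≠ p := fun h => hqSmin (h ▸ hyp.hpSmin)
    have hρur : ρbar.IsUnramifiedAt (q : ℕ) := by
      by_contra hne
      exact hqSmin ((hyp.hmin q q.2 hqp).2 hne)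
    exact ⟨hρur A hA s hs,
      Fermat.Agent.S56.H554.fixes_mu_of_mem_inertia q.2 hA hyp.hp (Ne.symm hqp) hs,
      hcur q q.2 hq' A hA s hs, hyur q q.2 hqS' A hA s hs⟩
  obtain ⟨F, ⟨hFfin, hFur⟩, hFfix, -⟩ := Fermat.Agent.S55.Bridge.exists_level_of_subgroup
    ((S' ∪ Q).subtype Nat.Prime : Finset Nat.Primes) (H934.levelSub hc hy) F₀ hF₀fin hF₀ hur
  refine ⟨F, hFfin, ?_, ?_⟩
  · intro q hq hqS P hP s hs x hx
    have hmem : s ∈ F.fixingSubgroup :=
      hFur ⟨q, hq⟩ (fun h => hqS (Finset.mem_subtype.1 h)) P hP hs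
    exact (IntermediateField.mem_fixingSubgroup_iff F s).1 hmem x hx
  · intro σ τ s s' hs hs'
    have hsN : s ∈ H934.levelSub hc hy := by
      rw [← hFfix]
      exact (IntermediateField.mem_fixingSubgroup_iff F s).2 hs
    have hsN' : s' ∈ H934.levelSub hc hy := by
      rw [← hFfix]
      exact (IntermediateField.mem_fixingSubgroup_iff F s').2 hs'
    exact H934.cup_mul_right hyp.hp hc hy σ τ s s' hsN hsN'

section Local

variable (𝒪 : Type) [CommRing 𝒪] [IsDomain 𝒪] [IsDiscreteValuationRing 𝒪]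
  [IsAdicComplete (maximalIdeal 𝒪) 𝒪] [Finite (ResidueField 𝒪)]
  (p : ℕ) (ρbar : ResidualGaloisRep (ResidueField 𝒪)) (S Smin : Finset ℕ)

/-- **Local structure of the pairing at a Taylor–Wiles prime**, relative to `S'`
(`RQ.exists_local_forms` with `Smin` replaced by `S'` in the Selmer conditions). -/
theorem exists_local_forms_sub (hF : FrameStatement) (hL : LineStatement)
    (hN : NondegStatement) (hU : UrCupStatement) (hT : LocTrivTwStatement)
    (hC : CobCupStatement) (hJ : ConjStatement) (hyp : Hyp 𝒪 p ρbar S Smin)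
    (S' : Finset ℕ) (hS' : Smin ⊆ S') (hS'S : S' ⊆ S)
    (Pl : ℕ → ValuationSubring Qb)
    (D : Submodule (ResidueField 𝒪) (GQ → Module.End (ResidueField 𝒪) ρbar.V))
    (hD : IsDualFrame ρbar p D)
    (hDur : ∀ y ∈ D, ∀ q : ℕ, q.Prime → q ∉ S' → UnramAt ρbar y q)
    (Q : Finset ℕ) (hQ : ∀ q ∈ Q, IsTWPrime ρbar p S q) (q : ℕ) (hq : q ∈ Q)
    (P : ValuationSubring Qb) (hP : P.LiesOverPrime q)
    (inv : (GQ × GQ → ResidueField 𝒪) →ₗ[ResidueField 𝒪] ResidueField 𝒪)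
    (hcob : ∀ z : GQ × GQ → ResidueField 𝒪,
      IsCob₂On p (P.decompositionSubgroup ℚ) z → inv z = 0)
    (hinj : ∀ z : GQ × GQ → ResidueField 𝒪, IsCoc₂On p (P.decompositionSubgroup ℚ) z →
      IsLC₂On (P.decompositionSubgroup ℚ) z → inv z = 0 →
      IsCob₂On p (P.decompositionSubgroup ℚ) z) :
    ∃ (a : ↥(selSub ρbar Pl S' Q) →ₗ[ResidueField 𝒪] ResidueField 𝒪)
      (b : ↥D →ₗ[ResidueField 𝒪] ResidueField 𝒪),
      (∀ c : ↥(selSub ρbar Pl S' Q), a c = 0 →
        UnramAt ρbar (c : GQ → Module.End (ResidueField 𝒪) ρbar.V) q) ∧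
      (∀ y : ↥D, b y = 0 →
        LocTrivAt ρbar p q (y : GQ → Module.End (ResidueField 𝒪) ρbar.V)) ∧
      ∀ (c : ↥(selSub ρbar Pl S' Q)) (y : ↥D),
        inv (cup ρbar (c : GQ → Module.End (ResidueField 𝒪) ρbar.V) y) = a c * b y := by
  classical
  have hp := hyp.hp
  have : CharP (ResidueField 𝒪) p := H536.charP_residueField 𝒪 p hyp.hp hyp.hp𝒪
  have hTW := hQ q hq
  obtain ⟨hqP, hqS, -, -⟩ := hQ q hq
  have hqS' : q ∉ S' := fun h => hqS (hS'S h)
  have hqSmin : q ∉ Smin := fun h => hqS (hyp.hSmin h)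
  have hqp : q ≠ p := fun h => hqSmin (h ▸ hyp.hpSmin)
  have hur : ρbar.IsUnramifiedAt q := by
    by_contra h
    exact hqSmin ((hyp.hmin q hqP hqp).mpr h)
  -- a Frobenius element at `P`
  obtain ⟨A, φ₀, hA, hφ₀⟩ := Fermat.Agent.S54.exists_frobenius q hqP
  obtain ⟨g, hg⟩ := Fermat.Agent.Lib.Cheb.H476.exists_smul_eq hqP hA hP
  have hφ : P.IsFrobeniusAt (g * φ₀ * g⁻¹) q := by
    have := Fermat.Agent.Lib.Cheb.H476.isFrobeniusAt_conj g hφ₀
    rwa [hg] at this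
  generalize g * φ₀ * g⁻¹ = φ at hφ
  obtain ⟨τ, hτ, hgen⟩ := hF 𝒪 p ρbar S Smin hyp q hTW P hP
  obtain ⟨h, -, hh2, -, hline, hdec⟩ := hL 𝒪 p ρbar S Smin hyp q hTW P hP φ hφ
  set X := selSub ρbar Pl S' Q with hX
  set t : ResidueField 𝒪 := LinearMap.trace (ResidueField 𝒪) ρbar.V (h * h) with ht
  let a₀ : ↥X →ₗ[ResidueField 𝒪] ResidueField 𝒪 := t⁻¹ • trEval ρbar X h τ
  let b₀ : ↥D →ₗ[ResidueField 𝒪] ResidueField 𝒪 := trEval ρbar D h φ
  have ha₀ : ∀ c : ↥X, a₀ c = t⁻¹ * LinearMap.trace (ResidueField 𝒪) ρbar.V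
      (h * (c : GQ → Module.End (ResidueField 𝒪) ρbar.V) τ) := fun c => rfl
  have hb₀ : ∀ y : ↥D, b₀ y = LinearMap.trace (ResidueField 𝒪) ρbar.V
      (h * (y : GQ → Module.End (ResidueField 𝒪) ρbar.V) φ) := fun y => rfl
  have hcX : ∀ c : ↥X, IsSelCocycle ρbar Pl (fun _ => ⊥) S' Q
      (c : GQ → Module.End (ResidueField 𝒪) ρbar.V) := fun c => c.2
  -- `c τ = a₀ c • h`
  have hcτ : ∀ c : ↥X, (c : GQ → Module.End (ResidueField 𝒪) ρbar.V) τ = a₀ c • h := by
    intro c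
    obtain ⟨r, hr⟩ := hline c (hcX c).cocycle τ hτ
    rw [ha₀, hr, mul_smul_comm, map_smul, smul_eq_mul, ← ht, mul_comm r t, ← mul_assoc,
      inv_mul_cancel₀ hh2, one_mul]
  have htr : ∀ (c : ↥X) (y : ↥D), LinearMap.trace (ResidueField 𝒪) ρbar.V
      ((c : GQ → Module.End (ResidueField 𝒪) ρbar.V) τ *
        (y : GQ → Module.End (ResidueField 𝒪) ρbar.V) φ) = a₀ c * b₀ y := by
    intro c y
    rw [hcτ c, smul_mul_assoc, map_smul, smul_eq_mul, hb₀]
  have hyI : ∀ y : ↥D, ∀ σ ∈ P.inertiaSubgroupIn ℚ,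
      (y : GQ → Module.End (ResidueField 𝒪) ρbar.V) σ = 0 :=
    fun y σ hσ => hDur y y.2 q hqP hqS' P hP σ hσ
  have hyc : ∀ y : ↥D, IsTwCocycle ρbar p (y : GQ → Module.End (ResidueField 𝒪) ρbar.V) :=
    fun y => hD.isTwCocycle y y.2
  -- `a₀ c = 0 ⇒ c` vanishes on `I_P`
  have hunr : ∀ c : ↥X, a₀ c = 0 → ∀ σ ∈ P.inertiaSubgroupIn ℚ,
      (c : GQ → Module.End (ResidueField 𝒪) ρbar.V) σ = 0 := by
    intro c hc
    refine hgen c (hcX c).cocycle ?_
    rw [hcτ c, hc, zero_smul]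
  -- `b₀ y = 0 ⇒ y` is a coboundary on `D_P`
  have hloc : ∀ y : ↥D, b₀ y = 0 → ∃ m, IsTwCoboundaryOn ρbar p (P.decompositionSubgroup ℚ)
      (y : GQ → Module.End (ResidueField 𝒪) ρbar.V) m := by
    intro y hy
    obtain ⟨m, hm0, hm⟩ := hdec ((y : GQ → Module.End (ResidueField 𝒪) ρbar.V) φ)
      ((hyc y).trace_eq_zero φ) (by rw [← hb₀]; exact hy)
    exact ⟨m, hT 𝒪 p ρbar S Smin hyp q hTW P hP φ hφ y (hyc y) (hyI y) m hm0 hm⟩
  let J := cupPairing ρbar X D inv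
  have h1 : ∀ (c : ↥X) (y : ↥D), a₀ c = 0 → J c y = 0 := by
    intro c y hc
    rw [cupPairing_apply]
    exact hcob _ (hU 𝒪 p ρbar S Smin hyp q hTW P hP c y (hcX c).cocycle (hyc y)
      (hunr c hc) (hyI y))
  have h2 : ∀ (c : ↥X) (y : ↥D), b₀ y = 0 → J c y = 0 := by
    intro c y hy
    rw [cupPairing_apply]
    exact hcob _ ((hC (ResidueField 𝒪) p hp ρbar (P.decompositionSubgroup ℚ) c y
      (hcX c).cocycle (hyc y)).2 (hloc y hy))
  have h3 : ∀ (c : ↥X) (y : ↥D), J c y = 0 → a₀ c * b₀ y = 0 := by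
    intro c y hJ0
    rw [cupPairing_apply] at hJ0
    obtain ⟨hz, L, hLfin, -, hlev⟩ := globZSub 𝒪 p ρbar S Smin hyp S' hS' hS'S Q hQ c y
      (hcX c).cocycle (hcX c).unram (hyc y) (hDur y y.2)
    have hcob' := hinj _ (fun σ _ τ' _ υ _ a' ha' => hz σ trivial τ' trivial υ trivial a' ha')
      ⟨L, hLfin, fun σ _ τ' _ s _ s' _ hs hs' => hlev σ τ' s s' hs hs'⟩ hJ0
    rw [← htr]
    exact hN 𝒪 p ρbar S Smin hyp q hTW P hP φ hφ τ hτ c y (hcX c).cocycle (hyc y) (hyI y) hcob'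
  obtain ⟨w, hw, hJw⟩ := pairing_rank_one J a₀ b₀ h1 h2 h3
  refine ⟨a₀, w • b₀, fun c hc P' hP' σ hσ => ?_, fun y hy => ?_, fun c y => ?_⟩
  · exact (hJ (ResidueField 𝒪) ρbar q hqP P P' hP hP' c (hcX c).cocycle).1 hur (hunr c hc) σ hσ
  · rw [LinearMap.smul_apply, smul_eq_mul] at hy
    have hy' : b₀ y = 0 := (mul_eq_zero.1 hy).resolve_left hw
    obtain ⟨m, hm⟩ := hloc y hy'
    exact ⟨P, hP, m, hm⟩
  · have := hJw c y
    rw [cupPairing_apply] at this
    rw [this]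
    show w * (a₀ c * b₀ y) = a₀ c * (w * b₀ y)
    ring

end Local


section Global

variable (𝒪 : Type) [CommRing 𝒪] [IsDomain 𝒪] [IsDiscreteValuationRing 𝒪]
  [IsAdicComplete (maximalIdeal 𝒪) 𝒪] [Finite (ResidueField 𝒪)]
  (p : ℕ) (ρbar : ResidualGaloisRep (ResidueField 𝒪)) (S Smin : Finset ℕ)

/-- **Glue** `REC-Q-SUB ⇐ leaves`, for one residual representation and one `S'`. -/
theorem recQSub_of_leaves (hR : PlainRecipStatement) (hF : FrameStatement)
    (hL : LineStatement) (hN : NondegStatement) (hU : UrCupStatement)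
    (hT : LocTrivTwStatement) (hC : CobCupStatement) (hJ : ConjStatement)
    (hyp : Hyp 𝒪 p ρbar S Smin) (S' : Finset ℕ) (hS' : Smin ⊆ S') (hS'S : S' ⊆ S) :
    RecQ 𝒪 p ρbar S S' := by
  classical
  intro Pl hPl D hD hDur Q hQ hK
  have hp := hyp.hp
  have hchar : CharP (ResidueField 𝒪) p := H536.charP_residueField 𝒪 p hyp.hp hyp.hp𝒪
  have hpSg : p ∈ S' ∪ Q := Finset.mem_union_left _ (hS' hyp.hpSmin)
  have hSgprime : ∀ v ∈ S' ∪ Q, v.Prime := by
    intro v hv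
    rcases Finset.mem_union.1 hv with h | h
    · exact hyp.hS v (hS'S h)
    · exact (hQ v h).1
  have hdisj : Disjoint S' Q := by
    rw [Finset.disjoint_left]
    intro v hv hvQ
    exact (hQ v hvQ).2.1 (hS'S hv)
  obtain ⟨Pv, inv, hPv, hcob, hinj, hrec⟩ :=
    hR (ResidueField 𝒪) p hp hyp.hp2 (S' ∪ Q) hpSg hSgprime
  set X := selSub ρbar Pl S' Q with hX
  have hcX : ∀ c : ↥X, IsSelCocycle ρbar Pl (fun _ => ⊥) S' Q
      (c : GQ → Module.End (ResidueField 𝒪) ρbar.V) := fun c => c.2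
  have hyc : ∀ y : ↥D, IsTwCocycle ρbar p (y : GQ → Module.End (ResidueField 𝒪) ρbar.V) :=
    fun y => hD.isTwCocycle y y.2
  -- the local forms
  have hloc : ∀ q ∈ Q, ∃ (a : ↥X →ₗ[ResidueField 𝒪] ResidueField 𝒪)
      (b : ↥D →ₗ[ResidueField 𝒪] ResidueField 𝒪),
      (∀ c : ↥X, a c = 0 →
        UnramAt ρbar (c : GQ → Module.End (ResidueField 𝒪) ρbar.V) q) ∧
      (∀ y : ↥D, b y = 0 →
        LocTrivAt ρbar p q (y : GQ → Module.End (ResidueField 𝒪) ρbar.V)) ∧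
      ∀ (c : ↥X) (y : ↥D),
        inv q (cup ρbar (c : GQ → Module.End (ResidueField 𝒪) ρbar.V) y) = a c * b y :=
    fun q hq => exists_local_forms_sub 𝒪 p ρbar S Smin hF hL hN hU hT hC hJ hyp S' hS' hS'S
      Pl D hD hDur Q hQ q hq (Pv q) (hPv q (Finset.mem_union_right _ hq)) (inv q)
      (hcob q (Finset.mem_union_right _ hq))
      (hinj q (Finset.mem_union_right _ hq) (hQ q hq).2.2.1)
  choose! a b ha hb hab using hloc
  -- reciprocity
  have hsum : ∀ (c : ↥X) (y : ↥D), ∑ q ∈ Q, a q c * b q y = 0 := by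
    intro c y
    have h1 := hrec _ (globZSub 𝒪 p ρbar S Smin hyp S' hS' hS'S Q hQ c y (hcX c).cocycle
      (hcX c).unram (hyc y) (hDur y y.2))
    rw [Finset.sum_union hdisj] at h1
    have h2 : ∑ v ∈ S', inv v (cup ρbar (c : GQ → Module.End (ResidueField 𝒪) ρbar.V) y)
        = 0 := by
      refine Finset.sum_eq_zero fun v hv => ?_
      obtain ⟨t, ht, hct⟩ := (hcX c).loc v hv
      rw [(Submodule.mem_bot _).1 ht, sub_zero] at hct
      have h3 := (hJ (ResidueField 𝒪) ρbar v (hyp.hS v (hS'S hv)) (Pl v) (Pv v) (hPl v hv)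
        (hPv v (Finset.mem_union_left _ hv)) c (hcX c).cocycle).2 hct
      exact hcob v (Finset.mem_union_left _ hv) _
        ((hC (ResidueField 𝒪) p hp ρbar _ c y (hcX c).cocycle (hyc y)).1 h3)
    rw [h2, zero_add] at h1
    rw [← h1]
    exact Finset.sum_congr rfl fun q hq => (hab q hq c y).symm
  -- linear algebra
  let A : ↥X →ₗ[ResidueField 𝒪] (↥Q → ResidueField 𝒪) := LinearMap.pi fun q => a q.1
  let lam : ↥D →ₗ[ResidueField 𝒪] Module.Dual (ResidueField 𝒪) (↥Q → ResidueField 𝒪) :=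
    ∑ q : ↥Q, (b q.1).smulRight
      (LinearMap.proj q : (↥Q → ResidueField 𝒪) →ₗ[ResidueField 𝒪] ResidueField 𝒪)
  have hlam_apply : ∀ (y : ↥D) (t : ↥Q → ResidueField 𝒪), lam y t = ∑ q : ↥Q, b q.1 y * t q := by
    intro y t
    simp only [lam, LinearMap.sum_apply, LinearMap.smulRight_apply, LinearMap.smul_apply,
      LinearMap.proj_apply, smul_eq_mul]
  have hlam : Function.Injective lam := by
    refine (injective_iff_map_eq_zero lam).2 fun y hy => ?_
    have hb0 : ∀ q ∈ Q, b q y = 0 := by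
      intro q hq
      have h1 := hlam_apply y (Pi.single (⟨q, hq⟩ : ↥Q) 1)
      rw [hy, LinearMap.zero_apply, Finset.sum_eq_single (⟨q, hq⟩ : ↥Q)] at h1
      · rw [Pi.single_eq_same, mul_one] at h1
        exact h1.symm
      · intro q' _ hne
        rw [Pi.single_eq_of_ne hne, mul_zero]
      · intro h
        exact absurd (Finset.mem_univ _) h
    have h0 := hK y y.2 fun q hq => hb q hq y (hb0 q hq)
    exact Subtype.ext h0
  have hrecA : ∀ (y : ↥D) (r : ↥(LinearMap.range A)),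
      lam y ((LinearMap.range A).subtype r) = 0 := by
    rintro y ⟨_, c, rfl⟩
    rw [Submodule.subtype_apply, hlam_apply]
    have h1 := hsum c y
    rw [← Finset.sum_coe_sort] at h1
    rw [← h1]
    exact Finset.sum_congr rfl fun q _ => mul_comm _ _
  have : FiniteDimensional (ResidueField 𝒪)
      ↥(LinearMap.ker (LinearMap.range A).subtype) := by
    rw [Submodule.ker_subtype]
    infer_instance
  have hdim := H831.comparison_abstract (LinearMap.range A).subtype lam hlam hrecA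
  have hker : Module.finrank (ResidueField 𝒪)
      ↥(LinearMap.ker (LinearMap.range A).subtype) = 0 := by
    rw [Submodule.ker_subtype]
    exact finrank_bot _ _
  have hcard : Module.finrank (ResidueField 𝒪) (↥Q → ResidueField 𝒪) = Q.card := by
    rw [Module.finrank_fintype_fun_eq_card, Fintype.card_coe]
  rw [hker, hcard, zero_add] at hdim
  -- a linear section of `A`
  obtain ⟨s, hs⟩ := A.rangeRestrict.exists_rightInverse_of_surjective
    (LinearMap.range_rangeRestrict A)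
  have hAs : ∀ r : ↥(LinearMap.range A), A (s r) = r := by
    intro r
    have := congrArg (fun f => (f r : ↥Q → ResidueField 𝒪)) hs
    simpa using this
  refine ⟨LinearMap.range (X.subtype ∘ₗ s), inferInstance, ?_, fun c hc => ?_⟩
  · have h1 : Module.finrank (ResidueField 𝒪) ↥(LinearMap.range (X.subtype ∘ₗ s)) ≤
        Module.finrank (ResidueField 𝒪) ↥(LinearMap.range A) :=
      LinearMap.finrank_range_le _
    omega
  · let c₀ : ↥X := ⟨c, hc⟩
    let u₀ : ↥X := s (A.rangeRestrict c₀)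
    have hA0 : A (c₀ - u₀) = 0 := by
      rw [map_sub, hAs]
      exact sub_self _
    have ha0 : ∀ q ∈ Q, a q (c₀ - u₀) = 0 := fun q hq =>
      congrFun hA0 (⟨q, hq⟩ : ↥Q)
    have hsel := hcX (c₀ - u₀)
    refine ⟨(u₀ : GQ → Module.End (ResidueField 𝒪) ρbar.V), ⟨A.rangeRestrict c₀, rfl⟩,
      ((c₀ - u₀ : ↥X) : GQ → Module.End (ResidueField 𝒪) ρbar.V),
      ⟨hsel.cocycle, fun q hqP hqn => ?_, hsel.loc⟩, ⟨0, fun σ => ?_⟩⟩
    · by_cases hqQ : q ∈ Q
      · exact ha q hqQ _ (ha0 q hqQ)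
      · refine hsel.unram q hqP fun h => ?_
        rcases Finset.mem_union.1 h with h' | h'
        · exact hqn (Finset.mem_union_left _ h')
        · exact hqQ h'
    · simp [c₀]

end Global

/-- **(REC-Q-SUB) from the frozen leaves of REC-Q** (route C). -/
theorem recQSub_of (hR : PlainRecipStatement) (hF : FrameStatement) (hL : LineStatement)
    (hN : NondegStatement) (hU : UrCupStatement) (hT : LocTrivTwStatement)
    (hC : CobCupStatement) (hJ : ConjStatement) : RecQSubStatement :=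
  fun 𝒪 _ _ _ _ _ p ρbar S Smin hyp S' hS' hS'S =>
    recQSub_of_leaves 𝒪 p ρbar S Smin hR hF hL hN hU hT hC hJ hyp S' hS' hS'S

end Fermat.Agent.S56.RQ.H14

end
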