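import Fermat.Agent.S56.RQ.GlueSub

/-!
# Row S56 — REC-Q-SUB: adapters on top of `RQ/GlueSub.lean` (helper554)

* `plainRecipG_of_plainRecip : PlainRecipStatement → PlainRecipGStatement` (RECIP ⇒ RECIP-G; RECIP is
  `RQ/RecipH14.lean`, `H14.plainRecip_of`, from S55's `InvSpec`);
* `recQSub_of' : RECIP → FRAME → LINE → NONDEG → URCUP → LOCTRIV → COBCUP → CONJ → GLOBZ-SUB →
  H716.RecQSubStatement`.
-/

set_option autoImplicit false

open Polynomial IsLocalRing

noncomputable section

namespace Fermat.Agent.S56.RQ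

open Fermat.Agent.S56 Fermat.Agent.S56.H716

/-- RECIP (linear invariants on all 2-cochains) implies RECIP-G (invariants on global
2-cocycles). -/
theorem plainRecipG_of_plainRecip (h : PlainRecipStatement) : PlainRecipGStatement := by
  intro k _ _ p _ hp hp2 Sg hpSg hSg
  obtain ⟨Pv, inv, hPv, hcob, hinj, hrec⟩ := h k p hp hp2 Sg hpSg hSg
  refine ⟨Pv, fun v z => inv v z, hPv, ?_, ?_, ?_, ?_, hrec⟩
  · intro v _ z z' _ _
    exact map_add _ _ _
  · intro v _ r z _
    simp only [map_smul, smul_eq_mul]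
  · intro v hv z _ hz
    exact hcob v hv z hz
  · intro v hv _ hdvd z hz h0
    obtain ⟨hc, L, hL, -, hlev⟩ := hz
    exact hinj v hv hdvd z
      (fun σ _ τ _ υ _ a ha =>
        hc σ (Subgroup.mem_top _) τ (Subgroup.mem_top _) υ (Subgroup.mem_top _) a ha)
      ⟨L, hL, fun σ _ τ _ s _ s' _ hs hs' => hlev σ τ s s' hs hs'⟩ h0

/-- **REC-Q-SUB from the leaves**, with RECIP in the form of `RQ/Spec.lean`. -/
theorem recQSub_of' (hR : PlainRecipStatement) (hF : FrameStatement) (hL : LineStatement)
    (hN : NondegStatement) (hU : UrCupStatement) (hT : LocTrivTwStatement)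
    (hC : CobCupStatement) (hJ : ConjStatement) (hG : GlobZSubStatement) :
    H716.RecQSubStatement :=
  recQSub_of (plainRecipG_of_plainRecip hR) hF hL hN hU hT hC hJ hG

end Fermat.Agent.S56.RQ

end
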